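import Fermat.Agent.LanglandsTunnell.Geom.H3

/-!
# Topology and invariant measure on hyperbolic three-space

Coordinates identify `H3` with the open half space, which gives the topological and Borel
instances and continuity of the action.  The measure `volH3` is σ-finite and invariant under
`GL₂(ℂ)` (`measurePreserving_smul`), proved for triangular matrices and the Weyl element.
-/

set_option autoImplicit false

noncomputable section

open Complex ComplexConjugate MeasureTheory Topology
open scoped MatrixGroups ENNReal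

namespace FLTAgent.LanglandsTunnell

namespace H3

/-- The point with given coordinates, with junk value `base` outside the half space. -/
def mkPt (x : ℂ × ℝ) : H3 := if h : 0 < x.2 then ⟨x.1, x.2, h⟩ else base

theorem coords_injective : Function.Injective coords := fun _ _ h =>
  H3.ext (congrArg Prod.fst h) (congrArg Prod.snd h)

theorem mkPt_coords (P : H3) : mkPt P.coords = P := by simp [mkPt, coords, P.t_pos]

theorem coords_mkPt {x : ℂ × ℝ} (hx : 0 < x.2) : (mkPt x).coords = x := by simp [mkPt, coords, hx]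

/-- The half space. -/
def halfSpace : Set (ℂ × ℝ) := {x | 0 < x.2}

/-- The upper half space is open. -/
theorem isOpen_halfSpace : IsOpen halfSpace := isOpen_lt continuous_const continuous_snd

theorem range_coords : Set.range coords = halfSpace := by
  ext x
  exact ⟨fun ⟨P, h⟩ => h ▸ P.t_pos, fun hx => ⟨mkPt x, coords_mkPt hx⟩⟩

theorem isOpenEmbedding_coords : IsOpenEmbedding coords :=
  ⟨⟨⟨rfl⟩, coords_injective⟩, range_coords ▸ isOpen_halfSpace⟩

theorem continuous_coords : Continuous coords := isOpenEmbedding_coords.continuous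

/-- The first coordinate is continuous. -/
theorem continuous_z : Continuous H3.z := continuous_fst.comp continuous_coords

/-- The height is continuous. -/
theorem continuous_t : Continuous H3.t := continuous_snd.comp continuous_coords

/-- A map to `H³` is continuous iff both coordinates are. -/
theorem continuous_mk_iff {X : Type*} [TopologicalSpace X] {f : X → H3} :
    Continuous f ↔ Continuous (fun x => (f x).z) ∧ Continuous (fun x => (f x).t) := by
  rw [isOpenEmbedding_coords.isInducing.continuous_iff]
  exact continuous_prodMk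

instance : T2Space H3 := isOpenEmbedding_coords.isEmbedding.t2Space

instance : SecondCountableTopology H3 := isOpenEmbedding_coords.isEmbedding.secondCountableTopology

instance : LocallyCompactSpace H3 := isOpenEmbedding_coords.locallyCompactSpace

instance instBorelSpace : BorelSpace H3 := ⟨by
  show MeasurableSpace.comap coords inferInstance = @borel H3 (TopologicalSpace.induced coords _)
  rw [borel_comap, ← BorelSpace.measurable_eq]⟩

theorem measurableEmbedding_coords : MeasurableEmbedding coords :=
  isOpenEmbedding_coords.measurableEmbedding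

/-- The coordinate chart is measurable. -/
theorem measurable_mkPt : Measurable mkPt := by
  refine measurableEmbedding_coords.measurable_comp_iff.mp ?_
  have : coords ∘ mkPt = fun x => if 0 < x.2 then x else base.coords := by
    funext x
    by_cases h : 0 < x.2 <;> simp [Function.comp_apply, mkPt, h, coords]
  rw [this]
  exact Measurable.ite isOpen_halfSpace.measurableSet measurable_id measurable_const

theorem continuous_denom : Continuous fun p : GL (Fin 2) ℂ × H3 => denom p.1 p.2 := by
  have h := fun i j => (Units.continuous_val.comp continuous_fst :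
    Continuous fun p : GL (Fin 2) ℂ × H3 => p.1.val).matrix_elem i j
  exact ((continuous_normSq.comp (((h 1 0).mul (continuous_z.comp continuous_snd)).add (h 1 1))).add
    ((continuous_normSq.comp (h 1 0)).mul ((continuous_t.comp continuous_snd).pow 2)))

instance : ContinuousSMul (GL (Fin 2) ℂ) H3 := ⟨by
  have h := fun i j => (Units.continuous_val.comp continuous_fst :
    Continuous fun p : GL (Fin 2) ℂ × H3 => p.1.val).matrix_elem i j
  have hz := continuous_z.comp (continuous_snd (X := GL (Fin 2) ℂ) (Y := H3))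
  have ht := continuous_t.comp (continuous_snd (X := GL (Fin 2) ℂ) (Y := H3))
  refine continuous_mk_iff.mpr ⟨?_, ?_⟩
  · simp only [smul_z]
    exact ((((h 0 0).mul hz).add (h 0 1)).mul
      (continuous_conj.comp (((h 1 0).mul hz).add (h 1 1)))
      |>.add (((h 0 0).mul (continuous_conj.comp (h 1 0))).mul
        ((continuous_ofReal.comp ht).pow 2))).div
      (continuous_ofReal.comp continuous_denom) fun p => by
        exact_mod_cast (denom_pos p.1 p.2).ne'
  · simp only [smul_t]
    exact ((continuous_norm.comp (Units.continuous_val.comp continuous_fst).matrix_det).mul ht).div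
      continuous_denom fun p => (denom_pos p.1 p.2).ne'⟩

/-- The density `1 / t³` is measurable. -/
theorem measurable_density : Measurable fun x : ℂ × ℝ => ENNReal.ofReal (1 / x.2 ^ 3) := by fun_prop

/-- Integration against the hyperbolic volume in coordinates. -/
theorem lintegral_vol {f : H3 → ℝ≥0∞} (hf : Measurable f) :
    ∫⁻ P, f P ∂volH3 = ∫⁻ x in halfSpace, ENNReal.ofReal (1 / x.2 ^ 3) * f (mkPt x) := by
  have hg : Measurable fun x => f (mkPt x) := hf.comp measurable_mkPt
  calc ∫⁻ P, f P ∂volH3 = ∫⁻ P, f (mkPt P.coords) ∂volH3 := by simp only [mkPt_coords]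
    _ = ∫⁻ x, f (mkPt x) ∂((volH3 : Measure H3).map coords) :=
      (lintegral_map hg measurableEmbedding_coords.measurable).symm
    _ = _ := by
      rw [volH3, measurableEmbedding_coords.map_comap, range_coords,
        restrict_withDensity isOpen_halfSpace.measurableSet,
        lintegral_withDensity_eq_lintegral_mul _ measurable_density hg]
      rfl

/-- The hyperbolic volume is `σ`-finite. -/
theorem sigmaFinite_volH3 : SigmaFinite (volH3 : Measure H3) := by
  have : SigmaFinite ((volume : Measure (ℂ × ℝ)).withDensity fun x =>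
      ENNReal.ofReal (1 / x.2 ^ 3)) :=
    SigmaFinite.withDensity_of_ne_top (Filter.Eventually.of_forall fun _ => ENNReal.ofReal_ne_top)
  exact SigmaFinite.of_map _ measurableEmbedding_coords.measurable.aemeasurable (by
    rw [volH3, measurableEmbedding_coords.map_comap]; infer_instance)

/-- Translation by `g` preserves all integrals. -/
def Preserves (g : GL (Fin 2) ℂ) : Prop :=
  ∀ f : H3 → ℝ≥0∞, Measurable f → ∫⁻ P, f (g • P) ∂volH3 = ∫⁻ P, f P ∂volH3

theorem Preserves.mul {g h : GL (Fin 2) ℂ} (hg : Preserves g) (hh : Preserves h) :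
    Preserves (g * h) := fun f hf => by
  simp only [mul_smul]
  exact (hh _ (hf.comp (continuous_const_smul g).measurable)).trans (hg f hf)

theorem preserves_of_coords {g : GL (Fin 2) ℂ} (T : ℂ × ℝ → ℂ × ℝ)
    (T' : ℂ × ℝ → (ℂ × ℝ) →L[ℝ] ℂ × ℝ) (hT : ∀ P : H3, (g • P).coords = T P.coords)
    (hd : ∀ x ∈ halfSpace, HasFDerivAt T (T' x) x)
    (hdet : ∀ x ∈ halfSpace, |(T' x).det| * (1 / (T x).2 ^ 3) = 1 / x.2 ^ 3) : Preserves g := by
  intro f hf
  have hTx : ∀ x ∈ halfSpace, T x = (g • mkPt x).coords := fun x hx => by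
    rw [hT, coords_mkPt hx]
  have himg : T '' halfSpace = halfSpace := by
    refine Set.Subset.antisymm ?_ fun x hx => ⟨(g⁻¹ • mkPt x).coords, (g⁻¹ • mkPt x).t_pos, ?_⟩
    · rintro _ ⟨x, hx, rfl⟩
      rw [hTx x hx]
      exact (g • mkPt x).t_pos
    · rw [← hT, smul_inv_smul, coords_mkPt hx]
  have hinj : Set.InjOn T halfSpace := fun x hx y hy h => by
    rw [hTx x hx, hTx y hy] at h
    rw [← coords_mkPt hx, ← coords_mkPt hy, smul_left_cancel g (coords_injective h)]
  rw [lintegral_vol (f := fun P => f (g • P)) (hf.comp (continuous_const_smul g).measurable),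
    lintegral_vol hf]
  conv_rhs => rw [← himg]
  have : (volume : Measure (ℂ × ℝ)).IsAddHaarMeasure := by
    rw [Measure.volume_eq_prod]; infer_instance
  rw [lintegral_image_eq_lintegral_abs_det_fderiv_mul volume isOpen_halfSpace.measurableSet
    (fun x hx => (hd x hx).hasFDerivWithinAt) hinj]
  refine setLIntegral_congr_fun isOpen_halfSpace.measurableSet fun x hx => ?_
  rw [← mul_assoc, ← ENNReal.ofReal_mul (abs_nonneg _), hdet x hx, hTx x hx, mkPt_coords]

theorem preserves_of_lower_eq_zero {g : GL (Fin 2) ℂ} (hc : g.val 1 0 = 0) : Preserves g := by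
  have hd0 : g.val 1 1 ≠ 0 := (row_ne_zero g).resolve_left (not_not.mpr hc)
  have ha0 : g.val 0 0 ≠ 0 := fun h => g.det_ne_zero (by
    show g.val.det = 0
    rw [Matrix.det_fin_two, h, hc]; simp)
  set α := g.val 0 0 / g.val 1 1 with hα
  have hα0 : α ≠ 0 := div_ne_zero ha0 hd0
  set L : (ℂ × ℝ) →L[ℝ] ℂ × ℝ :=
    (ContinuousLinearMap.mul ℝ ℂ α).prodMap (‖α‖ • ContinuousLinearMap.id ℝ ℝ)
  refine preserves_of_coords (fun x => L x + (g.val 0 1 / g.val 1 1, 0)) (fun _ => L)
    (fun P => ?_) (fun x _ => L.hasFDerivAt.add_const _) (fun x hx => ?_)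
  · have hnd : (normSq (g.val 1 1) : ℂ) = g.val 1 1 * conj (g.val 1 1) := (mul_conj _).symm
    refine Prod.ext ?_ ?_
    · simp only [coords, smul_z, denom, L, ContinuousLinearMap.coe_prodMap', Prod.map_fst,
        ContinuousLinearMap.mul_apply', Prod.fst_add, hc, zero_mul, zero_add, map_zero, mul_zero,
        add_zero, hnd, hα]
      have hcd : conj (g.val 1 1) ≠ 0 := by simpa using hd0
      field_simp
    · simp only [coords, smul_t, denom, L, ContinuousLinearMap.coe_prodMap', Prod.map_snd,
        Prod.snd_add, hc,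
        zero_mul, zero_add, map_zero, mul_zero, add_zero, smul_apply,
        ContinuousLinearMap.id_apply, smul_eq_mul, Matrix.det_fin_two, sub_zero, norm_mul,
        hα, norm_div, Complex.normSq_eq_norm_sq]
      have : ‖g.val 1 1‖ ≠ 0 := norm_ne_zero_iff.mpr hd0
      field_simp
  · have hdet : L.det = ‖α‖ ^ 3 := by
      rw [ContinuousLinearMap.det,
        show (L : (ℂ × ℝ) →ₗ[ℝ] ℂ × ℝ)
          = (LinearMap.mul ℝ ℂ α).prodMap (‖α‖ • LinearMap.id) from rfl,
        LinearMap.det_prodMap, LinearMap.det_smul, LinearMap.det_id, Module.finrank_self]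
      have hn : LinearMap.det (LinearMap.mul ℝ ℂ α) = Algebra.norm ℝ α := by
        rw [Algebra.norm_apply]; rfl
      rw [hn, Algebra.norm_complex_apply, Complex.normSq_eq_norm_sq]
      ring
    have hx0 : x.2 ≠ 0 := ne_of_gt hx
    have hα' : ‖α‖ ≠ 0 := norm_ne_zero_iff.mpr hα0
    rw [hdet, abs_of_nonneg (pow_nonneg (norm_nonneg α) 3)]
    simp only [L, ContinuousLinearMap.coe_prodMap', Prod.map_snd, Prod.snd_add, add_zero,
      smul_apply, ContinuousLinearMap.id_apply, smul_eq_mul]
    field_simp

/-- The matrix `[[0, -1], [1, 0]]`. -/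
def weyl : GL (Fin 2) ℂ where
  val := !![0, -1; 1, 0]
  inv := !![0, 1; -1, 0]
  val_inv := by ext i j; fin_cases i <;> fin_cases j <;> simp
  inv_val := by ext i j; fin_cases i <;> fin_cases j <;> simp

theorem weyl_val : weyl.val = !![0, -1; 1, 0] := rfl

theorem preserves_weyl : Preserves weyl := by
  let e : WithLp 2 (ℂ × ℝ) ≃L[ℝ] ℂ × ℝ := WithLp.prodContinuousLinearEquiv 2 ℝ ℂ ℝ
  let S : (ℂ × ℝ) →L[ℝ] ℂ × ℝ :=
    (-(conjCLE : ℂ →L[ℝ] ℂ)).prodMap (ContinuousLinearMap.id ℝ ℝ)
  let N : ℂ × ℝ → ℝ := fun x => normSq x.1 + x.2 ^ 2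
  have hnorm : ∀ x : ℂ × ℝ, ‖e.symm x‖ ^ 2 = N x := fun x => by
    rw [WithLp.prod_norm_sq_eq_of_L2, ← Complex.normSq_eq_norm_sq]
    simp [e, N]
  let D : ℂ × ℝ → WithLp 2 (ℂ × ℝ) →L[ℝ] WithLp 2 (ℂ × ℝ) := fun x =>
    (1 / dist (e.symm x) 0) ^ 2 • ((ℝ ∙ (e.symm x - 0))ᗮ.reflection : _ →L[ℝ] _)
  refine preserves_of_coords (fun x => S (e (EuclideanGeometry.inversion 0 1 (e.symm x))))
    (fun x => (S.comp (e : _ →L[ℝ] _)).comp ((D x).comp (e.symm : _ →L[ℝ] _)))
    (fun P => ?_) (fun x hx => ?_) (fun x hx => ?_)
  · have hden : denom weyl P = N P.coords := by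
      simp [denom, weyl_val, N, coords]
    have hinv : e (EuclideanGeometry.inversion 0 1 (e.symm P.coords))
        = (N P.coords)⁻¹ • P.coords := by
      rw [EuclideanGeometry.inversion, vsub_eq_sub, sub_zero, vadd_eq_add, add_zero, map_smul,
        e.apply_symm_apply, dist_zero_right, one_div, inv_pow, hnorm]
    have hN : N P.coords ≠ 0 := hden ▸ (denom_pos weyl P).ne'
    refine Prod.ext ?_ ?_
    · rw [hinv]
      simp only [coords, smul_z, hden, S]
      simp [weyl_val, div_eq_inv_mul]
    · rw [hinv]
      simp only [coords, smul_t, hden, S]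
      simp [weyl_val, div_eq_inv_mul]
  · have hne : e.symm x ≠ 0 := fun h => by
      have : x = 0 := e.symm.map_eq_zero_iff.mp h
      rw [this] at hx
      exact lt_irrefl (0 : ℝ) hx
    exact (S.comp (e : _ →L[ℝ] _)).hasFDerivAt.comp x
      ((EuclideanGeometry.hasFDerivAt_inversion (R := (1 : ℝ)) hne).comp x e.symm.hasFDerivAt)
  · have hpos : 0 < N x := add_pos_of_nonneg_of_pos (normSq_nonneg _) (pow_pos hx 2)
    have hS : |S.det| = 1 := by
      have h2 : (S : (ℂ × ℝ) →ₗ[ℝ] ℂ × ℝ) ∘ₗ S = LinearMap.id :=
        LinearMap.ext fun y => by simp [S]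
      have h3 := congrArg LinearMap.det h2
      rw [LinearMap.det_comp, LinearMap.det_id] at h3
      rw [ContinuousLinearMap.det]
      rcases mul_self_eq_one_iff.mp h3 with h | h <;> simp [h]
    have hdet : ((S.comp (e : _ →L[ℝ] _)).comp ((D x).comp (e.symm : _ →L[ℝ] _))).det
        = S.det * (D x).det := by
      rw [ContinuousLinearMap.det, ContinuousLinearMap.det, ContinuousLinearMap.det,
        ← LinearMap.det_conj (D x : _ →ₗ[ℝ] _) e.toLinearEquiv, ← LinearMap.det_comp]
      rfl
    have hD : |(D x).det| = (N x)⁻¹ ^ 3 := by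
      have hfin : Module.finrank ℝ (WithLp 2 (ℂ × ℝ)) = 3 := by
        rw [e.toLinearEquiv.finrank_eq, Module.finrank_prod, Complex.finrank_real_complex,
          Module.finrank_self]
      rw [ContinuousLinearMap.det,
        show ((D x) : WithLp 2 (ℂ × ℝ) →ₗ[ℝ] WithLp 2 (ℂ × ℝ))
          = (1 / dist (e.symm x) 0) ^ 2 • ((ℝ ∙ (e.symm x - 0))ᗮ.reflection.toLinearMap) from rfl,
        LinearMap.det_smul, hfin, Submodule.det_reflection, abs_mul, abs_pow, abs_pow, abs_pow,
        abs_neg, abs_one, one_pow, mul_one, dist_zero_right, ← abs_pow, one_div, inv_pow, hnorm,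
        abs_inv, abs_of_pos hpos]
    have hx0 : x.2 ≠ 0 := ne_of_gt hx
    rw [hdet, abs_mul, hS, one_mul, hD]
    have : (S (e (EuclideanGeometry.inversion 0 1 (e.symm x)))).2 = x.2 / N x := by
      rw [EuclideanGeometry.inversion, vsub_eq_sub, sub_zero, vadd_eq_add, add_zero, map_smul,
        e.apply_symm_apply, dist_zero_right, one_div, inv_pow, hnorm]
      simp [S, div_eq_inv_mul]
    rw [this, div_pow, one_div_div, inv_pow]
    field_simp

theorem preserves (g : GL (Fin 2) ℂ) : Preserves g := by
  rcases eq_or_ne (g.val 1 0) 0 with hc | hc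
  · exact preserves_of_lower_eq_zero hc
  have hdet := g.det_ne_zero
  set u : GL (Fin 2) ℂ := Matrix.GeneralLinearGroup.mkOfDetNeZero !![1, g.val 0 0 / g.val 1 0; 0, 1]
    (by simp)
  set b : GL (Fin 2) ℂ := Matrix.GeneralLinearGroup.mkOfDetNeZero
    !![g.val 1 0, g.val 1 1; 0, g.val.det / g.val 1 0] (by
      rw [Matrix.det_fin_two_of, mul_zero, sub_zero, mul_div_cancel₀ _ hc]; exact hdet)
  have hg : g = u * weyl * b := by
    refine Matrix.GeneralLinearGroup.ext fun i j => ?_
    fin_cases i <;> fin_cases j <;>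
      simp [u, b, weyl, Matrix.GeneralLinearGroup.val_mkOfDetNeZero,
        Matrix.mul_apply, Matrix.det_fin_two] <;> field_simp
    ring
  rw [hg]
  exact ((preserves_of_lower_eq_zero (by simp [u,
    Matrix.GeneralLinearGroup.val_mkOfDetNeZero])).mul preserves_weyl).mul
    (preserves_of_lower_eq_zero (by simp [b, Matrix.GeneralLinearGroup.val_mkOfDetNeZero]))

/-- The hyperbolic volume is invariant. -/
theorem measurePreserving_smul (g : GL (Fin 2) ℂ) : MeasurePreserving (g • ·) volH3 volH3 := by
  refine ⟨(continuous_const_smul g).measurable, Measure.ext fun s hs => ?_⟩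
  rw [Measure.map_apply (continuous_const_smul g).measurable hs, ← lintegral_indicator_one hs,
    ← lintegral_indicator_one (hs.preimage (continuous_const_smul g).measurable)]
  exact preserves g (s.indicator 1) (measurable_one.indicator hs)

instance : SMulInvariantMeasure (GL (Fin 2) ℂ) H3 volH3 :=
  ⟨fun g _ hs => (measurePreserving_smul g).measure_preimage hs.nullMeasurableSet⟩

end H3

end FLTAgent.LanglandsTunnell
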