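import Fermat.Agent.LanglandsTunnell.Geom.Orbits
import Fermat.Agent.LanglandsTunnell.Geom.H3Measure

/-!
# Cusp heights on points

The size `sizeFn` of a vector at an adelic point and the height `height Φ x v` of the cusp through
`v`: positivity, continuity, invariance under the action and under scaling of `v`, and the bound
`h h' ≤ 1` for two different cusps (`height_mul_le_one`).
-/

set_option autoImplicit false
set_option linter.unusedSectionVars false

noncomputable section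

open NumberField Matrix
open scoped nonZeroDivisors

namespace FLTAgent.LanglandsTunnell.Geom

open FLTAgent.LanglandsTunnell

variable {F : Type} [Field F] [NumberField F] {ι : Type} [Fintype ι]

/-! ### Products over the chosen embeddings -/

theorem mult_eq_two (Φ : PlaceChoice F ι) (i : ι) : (InfinitePlace.mk (Φ.emb i)).mult = 2 :=
  InfinitePlace.mult_isComplex ⟨_, Φ.isComplex i⟩

/-- The bijection with infinite places. -/
def placeEquiv (Φ : PlaceChoice F ι) : ι ≃ InfinitePlace F := Equiv.ofBijective _ Φ.bijective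

theorem placeEquiv_apply (Φ : PlaceChoice F ι) (i : ι) :
    placeEquiv Φ i = InfinitePlace.mk (Φ.emb i) := rfl

/-- The product of the squared absolute values is the absolute norm. -/
theorem prod_norm_sq_emb (Φ : PlaceChoice F ι) (x : F) :
    ∏ i, ‖Φ.emb i x‖ ^ 2 = |(Algebra.norm ℚ x : ℝ)| := by
  rw [← Rat.cast_abs, ← InfinitePlace.prod_eq_abs_norm, ← (placeEquiv Φ).prod_comp]
  refine Finset.prod_congr rfl fun i _ => ?_
  rw [placeEquiv_apply, mult_eq_two, InfinitePlace.apply]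

theorem two_mul_card (Φ : PlaceChoice F ι) : 2 * Fintype.card ι = Module.finrank ℚ F := by
  rw [← InfinitePlace.sum_mult_eq, ← (placeEquiv Φ).sum_comp,
    Finset.sum_congr rfl fun i _ => (placeEquiv_apply Φ i).symm ▸ mult_eq_two Φ i,
    Finset.sum_const, Finset.card_univ, smul_eq_mul, mul_comm]

/-! ### The size of a vector -/

variable {n : Ideal (𝓞 F)}

/-- The adelic size of `v` at `(g, P)`. -/
def sizeFn (Φ : PlaceChoice F ι) (g : GL (Fin 2) (AF F)) (P : ι → H3) (v : Fin 2 → F) : ℝ :=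
  nrm (coordFrac g v) ^ 2 / nrm (ideleFrac (GeneralLinearGroup.det g)) *
    ∏ i, (P i).qform (Φ.emb i ∘ v) ^ 2

theorem sizeFn_pos (Φ : PlaceChoice F ι) (g : GL (Fin 2) (AF F)) (P : ι → H3) {v : Fin 2 → F}
    (hv : v ≠ 0) : 0 < sizeFn Φ g P v := by
  refine mul_pos (div_pos (pow_pos (nrm_pos (coordFrac_ne_zero g hv)) 2)
    (nrm_pos (ideleFrac_ne_zero _))) (Finset.prod_pos fun i _ => pow_pos (H3.qform_pos _ ?_) 2)
  intro h
  obtain ⟨j, hj⟩ := Function.ne_iff.mp hv
  exact hj ((Φ.emb i).injective ((congrFun h j).trans (map_zero _).symm))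

theorem ideleFrac_det_mul_right {g k : GL (Fin 2) (AF F)} (hk : Bounded 1 k) :
    ideleFrac (GeneralLinearGroup.det (g * k)) = ideleFrac (GeneralLinearGroup.det g) := by
  have h := bounded_one_iff.mp hk
  rw [map_mul, ideleFrac_mul, ideleFrac_eq_one (z := GeneralLinearGroup.det k) h.1.det
    (by rw [← map_inv, GeneralLinearGroup.val_det_apply]; exact h.2.det), mul_one]

theorem det_scalar_two {R : Type} [CommRing R] (z : Rˣ) :
    GeneralLinearGroup.det (GeneralLinearGroup.scalar (Fin 2) z) = z ^ 2 :=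
  Units.ext (by simp [sq])

theorem sizeFn_mul_right (Φ : PlaceChoice F ι) {g k : GL (Fin 2) (AF F)} (hk : Bounded 1 k)
    (z : (AF F)ˣ) (P : ι → H3) (v : Fin 2 → F) :
    sizeFn Φ (g * k * GeneralLinearGroup.scalar (Fin 2) z) P v = sizeFn Φ g P v := by
  by_cases hv : v = 0
  · simp [sizeFn, hv, coordFrac, nrm]
  rw [sizeFn, sizeFn, coordFrac_mul_scalar _ _ hv, coordFrac_mul_right hk, map_mul,
    ideleFrac_mul, ideleFrac_det_mul_right hk, det_scalar_two, pow_two z, ideleFrac_mul,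
    nrm_mul, nrm_mul, nrm_mul]
  have := (nrm_pos (ideleFrac_ne_zero z)).ne'
  field_simp

theorem sizeFn_map_mul (Φ : PlaceChoice F ι) (γ : GL (Fin 2) F) (g : GL (Fin 2) (AF F))
    (P : ι → H3) (v : Fin 2 → F) :
    sizeFn Φ (GeneralLinearGroup.map (toAF F) γ * g)
        (fun i => GeneralLinearGroup.map (Φ.emb i) γ • P i) (γ.val *ᵥ v) = sizeFn Φ g P v := by
  have hdet : ∀ i, ((GeneralLinearGroup.map (Φ.emb i) γ).val).det = Φ.emb i γ.val.det := fun i =>
    ((Φ.emb i).map_det γ.val).symm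
  have hq : ∀ i, (GeneralLinearGroup.map (Φ.emb i) γ • P i).qform (Φ.emb i ∘ (γ.val *ᵥ v))
      = ‖Φ.emb i γ.val.det‖ * (P i).qform (Φ.emb i ∘ v) := fun i => by
    rw [show Φ.emb i ∘ (γ.val *ᵥ v) = (GeneralLinearGroup.map (Φ.emb i) γ).val *ᵥ (Φ.emb i ∘ v) from
      funext fun j => RingHom.map_mulVec (Φ.emb i) γ.val v j, H3.qform_smul, hdet]
  have hd : GeneralLinearGroup.det (GeneralLinearGroup.map (toAF F) γ)
      = Units.map (toAF F : F →* AF F) (GeneralLinearGroup.det γ) :=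
    Units.ext ((toAF F).map_det γ.val).symm
  simp only [sizeFn, coordFrac_map_mul, map_mul, hd, ideleFrac_mul, ideleFrac_toAF, nrm_mul,
    nrm_spanSingleton, hq, mul_pow, Finset.prod_mul_distrib]
  rw [prod_norm_sq_emb, GeneralLinearGroup.val_det_apply]
  have h0 : |(Algebra.norm ℚ γ.val.det : ℝ)| ≠ 0 := by simpa using γ.det_ne_zero
  field_simp

theorem sizeFn_smul (Φ : PlaceChoice F ι) (g : GL (Fin 2) (AF F)) (P : ι → H3) {a : F}
    (ha : a ≠ 0) {v : Fin 2 → F} (hv : v ≠ 0) :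
    sizeFn Φ g P (a • v) = sizeFn Φ g P v := by
  have hq : ∀ i, (P i).qform (Φ.emb i ∘ (a • v)) = ‖Φ.emb i a‖ ^ 2 * (P i).qform (Φ.emb i ∘ v) :=
    fun i => by
      rw [show Φ.emb i ∘ (a • v) = Φ.emb i a • (Φ.emb i ∘ v) from funext fun j => by simp,
        H3.qform_smul_vec, Complex.normSq_eq_norm_sq]
  simp only [sizeFn, coordFrac_smul g ha hv, nrm_mul, nrm_spanSingleton, hq, mul_pow,
    Finset.prod_mul_distrib]
  rw [Finset.prod_pow _ 2 fun i => ‖Φ.emb i a‖ ^ 2, prod_norm_sq_emb,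
    show Algebra.norm ℚ a⁻¹ = (Algebra.norm ℚ a)⁻¹ from
      eq_inv_of_mul_eq_one_left (by rw [← map_mul, inv_mul_cancel₀ ha, map_one]), Rat.cast_inv,
    abs_inv]
  have h0 : |(Algebra.norm ℚ a : ℝ)| ≠ 0 := by simpa using ha
  field_simp

theorem one_le_sizeFn_mul (Φ : PlaceChoice F ι) (g : GL (Fin 2) (AF F)) (P : ι → H3)
    {v w : Fin 2 → F} (h : v 0 * w 1 - v 1 * w 0 ≠ 0) :
    1 ≤ sizeFn Φ g P v * sizeFn Φ g P w := by
  set D := v 0 * w 1 - v 1 * w 0 with hD_def
  have hv : v ≠ 0 := by rintro rfl; simp [hD_def] at h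
  have hw : w ≠ 0 := by rintro rfl; simp [hD_def] at h
  have hI := nrm_pos (coordFrac_ne_zero g hv)
  have hJ := nrm_pos (coordFrac_ne_zero g hw)
  set d := nrm (ideleFrac (GeneralLinearGroup.det g)) with hd_def
  have hd : 0 < d := nrm_pos (ideleFrac_ne_zero _)
  have h1 : d ≤ nrm (coordFrac g v) * nrm (coordFrac g w) * |(Algebra.norm ℚ D : ℝ)| := by
    rw [← nrm_spanSingleton, ← nrm_mul, ← nrm_mul]
    exact nrm_le_of_le (mul_ne_zero (mul_ne_zero (coordFrac_ne_zero g hv) (coordFrac_ne_zero g hw))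
      (FractionalIdeal.spanSingleton_ne_zero_iff.mpr h)) (coordFrac_mul_det_le g hv hw)
  have h2 : |(Algebra.norm ℚ D : ℝ)| ^ 2
      ≤ ∏ i, ((P i).qform (Φ.emb i ∘ v) ^ 2 * (P i).qform (Φ.emb i ∘ w) ^ 2) := by
    rw [← prod_norm_sq_emb Φ, ← Finset.prod_pow]
    refine Finset.prod_le_prod (fun i _ => sq_nonneg _) fun i _ => ?_
    rw [← mul_pow]
    refine pow_le_pow_left₀ (sq_nonneg _) ?_ 2
    refine le_of_eq_of_le ?_ (H3.normSq_det_le_qform_mul (P i) _ _)
    rw [Complex.normSq_eq_norm_sq, hD_def, map_sub, map_mul, map_mul]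
    rfl
  rw [Finset.prod_mul_distrib] at h2
  have h3 : d ^ 2 ≤ (nrm (coordFrac g v) * nrm (coordFrac g w)) ^ 2 *
      ((∏ i, (P i).qform (Φ.emb i ∘ v) ^ 2) * ∏ i, (P i).qform (Φ.emb i ∘ w) ^ 2) :=
    (pow_le_pow_left₀ hd.le h1 2).trans (by
      rw [mul_pow]
      exact mul_le_mul_of_nonneg_left h2 (sq_nonneg _))
  rw [sizeFn, sizeFn, ← hd_def]
  calc (1 : ℝ) = d ^ 2 / d ^ 2 := (div_self (pow_ne_zero 2 hd.ne')).symm
    _ ≤ _ := div_le_div_of_nonneg_right h3 (sq_nonneg d)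
    _ = _ := by field_simp

/-- In the standard position the size only sees the heights `t`. -/
theorem sizeFn_fst (Φ : PlaceChoice F ι) (g : GL (Fin 2) (AF F)) (P : ι → H3) :
    sizeFn Φ g P ![1, 0] = nrm (coordFrac g ![1, 0]) ^ 2 /
      nrm (ideleFrac (GeneralLinearGroup.det g)) * ((∏ i, (P i).t) ^ 2)⁻¹ := by
  rw [sizeFn, ← Finset.prod_pow, ← Finset.prod_inv_distrib]
  congr 1
  refine Finset.prod_congr rfl fun i _ => ?_
  rw [show Φ.emb i ∘ ![(1 : F), 0] = ![1, 0] from funext fun j => by fin_cases j <;> simp,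
    H3.qform_fst, inv_pow]

theorem continuous_sizeFn (Φ : PlaceChoice F ι) (g : GL (Fin 2) (AF F)) (v : Fin 2 → F) :
    Continuous fun P : ι → H3 => sizeFn Φ g P v := by
  refine continuous_const.mul (continuous_finsetProd _ fun i _ => Continuous.pow ?_ 2)
  simp only [H3.qform]
  have hz := H3.continuous_z.comp (continuous_apply (A := fun _ : ι => H3) i)
  have ht := H3.continuous_t.comp (continuous_apply (A := fun _ : ι => H3) i)
  exact ((Complex.continuous_normSq.comp (continuous_const.sub (hz.mul continuous_const))).add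
    ((ht.pow 2).mul continuous_const)).div ht fun P => (P i).t_pos.ne'

/-! ### Heights of points -/

/-- The height of the cusp through `v`, seen from a point. -/
def height (Φ : PlaceChoice F ι) (x : Pt F ι n) (v : Fin 2 → F) : ℝ :=
  Quotient.liftOn' x.1 (fun g => (sizeFn Φ g x.2 v)⁻¹) fun g g' h => by
    obtain ⟨k, hk, z, rfl⟩ := exists_level_decomp (Quotient.sound' h : (g : FinPt F n) = g')
    simp only [sizeFn_mul_right Φ (bounded_of_congrOne hk) z]

theorem height_mk (Φ : PlaceChoice F ι) (g : GL (Fin 2) (AF F)) (P : ι → H3) (v : Fin 2 → F) :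
    height Φ ((g : FinPt F n), P) v = (sizeFn Φ g P v)⁻¹ := rfl

theorem height_pos (Φ : PlaceChoice F ι) (x : Pt F ι n) {v : Fin 2 → F} (hv : v ≠ 0) :
    0 < height Φ x v := by
  obtain ⟨⟨g⟩, P⟩ := x
  exact inv_pos.mpr (sizeFn_pos Φ g P hv)

theorem height_act (Φ : PlaceChoice F ι) (γ : GL (Fin 2) F) (x : Pt F ι n) (v : Fin 2 → F) :
    height Φ (act Φ γ x) (γ.val *ᵥ v) = height Φ x v := by
  obtain ⟨⟨g⟩, P⟩ := x
  exact congrArg Inv.inv (sizeFn_map_mul Φ γ g P v)

theorem height_smul (Φ : PlaceChoice F ι) (x : Pt F ι n) {a : F} (ha : a ≠ 0) {v : Fin 2 → F}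
    (hv : v ≠ 0) : height Φ x (a • v) = height Φ x v := by
  obtain ⟨⟨g⟩, P⟩ := x
  exact congrArg Inv.inv (sizeFn_smul Φ g P ha hv)

/-- Two different cusps cannot both be high. -/
theorem height_mul_le_one (Φ : PlaceChoice F ι) (x : Pt F ι n) {v w : Fin 2 → F}
    (h : v 0 * w 1 - v 1 * w 0 ≠ 0) : height Φ x v * height Φ x w ≤ 1 := by
  obtain ⟨⟨g⟩, P⟩ := x
  show (sizeFn Φ g P v)⁻¹ * (sizeFn Φ g P w)⁻¹ ≤ 1
  rw [← mul_inv]
  exact inv_le_one_of_one_le₀ (one_le_sizeFn_mul Φ g P h)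

theorem continuous_height (Φ : PlaceChoice F ι) (y : FinPt F n) {v : Fin 2 → F} (hv : v ≠ 0) :
    Continuous fun P : ι → H3 => height Φ (y, P) v := by
  obtain ⟨g, rfl⟩ := QuotientGroup.mk_surjective y
  exact (continuous_sizeFn Φ g v).inv₀ fun P => (sizeFn_pos Φ g P hv).ne'

end FLTAgent.LanglandsTunnell.Geom
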