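import Fermat.Agent.LanglandsTunnell.Geom.Heights

/-!
# The lattice of integers in `ℂ^ι`

The real-linear embedding `embLin` of `𝓞 F` into `ℂ^ι`, bounded translates (`exists_translate`),
a short vector for every point by Minkowski's theorem (`exists_short_vector`), and balancing of
the archimedean sizes by units (`exists_unit_balance`).  Input of the reduction theory.
-/

set_option autoImplicit false
set_option linter.unusedSectionVars false

noncomputable section

open NumberField Matrix MeasureTheory Module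
open scoped nonZeroDivisors ENNReal

namespace FLTAgent.LanglandsTunnell.Geom

open FLTAgent.LanglandsTunnell

variable {F : Type} [Field F] [NumberField F] {ι : Type} [Fintype ι]

/-- The index of the integral basis. -/
abbrev BIdx (F : Type) [Field F] [NumberField F] : Type := Free.ChooseBasisIndex ℤ (𝓞 F)

/-- The real span of the integers. -/
def embLin (Φ : PlaceChoice F ι) : (BIdx F → ℝ) →ₗ[ℝ] (ι → ℂ) where
  toFun s i := ∑ k, (s k : ℂ) * Φ.emb i (RingOfIntegers.basis F k : F)
  map_add' s t := funext fun i => by simp [add_mul, Finset.sum_add_distrib]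
  map_smul' c s := funext fun i => by simp [Finset.mul_sum, mul_assoc]

theorem embLin_injective (Φ : PlaceChoice F ι) : Function.Injective (embLin Φ) := by
  rw [← LinearMap.ker_eq_bot, LinearMap.ker_eq_bot']
  intro s hs
  have hφ : ∀ φ : F →+* ℂ, ∑ k, (s k : ℂ) * φ (RingOfIntegers.basis F k : F) = 0 := by
    intro φ
    obtain ⟨i, hi⟩ := Φ.bijective.surjective (InfinitePlace.mk φ)
    have h0 : ∑ k, (s k : ℂ) * Φ.emb i (RingOfIntegers.basis F k : F) = 0 := congrFun hs i
    rcases InfinitePlace.mk_eq_iff.mp hi with h | h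
    · rwa [← h]
    · rw [← h]
      have := congrArg (starRingEnd ℂ) h0
      simpa [ComplexEmbedding.conjugate_coe_eq, map_sum] using this
  have hli := Fintype.linearIndependent_iff.mp (canonicalEmbedding.latticeBasis F).linearIndependent
    (fun k => (s k : ℂ)) (funext fun φ => by
      simp only [canonicalEmbedding.latticeBasis_apply, Finset.sum_apply, Pi.smul_apply,
        smul_eq_mul, canonicalEmbedding.apply_at, Pi.zero_apply, integralBasis_apply]
      exact hφ φ)
  exact funext fun k => by exact_mod_cast hli k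

theorem card_bIdx (Φ : PlaceChoice F ι) : Fintype.card (BIdx F) = 2 * Fintype.card ι := by
  rw [← Module.finrank_eq_card_chooseBasisIndex, RingOfIntegers.rank, two_mul_card Φ]

theorem embLin_bijective (Φ : PlaceChoice F ι) : Function.Bijective (embLin Φ) := by
  refine ⟨embLin_injective Φ, (LinearMap.injective_iff_surjective_of_finrank_eq_finrank ?_).mp
    (embLin_injective Φ)⟩
  rw [Module.finrank_pi, Module.finrank_pi_fintype ℝ, card_bIdx Φ]
  simp [Complex.finrank_real_complex, mul_comm]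

theorem embLin_intCast (Φ : PlaceChoice F ι) (r : BIdx F → ℤ) (i : ι) :
    embLin Φ (fun k => (r k : ℝ)) i =
      Φ.emb i ((∑ k, r k • RingOfIntegers.basis F k : 𝓞 F) : F) := by
  simp only [map_sum, zsmul_eq_mul, map_mul, map_intCast]
  exact Finset.sum_congr rfl fun k _ => by simp

/-- Translates by integers reach a bounded region. -/
theorem exists_translate (Φ : PlaceChoice F ι) :
    ∃ C : ℝ, ∀ z : ι → ℂ, ∃ a : 𝓞 F, ∀ i, ‖z i + Φ.emb i (a : F)‖ ≤ C := by
  refine ⟨∑ i, ∑ k, ‖Φ.emb i (RingOfIntegers.basis F k : F)‖, fun z => ?_⟩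
  obtain ⟨s, rfl⟩ := (embLin_bijective Φ).surjective z
  refine ⟨∑ k, (-⌊s k⌋) • RingOfIntegers.basis F k, fun i => ?_⟩
  have h : embLin Φ s i + Φ.emb i ((∑ k, (-⌊s k⌋) • RingOfIntegers.basis F k : 𝓞 F) : F)
      = embLin Φ (fun k => Int.fract (s k)) i := by
    rw [← embLin_intCast, ← Pi.add_apply, ← map_add]
    refine congrFun (congrArg (embLin Φ) (funext fun k => ?_)) i
    simp [Int.fract, sub_eq_add_neg]
  rw [h]
  refine (norm_sum_le _ _).trans ((Finset.sum_le_sum fun k _ => ?_).trans
    (Finset.single_le_sum (f := fun i => ∑ k, ‖Φ.emb i (RingOfIntegers.basis F k : F)‖)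
      (fun i _ => Finset.sum_nonneg fun k _ => norm_nonneg _) (Finset.mem_univ i)))
  rw [norm_mul, Complex.norm_real, Real.norm_eq_abs, abs_of_nonneg (Int.fract_nonneg _)]
  exact mul_le_of_le_one_left (norm_nonneg _) (Int.fract_lt_one _).le

/-! ### Short vectors -/

/-- The normalising matrix of a point. -/
def normMat (P : H3) : Matrix (Fin 2) (Fin 2) ℂ :=
  !![((√P.t)⁻¹ : ℝ), -P.z * ((√P.t)⁻¹ : ℝ); 0, (√P.t : ℝ)]

theorem det_normMat (P : H3) : (normMat P).det = 1 := by
  rw [normMat, Matrix.det_fin_two_of, mul_zero, sub_zero, ← Complex.ofReal_mul,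
    inv_mul_cancel₀ (Real.sqrt_ne_zero'.mpr P.t_pos), Complex.ofReal_one]

theorem qform_eq_normMat (P : H3) (v : Fin 2 → ℂ) :
    P.qform v = ‖(normMat P *ᵥ v) 0‖ ^ 2 + ‖(normMat P *ᵥ v) 1‖ ^ 2 := by
  have ht := Real.sq_sqrt P.t_pos.le
  have ht0 := P.t_ne_zero
  have h0 : (normMat P *ᵥ v) 0 = ((√P.t)⁻¹ : ℝ) * (v 0 - P.z * v 1) := by
    simp [normMat, Matrix.mulVec, dotProduct]; ring
  have h1 : (normMat P *ᵥ v) 1 = (√P.t : ℝ) * v 1 := by
    simp [normMat, Matrix.mulVec, dotProduct]
  rw [h0, h1, norm_mul, norm_mul, Complex.norm_real, Complex.norm_real, mul_pow, mul_pow,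
    Real.norm_eq_abs, Real.norm_eq_abs, sq_abs, sq_abs, inv_pow, ht, H3.qform,
    Complex.normSq_eq_norm_sq, Complex.normSq_eq_norm_sq]
  field_simp

/-- The block diagonal normalisation. -/
def normLin (P : ι → H3) : (ι → Fin 2 → ℂ) →ₗ[ℝ] ι → Fin 2 → ℂ :=
  LinearMap.pi fun i => ((Matrix.toLin' (normMat (P i))).restrictScalars ℝ).comp (LinearMap.proj i)

theorem measurePreserving_normLin (P : ι → H3) :
    MeasurePreserving (normLin P) volume volume := by
  refine volume_preserving_pi (f := fun i v => Matrix.toLin' (normMat (P i)) v) fun i => ?_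
  set f := (Matrix.toLin' (normMat (P i))).restrictScalars ℝ with hf
  have hdet : LinearMap.det f = 1 := by
    rw [hf, LinearMap.det_restrictScalars, LinearMap.det_toLin', det_normMat, map_one]
  refine ⟨f.continuous_of_finiteDimensional.measurable, ?_⟩
  show Measure.map f volume = volume
  rw [Measure.map_linearMap_addHaar_eq_smul_addHaar _ (by rw [hdet]; exact one_ne_zero), hdet]
  simp

theorem exists_short_vector (Φ : PlaceChoice F ι) :
    ∃ C : ℝ, ∀ P : ι → H3, ∃ w : Fin 2 → 𝓞 F, w ≠ 0 ∧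
      ∀ i, (P i).qform (fun j => Φ.emb i (w j : F)) ≤ C := by
  let e : (Fin 2 → BIdx F → ℝ) →ₗ[ℝ] ι → Fin 2 → ℂ :=
    { toFun := fun s i j => embLin Φ (s j) i
      map_add' := fun s t => funext fun i => funext fun j => by
        simp only [Pi.add_apply, map_add]
      map_smul' := fun c s => funext fun i => funext fun j => by
        simp only [Pi.smul_apply, map_smul, RingHom.id_apply] }
  have he : Function.Bijective e := by
    refine ⟨fun s t h => funext fun j => embLin_injective Φ (funext fun i =>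
      congrFun (congrFun h i) j), fun y => ?_⟩
    choose s hs using fun j => (embLin_bijective Φ).surjective fun i => y i j
    exact ⟨s, funext fun i => funext fun j => congrFun (hs j) i⟩
  let b : Basis (Fin 2 × BIdx F) ℝ (ι → Fin 2 → ℂ) :=
    ((Pi.basisFun ℝ (Fin 2 × BIdx F)).map (LinearEquiv.curry ℝ ℝ (Fin 2) (BIdx F))).map
      (LinearEquiv.ofBijective e he)
  have hb : ∀ p, b p = fun i => Pi.single p.1 (Φ.emb i (RingOfIntegers.basis F p.2 : F)) := by
    intro p
    funext i j
    simp only [b, Basis.map_apply, Pi.basisFun_apply, LinearEquiv.ofBijective_apply, e,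
      LinearMap.coe_mk, AddHom.coe_mk, embLin]
    rcases eq_or_ne j p.1 with rfl | hj
    · rw [Pi.single_eq_same, Finset.sum_eq_single p.2] <;>
        simp +contextual [LinearEquiv.coe_curry, Function.curry, Prod.ext_iff]
    · rw [Pi.single_eq_of_ne hj]
      refine Finset.sum_eq_zero fun k _ => ?_
      simp [LinearEquiv.coe_curry, Function.curry, Prod.ext_iff, hj]
  have : (volume : Measure (ι → Fin 2 → ℂ)).IsAddHaarMeasure :=
    Measure.pi.isAddHaarMeasure fun _ : ι => (volume : Measure (Fin 2 → ℂ))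
  have : Countable (Submodule.span ℤ (Set.range b)).toAddSubgroup :=
    inferInstanceAs (Countable (Submodule.span ℤ (Set.range b)))
  set V := volume (ZSpan.fundamentalDomain b) * 2 ^ finrank ℝ (ι → Fin 2 → ℂ) with hV
  have hVtop : V ≠ ⊤ :=
    ENNReal.mul_ne_top (ZSpan.fundamentalDomain_isBounded b).measure_lt_top.ne (by simp)
  have hc : volume (Metric.ball (0 : ι → Fin 2 → ℂ) 1) ≠ 0 :=
    (Metric.measure_ball_pos _ _ one_pos).ne'
  obtain ⟨R, hR0, hR⟩ := ENNReal.exists_nat_pos_mul_gt hc hVtop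
  refine ⟨2 * (R : ℝ) ^ 2, fun P => ?_⟩
  have hN : 1 ≤ finrank ℝ (ι → Fin 2 → ℂ) := by
    rw [finrank_eq_card_basis b]
    have : Nonempty (BIdx F) := (Module.Free.chooseBasis ℤ (𝓞 F)).index_nonempty
    exact Fintype.card_pos
  have hball : V < volume (normLin P ⁻¹' Metric.closedBall 0 (R : ℝ)) := by
    rw [(measurePreserving_normLin P).measure_preimage measurableSet_closedBall.nullMeasurableSet,
      Measure.addHaar_closedBall _ _ (Nat.cast_nonneg R)]
    refine hR.trans_le (mul_le_mul_left ?_ _)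
    rw [ENNReal.ofReal_pow (Nat.cast_nonneg R), ENNReal.ofReal_natCast]
    exact le_self_pow₀ (by exact_mod_cast hR0) (by omega)
  obtain ⟨⟨x, hx⟩, hx0, hxs⟩ := exists_ne_zero_mem_lattice_of_measure_mul_two_pow_lt_measure
    (ZSpan.isAddFundamentalDomain' b volume)
    (fun y hy => by simpa [Set.mem_preimage] using hy)
    ((convex_closedBall _ _).linear_preimage _) hball
  obtain ⟨r, hr⟩ := (Submodule.mem_span_range_iff_exists_fun ℤ).mp hx
  let w : Fin 2 → 𝓞 F := fun j => ∑ k, r (j, k) • RingOfIntegers.basis F k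
  have hxw : ∀ i j, x i j = Φ.emb i (w j : F) := fun i j => by
    rw [← hr, Finset.sum_apply, Finset.sum_apply, Fintype.sum_prod_type]
    simp only [hb, Pi.smul_apply, w, map_sum]
    rw [Finset.sum_eq_single j]
    · simp
    · intro j' _ hj'
      refine Finset.sum_eq_zero fun k _ => ?_
      simp [Pi.single_eq_of_ne hj'.symm]
    · simp
  refine ⟨w, fun hw => hx0 (Subtype.ext (funext fun i => funext fun j => ?_)), fun i => ?_⟩
  · simp [hxw, hw]
  have hle : ∀ j, ‖(normMat (P i) *ᵥ x i) j‖ ≤ R := fun j => by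
    have h1 : ‖normLin P x‖ ≤ R := mem_closedBall_zero_iff.mp hxs
    exact ((norm_le_pi_norm (normLin P x i) j).trans (norm_le_pi_norm _ i)).trans h1
  rw [show (fun j => Φ.emb i (w j : F)) = x i from funext fun j => (hxw i j).symm,
    qform_eq_normMat, two_mul]
  exact add_le_add (pow_le_pow_left₀ (norm_nonneg _) (hle 0) 2)
    (pow_le_pow_left₀ (norm_nonneg _) (hle 1) 2)

/-! ### Units -/

theorem exists_unit_balance (Φ : PlaceChoice F ι) : ∃ C : ℝ, ∀ y : ι → ℝ, ∑ i, y i = 0 →
    ∃ u : (𝓞 F)ˣ, ∀ i, |y i + Real.log ‖Φ.emb i ((u : 𝓞 F) : F)‖| ≤ C := by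
  classical
  let L := NumberField.Units.unitLattice F
  let b := (Free.chooseBasis ℤ L).ofZLatticeBasis ℝ
  let C₀ := ∑ k, ‖b k‖
  refine ⟨(Fintype.card (InfinitePlace F) + 1) * C₀, fun y hy => ?_⟩
  let e := placeEquiv Φ
  let x : NumberField.Units.dirichletUnitTheorem.logSpace F := fun w => -2 * y (e.symm w.1)
  have hfl : (ZSpan.floor b x : NumberField.Units.dirichletUnitTheorem.logSpace F) ∈ L :=
    ((Free.chooseBasis ℤ L).ofZLatticeBasis_span ℝ).le (ZSpan.floor b x).2
  obtain ⟨u, -, hu⟩ := hfl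
  have hC₀ : 0 ≤ C₀ := Finset.sum_nonneg fun k _ => norm_nonneg _
  have hne : ∀ i, e i ≠ NumberField.Units.dirichletUnitTheorem.w₀ →
      |y i + Real.log ‖Φ.emb i ((Additive.toMul u : (𝓞 F)ˣ) : F)‖| ≤ C₀ := by
    intro i hi
    have h1 : ‖(x - (ZSpan.floor b x : _)) ⟨e i, hi⟩‖ ≤ C₀ :=
      (norm_le_pi_norm _ _).trans (ZSpan.norm_fract_le b x)
    rw [← hu] at h1
    change ‖x ⟨e i, hi⟩ - (e i).mult * Real.log (e i ((Additive.toMul u : (𝓞 F)ˣ) : F))‖ ≤ C₀ at h1
    simp only [x, Equiv.symm_apply_apply] at h1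
    simp only [e, placeEquiv_apply, mult_eq_two, InfinitePlace.apply,
      Real.norm_eq_abs, Nat.cast_ofNat] at h1
    rw [show ∀ a b : ℝ, -2 * a - 2 * b = -2 * (a + b) from fun a b => by ring, abs_mul, abs_neg,
      abs_two] at h1
    linarith [abs_nonneg (y i + Real.log ‖Φ.emb i ((Additive.toMul u : (𝓞 F)ˣ) : F)‖)]
  refine ⟨Additive.toMul u, fun i => ?_⟩
  have hsum : ∑ j, (y j + Real.log ‖Φ.emb j ((Additive.toMul u : (𝓞 F)ˣ) : F)‖) = 0 := by
    have h := NumberField.Units.sum_mult_mul_log (Additive.toMul u)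
    rw [← e.sum_comp] at h
    simp only [e, placeEquiv_apply, mult_eq_two, InfinitePlace.apply, Nat.cast_ofNat,
      ← Finset.mul_sum] at h
    rw [Finset.sum_add_distrib, hy, zero_add]
    linarith
  have hcard : Fintype.card ι = Fintype.card (InfinitePlace F) := Fintype.card_congr e
  rcases ne_or_eq (e i) NumberField.Units.dirichletUnitTheorem.w₀ with hi | hi
  · exact (hne i hi).trans (le_mul_of_one_le_left hC₀ (le_add_of_nonneg_left (Nat.cast_nonneg _)))
  rw [← Finset.add_sum_erase _ _ (Finset.mem_univ i), add_eq_zero_iff_eq_neg] at hsum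
  rw [hsum, abs_neg]
  refine (Finset.abs_sum_le_sum_abs _ _).trans ((Finset.sum_le_card_nsmul _ _ C₀ fun j hj =>
    hne j fun hj' => Finset.ne_of_mem_erase hj (e.injective (hj'.trans hi.symm))).trans ?_)
  rw [nsmul_eq_mul]
  refine mul_le_mul_of_nonneg_right ?_ hC₀
  rw [← hcard]
  have : (Finset.univ.erase i).card ≤ Fintype.card ι := Finset.card_le_univ _
  exact (Nat.cast_le.mpr this).trans (le_add_of_nonneg_right zero_le_one)

end FLTAgent.LanglandsTunnell.Geom
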