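import Fermat.Agent.LanglandsTunnell.Geom.Ideals

/-!
# Class representatives and Hecke neighbours

Class representatives (`exists_class_reps`), standard position of a line with bounded denominators
(`exists_standard`), and finiteness and equivariance of Hecke neighbours (`finite_nbrs`,
`nbrs_smul`).
-/

set_option autoImplicit false
set_option linter.unusedSectionVars false

noncomputable section

open NumberField Matrix
open scoped nonZeroDivisors

namespace FLTAgent.LanglandsTunnell.Geom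

open FLTAgent.LanglandsTunnell

variable {F : Type} [Field F] [NumberField F]

/-- Finitely many integral ideals represent all classes of fractional ideals. -/
theorem exists_class_reps : ∃ S : Finset (Ideal (𝓞 F)), (∀ J ∈ S, J ≠ ⊥) ∧
    ∀ I : FractionalIdeal (𝓞 F)⁰ F, I ≠ 0 → ∃ J ∈ S, ∃ α : F, α ≠ 0 ∧
      I = FractionalIdeal.spanSingleton (𝓞 F)⁰ α * (J : FractionalIdeal (𝓞 F)⁰ F) := by
  classical
  choose rep hrep using ClassGroup.mk0_surjective (R := 𝓞 F)
  refine ⟨Finset.univ.image fun C => (rep C : Ideal (𝓞 F)), fun J hJ => ?_, fun I hI => ?_⟩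
  · obtain ⟨C, -, rfl⟩ := Finset.mem_image.mp hJ
    exact nonZeroDivisors.coe_ne_zero (rep C)
  have hnum : I.num ≠ ⊥ := fun h =>
    hI (FractionalIdeal.zero_of_num_eq_bot zero_notMem_nonZeroDivisors h)
  set A : (Ideal (𝓞 F))⁰ := ⟨I.num, mem_nonZeroDivisors_of_ne_zero hnum⟩ with hA
  obtain ⟨x, y, hx, hy, hxy⟩ := ClassGroup.mk0_eq_mk0_iff.mp (hrep (ClassGroup.mk0 A)).symm
  have hd : algebraMap (𝓞 F) F I.den ≠ 0 := by simp
  have hx' : algebraMap (𝓞 F) F x ≠ 0 := by simpa using hx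
  have hy' : algebraMap (𝓞 F) F y ≠ 0 := by simpa using hy
  refine ⟨rep (ClassGroup.mk0 A), Finset.mem_image_of_mem _ (Finset.mem_univ _),
    algebraMap (𝓞 F) F y / (algebraMap (𝓞 F) F x * algebraMap (𝓞 F) F I.den),
    div_ne_zero hy' (mul_ne_zero hx' hd), ?_⟩
  have h1 := congrArg (fun K : Ideal (𝓞 F) => (K : FractionalIdeal (𝓞 F)⁰ F)) hxy
  simp only [FractionalIdeal.coeIdeal_mul, FractionalIdeal.coeIdeal_span_singleton, hA] at h1
  rw [← FractionalIdeal.den_mul_self_eq_num' (𝓞 F)⁰ F I, ← mul_assoc,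
    FractionalIdeal.spanSingleton_mul_spanSingleton] at h1
  have h2 := congrArg (fun K => FractionalIdeal.spanSingleton (𝓞 F)⁰
    (algebraMap (𝓞 F) F x * algebraMap (𝓞 F) F I.den)⁻¹ * K) h1
  simp only [← mul_assoc, FractionalIdeal.spanSingleton_mul_spanSingleton] at h2
  rw [mul_assoc _ (algebraMap (𝓞 F) F x), inv_mul_cancel₀ (mul_ne_zero hx' hd),
    FractionalIdeal.spanSingleton_one, one_mul] at h2
  rw [div_eq_inv_mul]
  exact h2

theorem exists_mulVec_eq {v : Fin 2 → F} (hv : v ≠ 0) :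
    ∃ γ : GL (Fin 2) F, γ.val *ᵥ v = ![1, 0] := by
  rcases eq_or_ne (v 0) 0 with h | h
  · have h1 : v 1 ≠ 0 := fun h1 => hv (funext fun i => by fin_cases i <;> simp [h, h1])
    refine ⟨GeneralLinearGroup.mkOfDetNeZero !![0, (v 1)⁻¹; 1, 0] (by simp [h1]), ?_⟩
    funext i
    fin_cases i <;> simp [Matrix.mulVec, dotProduct, h, h1]
  · refine ⟨GeneralLinearGroup.mkOfDetNeZero !![(v 0)⁻¹, 0; -v 1 / v 0, 1] (by simp [h]), ?_⟩
    funext i
    fin_cases i <;> simp [Matrix.mulVec, dotProduct, h]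

theorem natCast_single_mem_latt {g : GL (Fin 2) (AF F)} {M : ℕ} (hg : Bounded M g) (j : Fin 2) :
    (Pi.single j (M : F) : Fin 2 → F) ∈ latt g := by
  rw [mem_latt]
  intro i
  have h : toAF F ∘ (Pi.single j (M : F) : Fin 2 → F) = (M : AF F) • Pi.single j 1 := by
    funext l
    rcases eq_or_ne l j with rfl | hl <;> simp [*]
  rw [h, Matrix.mulVec_smul, Matrix.mulVec_single_one]
  exact hg.2 i j

/-- Move a line to the first axis with uniformly bounded denominators. -/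
theorem exists_standard : ∃ m₀ : ℕ, m₀ ≠ 0 ∧ ∀ (g : GL (Fin 2) (AF F)) (v : Fin 2 → F), v ≠ 0 →
    ∃ γ : GL (Fin 2) F, (γ.val *ᵥ v) 1 = 0 ∧
      Bounded m₀ (GeneralLinearGroup.map (toAF F) γ * g) := by
  obtain ⟨S, hS0, hS⟩ := exists_class_reps (F := F)
  refine ⟨∏ J ∈ S, J.absNorm, Finset.prod_ne_zero_iff.mpr fun J hJ => by
    rw [Ne, Ideal.absNorm_eq_zero_iff]; exact hS0 J hJ, fun g v hv => ?_⟩
  obtain ⟨γ₁, hγ₁⟩ := exists_mulVec_eq hv
  set g₁ := GeneralLinearGroup.map (toAF F) γ₁ * g with hg₁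
  obtain ⟨M, hM, hMg⟩ := exists_bounded g₁
  -- the two ideals of the triangular shape
  set e : Fin 2 → F := ![1, 0] with he_def
  have he : e ≠ 0 := fun h => one_ne_zero (congrFun h 0)
  set Js : Submodule (𝓞 F) F := (latt g₁).map (LinearMap.proj 1) with hJs
  have hJfrac : IsFractional (𝓞 F)⁰ Js := by
    refine ⟨(M : 𝓞 F), mem_nonZeroDivisors_of_ne_zero (Nat.cast_ne_zero.mpr hM), ?_⟩
    rintro _ ⟨w, hw, rfl⟩
    obtain ⟨a, ha⟩ := mem_latt_natCast_smul hMg hw 1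
    exact ⟨a, by rw [Algebra.smul_def, map_natCast]; exact ha⟩
  set J : FractionalIdeal (𝓞 F)⁰ F := ⟨Js, hJfrac⟩ with hJ_def
  have hMJ : (M : F) ∈ J := ⟨_, natCast_single_mem_latt hMg 1, by simp⟩
  have hJ0 : J ≠ 0 := fun h => hM (Nat.cast_eq_zero (R := F).mp
    ((FractionalIdeal.mem_zero_iff _).mp (h ▸ hMJ)))
  have key : ∀ r ∈ J * J⁻¹, ∃ s : F, ∀ y ∈ J, ![s * y, r * y] ∈ latt g₁ := by
    intro r hr
    refine FractionalIdeal.mul_induction_on hr ?_ ?_
    · rintro j ⟨w, hw, rfl⟩ i hi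
      refine ⟨i * w 0, fun y hy => ?_⟩
      obtain ⟨c, hc⟩ := (FractionalIdeal.mem_one_iff _).mp
        ((FractionalIdeal.mem_inv_iff hJ0).mp hi y hy)
      convert (latt g₁).smul_mem c hw using 1
      funext l
      rw [Pi.smul_apply, Algebra.smul_def, hc]
      fin_cases l <;> simp <;> ring
    · rintro p q ⟨s, hs⟩ ⟨s', hs'⟩
      refine ⟨s + s', fun y hy => ?_⟩
      convert (latt g₁).add_mem (hs y hy) (hs' y hy) using 1
      funext l
      fin_cases l <;> simp [add_mul]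
  obtain ⟨s, hs⟩ := key 1 (by rw [mul_inv_cancel₀ hJ0]; exact FractionalIdeal.one_mem_one _)
  -- rescale both ideals to representatives
  obtain ⟨A, hA, α, hα, hI⟩ := hS _ (coordFrac_ne_zero g₁ he)
  obtain ⟨B, hB, δ, hδ, hJ⟩ := hS J hJ0
  set γ₂ : GL (Fin 2) F := GeneralLinearGroup.mkOfDetNeZero !![α⁻¹, -(α⁻¹ * s); 0, δ⁻¹]
    (by simp [hα, hδ]) with hγ₂
  refine ⟨γ₂ * γ₁, ?_, ?_⟩
  · rw [Units.val_mul, ← Matrix.mulVec_mulVec, hγ₁]
    simp [hγ₂, he_def, Matrix.mulVec, dotProduct]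
  rw [map_mul, mul_assoc, ← hg₁]
  have hmem : ∀ w : Fin 2 → F, γ₂.val *ᵥ w = ![α⁻¹ * (w 0 - s * w 1), δ⁻¹ * w 1] := fun w => by
    funext l
    fin_cases l <;> simp [hγ₂, Matrix.mulVec, dotProduct]
    ring
  refine bounded_of_latt (fun u hu i => ?_) (fun u => ?_)
  · obtain ⟨w, rfl⟩ : ∃ w, γ₂.val *ᵥ w = u := ⟨(γ₂⁻¹).val *ᵥ u, by
      rw [Matrix.mulVec_mulVec, ← Units.val_mul, mul_inv_cancel, Units.val_one, Matrix.one_mulVec]⟩
    rw [mem_latt_map_mul] at hu
    rw [hmem, toAF_mem_intAF_iff]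
    have h1 : w 1 ∈ J := ⟨w, hu, rfl⟩
    have h0 : w 0 - s * w 1 ∈ coordFrac g₁ e := by
      rw [mem_coordFrac he]
      convert (latt g₁).sub_mem hu (hs _ h1) using 1
      funext l
      fin_cases l <;> simp [he_def]
    rw [hI, FractionalIdeal.mem_singleton_mul] at h0
    rw [hJ, FractionalIdeal.mem_singleton_mul] at h1
    obtain ⟨a, ha, ha'⟩ := h0
    obtain ⟨b, hb, hb'⟩ := h1
    obtain ⟨a', -, rfl⟩ := (FractionalIdeal.mem_coeIdeal _).mp ha
    obtain ⟨b', -, rfl⟩ := (FractionalIdeal.mem_coeIdeal _).mp hb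
    fin_cases i
    · exact ⟨a', by simp [ha', hα]⟩
    · exact ⟨b', by simp [hb', hδ]⟩
  · set m := ∏ J ∈ S, J.absNorm with hm
    have hmS : ∀ K ∈ S, ∀ c : 𝓞 F,
        (m : F) * (c : F) ∈ (K : FractionalIdeal (𝓞 F)⁰ F) := by
      intro K hK c
      refine (FractionalIdeal.mem_coeIdeal _).mpr ⟨(m : 𝓞 F) * c, ?_, by simp⟩
      obtain ⟨k, hk⟩ := Finset.dvd_prod_of_mem (fun J : Ideal (𝓞 F) => J.absNorm) hK
      rw [hm, hk, Nat.cast_mul]
      exact Ideal.mul_mem_right _ _ (Ideal.mul_mem_right _ _ (Ideal.absNorm_mem K))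
    have hy : δ * ((m : F) * (u 1 : F)) ∈ J := by
      rw [hJ, FractionalIdeal.mem_singleton_mul]
      exact ⟨_, hmS B hB (u 1), rfl⟩
    have hx : α * ((m : F) * (u 0 : F)) ∈ coordFrac g₁ e := by
      rw [hI, FractionalIdeal.mem_singleton_mul]
      exact ⟨_, hmS A hA (u 0), rfl⟩
    rw [mem_coordFrac he] at hx
    have h := (mem_latt_map_mul γ₂ g₁ _).mpr ((latt g₁).add_mem hx (hs _ hy))
    rw [hmem] at h
    convert h using 1
    funext l
    fin_cases l <;> simp [he_def, hα, hδ]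

variable {n : Ideal (𝓞 F)}

theorem bounded_of_congrOne {k : GL (Fin 2) (AF F)} (hk : k ∈ principalSubgroup n) :
    Bounded 1 k := by
  have h : ∀ {A : Matrix (Fin 2) (Fin 2) (AF F)}, CongrOne n A → IsIntMat A := fun {A} hA i j => by
    have h1 : (A - 1) i j ∈ intAF F := idealAF_le n (hA i j)
    rw [show A i j = (A - 1) i j + (1 : Matrix (Fin 2) (Fin 2) (AF F)) i j from
      (sub_add_cancel _ _).symm, Matrix.one_apply]
    refine add_mem h1 ?_
    split_ifs
    exacts [one_mem _, zero_mem _]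
  exact bounded_one_iff.mpr ⟨h hk.1, h hk.2⟩

theorem smul_diag_mem {R : Type} [CommRing R] (S : Subring R) {c x : R} (hc : c ∈ S)
    (hx : c * x ∈ S) (i j : Fin 2) : (c • !![x, 0; 0, 1]) i j ∈ S := by
  fin_cases i <;> fin_cases j <;> simp [hc, hx]

theorem bounded_diagUnit {M : ℕ} {π : (AF F)ˣ} (h : (M : AF F) * π ∈ intAF F)
    (h' : (M : AF F) * (π⁻¹ : (AF F)ˣ) ∈ intAF F) : Bounded M (diagUnit (R := AF F) π) :=
  ⟨smul_diag_mem (intAF F) (natCast_mem_intAF M) h,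
    smul_diag_mem (intAF F) (natCast_mem_intAF M) h'⟩

/-- Two representatives of one point differ by the level group and a scalar. -/
theorem exists_level_decomp {g g' : GL (Fin 2) (AF F)} (h : (g : FinPt F n) = g') :
    ∃ k ∈ principalSubgroup n, ∃ z : (AF F)ˣ, g' = g * k * GeneralLinearGroup.scalar (Fin 2) z := by
  rw [QuotientGroup.eq] at h
  obtain ⟨k, hk, c, hc, he⟩ := Subgroup.mem_sup_of_normal_right.mp h
  rw [GeneralLinearGroup.center_eq_range_scalar] at hc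
  obtain ⟨z, rfl⟩ := hc
  exact ⟨k, hk, z, by rw [mul_assoc, he, mul_inv_cancel_left]⟩

/-- Hecke neighbours form a finite set. -/
theorem finite_nbrs (hn : n ≠ ⊥) {w : Ideal (𝓞 F)} (hw : w ≠ ⊥) (v : FinPt F n) :
    (nbrs n w v).Finite := by
  obtain ⟨g₀, rfl⟩ := QuotientGroup.mk_surjective v
  obtain ⟨M, hM, hMg⟩ := exists_bounded g₀
  have hN : w.absNorm ≠ 0 := fun h => hw (Ideal.absNorm_eq_zero_iff.mp h)
  refine (finite_bounded hn (M := M * 1 * w.absNorm) (by simp [hM, hN])).subset ?_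
  rintro v' ⟨g, k, π, hg, hk, ⟨-, hπ⟩, rfl⟩
  obtain ⟨k₁, hk₁, z, rfl⟩ := exists_level_decomp hg.symm
  refine ⟨g₀ * (k₁ * k) * diagUnit π,
    (hMg.mul (bounded_of_congrOne (mul_mem hk₁ hk))).mul (bounded_diagUnit ?_ ?_), ?_⟩
  · refine mul_mem (natCast_mem_intAF _) ?_
    have h1 : (π : AF F) ∈ (intAF F).toAddSubgroup.map (AddMonoidHom.mulLeft (π : AF F)) :=
      ⟨1, one_mem (intAF F), mul_one _⟩
    exact idealAF_le w (hπ ▸ h1)
  · have h1 := natCast_mem_idealAF (Ideal.absNorm_mem w)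
    rw [hπ] at h1
    obtain ⟨u, hu, hu'⟩ := h1
    rw [← hu', AddMonoidHom.coe_mulLeft, mul_right_comm, Units.mul_inv, one_mul]
    exact hu
  · show (QuotientGroup.mk _ : FinPt F n) = QuotientGroup.mk _
    rw [QuotientGroup.eq]
    refine Subgroup.mem_sup_right ?_
    rw [GeneralLinearGroup.center_eq_range_scalar]
    refine ⟨z, ?_⟩
    have hc : ∀ x : GL (Fin 2) (AF F), GeneralLinearGroup.scalar (Fin 2) z * x
        = x * GeneralLinearGroup.scalar (Fin 2) z := fun x =>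
      (Subgroup.mem_center_iff.mp (by
        rw [GeneralLinearGroup.center_eq_range_scalar]
        exact ⟨z, rfl⟩) x).symm
    rw [eq_inv_mul_iff_mul_eq]
    simp only [mul_assoc]
    rw [hc (k * diagUnit π), mul_assoc]

/-- Neighbours are equivariant. -/
theorem nbrs_smul {w : Ideal (𝓞 F)} (h : GL (Fin 2) (AF F)) (v : FinPt F n) :
    nbrs n w (h • v) = (h • ·) '' nbrs n w v := by
  ext v'
  constructor
  · rintro ⟨g, k, π, hg, hk, hπ, rfl⟩
    exact ⟨((h⁻¹ * g * k * diagUnit π : GL (Fin 2) (AF F)) : FinPt F n),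
      ⟨h⁻¹ * g, k, π, by rw [← smul_eq_mul, ← MulAction.Quotient.smul_coe, hg, smul_smul,
        inv_mul_cancel, one_smul], hk, hπ, rfl⟩,
      by simp only [MulAction.Quotient.smul_coe, smul_eq_mul, mul_assoc, mul_inv_cancel_left]⟩
  · rintro ⟨_, ⟨g, k, π, rfl, hk, hπ, rfl⟩, rfl⟩
    exact ⟨h * g, k, π, rfl, hk, hπ, by
      simp only [MulAction.Quotient.smul_coe, smul_eq_mul, mul_assoc]⟩

end FLTAgent.LanglandsTunnell.Geom
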