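import Fermat.Agent.LanglandsTunnell.Geom.Embedding

/-!
# Siegel sets and reduction theory

Siegel sets `siegel` and their compact truncations `siegelBox`, affine elements `affineGL`, and the
reduction theorems: every point is moved into one of finitely many Siegel sets
(`exists_reduction`, balanced version `exists_balanced_reduction`), and the points without cusps
higher than `T` come from a compact set (`exists_truncated_reduction`).
-/

set_option autoImplicit false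

noncomputable section

open NumberField Matrix MeasureTheory
open scoped nonZeroDivisors

namespace FLTAgent.LanglandsTunnell.Geom

open FLTAgent.LanglandsTunnell

variable {F : Type} [Field F] [NumberField F] {ι : Type} [Fintype ι] {n : Ideal (𝓞 F)}

/-- A Siegel set. -/
def siegel (ι : Type) (C c : ℝ) : Set (ι → H3) := {P | ∀ i, ‖(P i).z‖ ≤ C ∧ c ≤ (P i).t}

/-- A truncated Siegel set. -/
def siegelBox (ι : Type) (C c b : ℝ) : Set (ι → H3) :=
  {P | ∀ i, ‖(P i).z‖ ≤ C ∧ c ≤ (P i).t ∧ (P i).t ≤ b}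

omit [Fintype ι] in
theorem isCompact_siegelBox (C : ℝ) {c : ℝ} (hc : 0 < c) (b : ℝ) :
    IsCompact (siegelBox ι C c b) := by
  have h1 : IsCompact (H3.coords ⁻¹' (Metric.closedBall (0 : ℂ) C ×ˢ Set.Icc c b)) :=
    H3.isOpenEmbedding_coords.isInducing.isCompact_preimage'
      ((isCompact_closedBall 0 C).prod isCompact_Icc) fun x hx => by
        rw [H3.range_coords]
        exact hc.trans_le hx.2.1
  have h2 : siegelBox ι C c b = Set.univ.pi fun _ : ι =>
      H3.coords ⁻¹' (Metric.closedBall (0 : ℂ) C ×ˢ Set.Icc c b) := by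
    ext P
    simp [siegelBox, H3.coords, Set.mem_pi]
  rw [h2]
  exact isCompact_univ_pi fun _ => h1

/-- The upper triangular element `[[u, b], [0, 1]]`. -/
def affineGL {R : Type} [CommRing R] (u : Rˣ) (b : R) : GL (Fin 2) R where
  val := !![(u : R), b; 0, 1]
  inv := !![((u⁻¹ : Rˣ) : R), -((u⁻¹ : Rˣ) : R) * b; 0, 1]
  val_inv := by ext i j; fin_cases i <;> fin_cases j <;> simp
  inv_val := by ext i j; fin_cases i <;> fin_cases j <;> simp

theorem affineGL_map {R S : Type} [CommRing R] [CommRing S] (f : R →+* S) (u : Rˣ) (b : R) :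
    GeneralLinearGroup.map f (affineGL u b) = affineGL (Units.map f.toMonoidHom u) (f b) := by
  refine Units.ext (Matrix.ext fun i j => ?_)
  fin_cases i <;> fin_cases j <;> simp [affineGL]

/-- The first coordinate under an affine map. -/
theorem affineGL_smul_z (u : ℂˣ) (b : ℂ) (P : H3) : (affineGL u b • P).z = u * P.z + b := by
  simp [H3.smul_z, H3.denom, affineGL]

/-- The height under an affine map. -/
theorem affineGL_smul_t (u : ℂˣ) (b : ℂ) (P : H3) : (affineGL u b • P).t = ‖(u : ℂ)‖ * P.t := by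
  simp [H3.smul_t, H3.denom, affineGL, Matrix.det_fin_two]

theorem height_fst (Φ : PlaceChoice F ι) (y : FinPt F n) (P : ι → H3) :
    height Φ (y, P) ![1, 0] = height Φ (y, fun _ => H3.base) ![1, 0] * (∏ i, (P i).t) ^ 2 := by
  obtain ⟨g, rfl⟩ := QuotientGroup.mk_surjective y
  rw [height_mk, height_mk, sizeFn_fst, sizeFn_fst, mul_inv, inv_inv, mul_inv, inv_inv]
  simp [H3.base]

theorem fst_ne_zero : (![1, 0] : Fin 2 → F) ≠ 0 := fun h => one_ne_zero (congrFun h 0)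

/-- The heights bound each coordinate in a Siegel set. -/
theorem exists_t_le (Φ : PlaceChoice F ι) {R : Set (FinPt F n)} (hR : R.Finite) (C : ℝ) {c : ℝ}
    (hc : 0 < c) (T : ℝ) : ∃ b, ∀ y ∈ R, ∀ P ∈ siegel ι C c,
      height Φ (y, P) ![1, 0] ≤ T → P ∈ siegelBox ι C c b := by
  rcases R.eq_empty_or_nonempty with rfl | hne
  · exact ⟨0, fun y hy => absurd hy (Set.notMem_empty y)⟩
  obtain ⟨y₀, hy₀, hmin⟩ := hR.exists_minimalFor
    (fun y => height Φ (y, fun _ => H3.base) ![1, 0]) _ hne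
  set k := height Φ (y₀, fun _ => H3.base) ![1, 0] with hk_def
  have hk : 0 < k := height_pos Φ _ fst_ne_zero
  refine ⟨√(T / k) / c ^ (Fintype.card ι - 1), fun y hy P hP hT i => ⟨(hP i).1, (hP i).2, ?_⟩⟩
  classical
  rw [height_fst] at hT
  have hky : k ≤ height Φ (y, fun _ => H3.base) ![1, 0] :=
    (le_total _ _).elim id fun h => hmin hy h
  have h1 : (∏ j, (P j).t) ^ 2 ≤ T / k := by
    rw [le_div_iff₀ hk, mul_comm]
    exact (mul_le_mul_of_nonneg_right hky (sq_nonneg _)).trans hT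
  have h2 : ∏ j, (P j).t ≤ √(T / k) := Real.le_sqrt_of_sq_le h1
  rw [le_div_iff₀ (pow_pos hc _)]
  refine le_trans ?_ h2
  rw [← Finset.mul_prod_erase _ _ (Finset.mem_univ i)]
  refine mul_le_mul_of_nonneg_left ?_ (P i).t_pos.le
  calc c ^ (Fintype.card ι - 1) = ∏ _j ∈ Finset.univ.erase i, c := by
        rw [Finset.prod_const, Finset.card_erase_of_mem (Finset.mem_univ i), Finset.card_univ]
    _ ≤ _ := Finset.prod_le_prod (fun _ _ => hc.le) fun j _ => (hP j).2

/-- Every point with bounded denominators sees a cusp of height bounded below. -/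
theorem exists_high_cusp (Φ : PlaceChoice F ι) {m : ℕ} (hm : m ≠ 0) :
    ∃ c₀ : ℝ, 0 < c₀ ∧ ∀ (g : GL (Fin 2) (AF F)) (P : ι → H3), Bounded m g →
      ∃ v : Fin 2 → F, v ≠ 0 ∧ c₀ ≤ height Φ ((g : FinPt F n), P) v := by
  obtain ⟨C, hC⟩ := exists_short_vector Φ
  set N : ℝ := |(Algebra.norm ℚ (((m : F) ^ 2)) : ℝ)| with hN_def
  set B : ℝ := N * ∏ _i : ι, ((m : ℝ) ^ 2 * max C 1) ^ 2 with hB_def
  have hm0 : ((m : F) ^ 2) ≠ 0 := pow_ne_zero 2 (Nat.cast_ne_zero.mpr hm)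
  have hN : 0 < N := abs_pos.mpr (by simpa using hm0)
  have hB : 0 < B := mul_pos hN (Finset.prod_pos fun i _ => by positivity)
  refine ⟨B⁻¹, inv_pos.mpr hB, fun g P hg => ?_⟩
  obtain ⟨w, hw, hle⟩ := hC P
  set v : Fin 2 → F := fun j => (m : F) * (w j : F) with hv_def
  have hv : v ≠ 0 := fun h => hw (funext fun j => RingOfIntegers.coe_injective (by
    simpa [hv_def, hm] using congrFun h j))
  refine ⟨v, hv, ?_⟩
  rw [height_mk]
  refine inv_anti₀ (sizeFn_pos Φ g P hv) ?_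
  have h1 : nrm (coordFrac g v) ≤ 1 := by
    rw [← nrm_one (F := F)]
    refine nrm_le_of_le one_ne_zero (FractionalIdeal.one_le.mpr ((mem_coordFrac hv).mpr ?_))
    rw [one_smul, mem_latt, show toAF F ∘ v = (m : AF F) • fun j => toAF F (w j : F) from
      funext fun j => by simp [hv_def], Matrix.mulVec_smul, ← Matrix.smul_mulVec]
    exact hg.2.mulVec fun j => toAF_mem_intAF (w j)
  have h2 : N⁻¹ ≤ nrm (ideleFrac (GeneralLinearGroup.det g)) := by
    let u : Fˣ := Units.mk0 _ hm0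
    have hint : ideleFrac (Units.map (toAF F : F →* AF F) u * GeneralLinearGroup.det g) ≤ 1 := by
      intro c hc
      change c ∈ ideleFrac _ at hc
      rw [mem_ideleFrac] at hc
      show c ∈ (1 : FractionalIdeal (𝓞 F)⁰ F)
      obtain ⟨a, ha⟩ := exists_eq_of_toAF_mem_intAF (f := c) (by
        have h3 := mul_mem hc (hg.1.det)
        rwa [Matrix.det_smul, Fintype.card_fin, show (m : AF F) ^ 2 * g.val.det
          = ((Units.map (toAF F : F →* AF F) u * GeneralLinearGroup.det g : (AF F)ˣ) : AF F) by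
            simp [u], mul_assoc, Units.inv_mul, mul_one] at h3)
      exact (FractionalIdeal.mem_one_iff _).mpr ⟨a, ha⟩
    have h3 := nrm_le_of_le (ideleFrac_ne_zero _) hint
    rw [nrm_one, ideleFrac_mul, ideleFrac_toAF, nrm_mul, nrm_spanSingleton, Units.val_mk0,
      ← hN_def] at h3
    rw [inv_le_iff_one_le_mul₀' hN]
    exact h3
  rw [sizeFn, hB_def]
  refine mul_le_mul ?_ (Finset.prod_le_prod (fun i _ => sq_nonneg _) fun i _ => ?_)
    (Finset.prod_nonneg fun i _ => sq_nonneg _) hN.le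
  · rw [div_le_iff₀ (nrm_pos (ideleFrac_ne_zero _))]
    refine (pow_le_one₀ (nrm_pos (coordFrac_ne_zero g hv)).le h1).trans ?_
    rwa [inv_le_iff_one_le_mul₀' hN] at h2
  · refine pow_le_pow_left₀ (H3.qform_nonneg _ _) ?_ 2
    rw [show Φ.emb i ∘ v = (m : ℂ) • fun j => Φ.emb i (w j : F) from
      funext fun j => by simp [hv_def], H3.qform_smul_vec, Complex.normSq_natCast, ← sq]
    exact mul_le_mul_of_nonneg_left ((hle i).trans (le_max_left _ _)) (sq_nonneg _)

omit [NumberField F] in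
theorem bounded_affineGL {u : (AF F)ˣ} {b : AF F} (hu : (u : AF F) ∈ intAF F)
    (hu' : ((u⁻¹ : (AF F)ˣ) : AF F) ∈ intAF F) (hb : b ∈ intAF F) :
    Bounded 1 (affineGL (R := AF F) u b) := by
  refine bounded_one_iff.mpr ⟨fun i j => ?_, fun i j => ?_⟩
  · fin_cases i <;> fin_cases j
    exacts [hu, hb, zero_mem _, one_mem _]
  · fin_cases i <;> fin_cases j
    exacts [hu', mul_mem (neg_mem hu') hb, zero_mem _, one_mem _]

omit [NumberField F] [Fintype ι] in
theorem act_mk (Φ : PlaceChoice F ι) (γ : GL (Fin 2) F) (g : GL (Fin 2) (AF F)) (P : ι → H3) :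
    act Φ γ ((g : FinPt F n), P) = (((GeneralLinearGroup.map (toAF F) γ * g : GL (Fin 2) (AF F)) :
      FinPt F n), fun i => GeneralLinearGroup.map (Φ.emb i) γ • P i) := rfl

/-- Reduction theory, with the heights at different places comparable. -/
theorem exists_balanced_reduction (Φ : PlaceChoice F ι) (hn : n ≠ ⊥) :
    ∃ (R : Set (FinPt F n)) (C c B : ℝ), R.Finite ∧ 0 < c ∧
      ∀ x : Pt F ι n, ∃ γ : GL (Fin 2) F, (act Φ γ x).1 ∈ R ∧ (act Φ γ x).2 ∈ siegel ι C c ∧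
        ∀ i j, ((act Φ γ x).2 i).t ≤ B * ((act Φ γ x).2 j).t := by
  obtain ⟨m, hm, hstd⟩ := exists_standard (F := F)
  set R : Set (FinPt F n) := (fun g : GL (Fin 2) (AF F) => (g : FinPt F n)) '' {g | Bounded m g}
  have hR : R.Finite := finite_bounded hn hm
  obtain ⟨c₀, hc₀, hcusp⟩ := exists_high_cusp (n := n) Φ hm
  obtain ⟨Cu, hCu⟩ := exists_unit_balance Φ
  obtain ⟨Ct, hCt⟩ := exists_translate Φ
  rcases R.eq_empty_or_nonempty with hR0 | hne
  · refine ⟨R, 0, 1, 1, hR, one_pos, fun x => ?_⟩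
    exfalso
    obtain ⟨g, hgx⟩ := QuotientGroup.mk_surjective x.1
    obtain ⟨γ, -, hγ⟩ := hstd g ![1, 0] fst_ne_zero
    exact (Set.eq_empty_iff_forall_notMem.mp hR0) _ ⟨_, hγ, rfl⟩
  obtain ⟨y₀, hy₀, hmax⟩ := hR.exists_maximalFor
    (fun y => height Φ (y, fun _ => H3.base) ![1, 0]) _ hne
  set k := height Φ (y₀, fun _ => H3.base) ![1, 0] with hk_def
  have hk : 0 < k := height_pos Φ _ fst_ne_zero
  have hι : Nonempty ι := (placeEquiv Φ).symm.nonempty_congr.mp inferInstance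
  have hr : (0 : ℝ) < Fintype.card ι := by exact_mod_cast Fintype.card_pos
  refine ⟨R, Ct, Real.exp (Real.log √(c₀ / k) / Fintype.card ι - Cu), Real.exp (2 * Cu), hR,
    Real.exp_pos _, fun x => ?_⟩
  -- a bounded representative and a high cusp
  obtain ⟨g, hgx⟩ := QuotientGroup.mk_surjective x.1
  obtain ⟨γ₀, -, hγ₀⟩ := hstd g ![1, 0] fst_ne_zero
  set g₁ := GeneralLinearGroup.map (toAF F) γ₀ * g with hg₁
  set P₁ : ι → H3 := fun i => GeneralLinearGroup.map (Φ.emb i) γ₀ • x.2 i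
  obtain ⟨v, hv, hhv⟩ := hcusp g₁ P₁ hγ₀
  -- move the cusp to the first axis
  obtain ⟨γ₁, hγ₁0, hγ₁⟩ := hstd g₁ v hv
  set g₂ := GeneralLinearGroup.map (toAF F) γ₁ * g₁ with hg₂
  set P₂ : ι → H3 := fun i => GeneralLinearGroup.map (Φ.emb i) γ₁ • P₁ i
  have hh2 : c₀ ≤ height Φ ((g₂ : FinPt F n), P₂) ![1, 0] := by
    have h := height_act Φ γ₁ ((g₁ : FinPt F n), P₁) v
    have ha : (γ₁.val *ᵥ v) 0 ≠ 0 := fun h0 => hv (by
      have hz : γ₁.val *ᵥ v = 0 := funext fun j => by fin_cases j <;> assumption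
      have := congrArg ((γ₁⁻¹).val *ᵥ ·) hz
      simp only [Matrix.mulVec_mulVec, ← Units.val_mul, inv_mul_cancel, Units.val_one,
        Matrix.one_mulVec, Matrix.mulVec_zero] at this
      exact this)
    rw [show γ₁.val *ᵥ v = (γ₁.val *ᵥ v) 0 • ![1, 0] from funext fun j => by
      fin_cases j <;> simp [hγ₁0], height_smul Φ _ ha fst_ne_zero, act_mk] at h
    rwa [h]
  -- balance with a unit and translate
  set p := ∏ i, (P₂ i).t with hp_def
  have hp : 0 < p := Finset.prod_pos fun i _ => (P₂ i).t_pos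
  have hpge : √(c₀ / k) ≤ p := by
    rw [Real.sqrt_le_iff]
    refine ⟨hp.le, ?_⟩
    rw [div_le_iff₀ hk, mul_comm]
    refine (hh2.trans_eq (height_fst Φ _ _)).trans (mul_le_mul_of_nonneg_right ?_ (sq_nonneg _))
    exact (le_total _ _).elim id fun h => hmax ⟨g₂, hγ₁, rfl⟩ h
  obtain ⟨u, hu⟩ := hCu (fun i => Real.log (P₂ i).t - Real.log p / Fintype.card ι) (by
    rw [Finset.sum_sub_distrib, Finset.sum_const, Finset.card_univ, nsmul_eq_mul,
      mul_div_cancel₀ _ hr.ne', hp_def, Real.log_prod fun i _ => (P₂ i).t_pos.ne', sub_self])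
  obtain ⟨a, ha⟩ := hCt fun i => Φ.emb i ((u : 𝓞 F) : F) * (P₂ i).z
  set uF : Fˣ := Units.map (algebraMap (𝓞 F) F).toMonoidHom u with huF
  set γ₂ : GL (Fin 2) F := affineGL uF (a : F) with hγ₂
  have huv : ∀ i, 0 < ‖Φ.emb i ((u : 𝓞 F) : F)‖ := fun i => norm_pos_iff.mpr (by simp)
  have hP : ∀ i, (act Φ (γ₂ * γ₁ * γ₀) x).2 i = affineGL (Units.map (Φ.emb i).toMonoidHom uF)
        (Φ.emb i (a : F)) • P₂ i := fun i => by
      show GeneralLinearGroup.map (Φ.emb i) (γ₂ * γ₁ * γ₀) • x.2 i = _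
      rw [map_mul, map_mul, mul_smul, mul_smul, hγ₂, affineGL_map]
  refine ⟨γ₂ * γ₁ * γ₀, ?_, fun i => ?_, fun i j => ?_⟩
  · refine ⟨g₂ * 1 * 1 * (g₂⁻¹ * (GeneralLinearGroup.map (toAF F) γ₂ * g₂)), ?_, ?_⟩
    · rw [mul_one, mul_one, mul_inv_cancel_left]
      have h := (bounded_affineGL (F := F) (u := Units.map (toAF F).toMonoidHom uF)
        (b := toAF F (a : F)) (toAF_mem_intAF (u : 𝓞 F)) ?_ (toAF_mem_intAF a)).mul hγ₁
      · rw [one_mul] at h
        rwa [hγ₂, affineGL_map]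
      · rw [← map_inv, ← map_inv]
        exact toAF_mem_intAF ((u⁻¹ : (𝓞 F)ˣ) : 𝓞 F)
    · simp only [mul_one, mul_inv_cancel_left, act, ← hgx, hg₂, hg₁, map_mul,
        MulAction.Quotient.smul_coe, smul_eq_mul, mul_assoc]
  · rw [hP, affineGL_smul_z, affineGL_smul_t]
    refine ⟨ha i, ?_⟩
    show _ ≤ ‖Φ.emb i ((u : 𝓞 F) : F)‖ * (P₂ i).t
    rw [← Real.exp_log (mul_pos (huv i) (P₂ i).t_pos), Real.exp_le_exp,
      Real.log_mul (huv i).ne' (P₂ i).t_pos.ne']
    have h1 := abs_le.mp (hu i)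
    have h2 : Real.log √(c₀ / k) / Fintype.card ι ≤ Real.log p / Fintype.card ι :=
      div_le_div_of_nonneg_right (Real.log_le_log (Real.sqrt_pos.mpr (div_pos hc₀ hk)) hpge) hr.le
    linarith [h1.1]
  · rw [hP, hP, affineGL_smul_t, affineGL_smul_t]
    show ‖Φ.emb i ((u : 𝓞 F) : F)‖ * (P₂ i).t ≤
      Real.exp (2 * Cu) * (‖Φ.emb j ((u : 𝓞 F) : F)‖ * (P₂ j).t)
    rw [← Real.exp_log (mul_pos (huv i) (P₂ i).t_pos),
      ← Real.exp_log (mul_pos (huv j) (P₂ j).t_pos),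
      ← Real.exp_add, Real.exp_le_exp, Real.log_mul (huv i).ne' (P₂ i).t_pos.ne',
      Real.log_mul (huv j).ne' (P₂ j).t_pos.ne']
    have h1 := abs_le.mp (hu i)
    have h2 := abs_le.mp (hu j)
    linarith [h1.2, h2.1]

/-- Reduction theory. -/
theorem exists_reduction (Φ : PlaceChoice F ι) (hn : n ≠ ⊥) :
    ∃ (R : Set (FinPt F n)) (C c : ℝ), R.Finite ∧ 0 < c ∧
      ∀ x : Pt F ι n, ∃ γ : GL (Fin 2) F, (act Φ γ x).1 ∈ R ∧ (act Φ γ x).2 ∈ siegel ι C c := by
  obtain ⟨R, C, c, _, hR, hc, h⟩ := exists_balanced_reduction (n := n) Φ hn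
  exact ⟨R, C, c, hR, hc, fun x => (h x).imp fun γ hγ => ⟨hγ.1, hγ.2.1⟩⟩

/-- Points all of whose cusps have height at most `T` come from a compact set. -/
theorem exists_truncated_reduction (Φ : PlaceChoice F ι) (hn : n ≠ ⊥) :
    ∃ (R : Set (FinPt F n)) (C c : ℝ), R.Finite ∧ 0 < c ∧ ∀ T : ℝ, ∃ b, ∀ x : Pt F ι n,
      (∀ v : Fin 2 → F, v ≠ 0 → height Φ x v ≤ T) →
        ∃ γ : GL (Fin 2) F, (act Φ γ x).1 ∈ R ∧ (act Φ γ x).2 ∈ siegelBox ι C c b := by
  obtain ⟨R, C, c, hR, hc, h⟩ := exists_reduction Φ hn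
  refine ⟨R, C, c, hR, hc, fun T => ?_⟩
  obtain ⟨b, hb⟩ := exists_t_le Φ hR C hc T
  refine ⟨b, fun x hx => ?_⟩
  obtain ⟨γ, h1, h2⟩ := h x
  refine ⟨γ, h1, hb _ h1 _ h2 ?_⟩
  have hv : (γ⁻¹).val *ᵥ ![1, 0] ≠ (0 : Fin 2 → F) := fun h0 => fst_ne_zero (F := F) (by
    have := congrArg (γ.val *ᵥ ·) h0
    simp only [Matrix.mulVec_mulVec, ← Units.val_mul, mul_inv_cancel, Units.val_one,
      Matrix.one_mulVec, Matrix.mulVec_zero] at this
    exact this)
  have h3 := height_act Φ γ x ((γ⁻¹).val *ᵥ ![1, 0])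
  rw [Matrix.mulVec_mulVec, ← Units.val_mul, mul_inv_cancel, Units.val_one, Matrix.one_mulVec] at h3
  exact h3.trans_le (hx _ hv)

end FLTAgent.LanglandsTunnell.Geom
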