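import Fermat.Agent.LanglandsTunnell.Kernels
import Fermat.Agent.LanglandsTunnell.Geom.Reduction

/-!
# The action of `PGL₂(F)` on points

Group laws of `act` and triviality of the centre (so it factors through `PGL₂(F)`), countability of
the group, measurability and invariance of the measure (`measurePreserving_act`), and nullity of
the fixed set of a non-central element (`volPt_fixed`).
-/

set_option autoImplicit false
set_option linter.unusedSectionVars false

noncomputable section

open NumberField Matrix MeasureTheory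
open scoped ENNReal

namespace FLTAgent.LanglandsTunnell.Geom

open FLTAgent.LanglandsTunnell

variable {F : Type} [Field F] [NumberField F] {ι : Type} [Fintype ι] {n : Ideal (𝓞 F)}

/-! ### Group laws -/

theorem act_one (Φ : PlaceChoice F ι) (x : Pt F ι n) : act Φ 1 x = x := by
  refine Prod.ext ?_ (funext fun i => ?_)
  · show GeneralLinearGroup.map (n := Fin 2) (toAF F) 1 • x.1 = x.1
    rw [map_one, one_smul]
  · show GeneralLinearGroup.map (n := Fin 2) (Φ.emb i) 1 • x.2 i = x.2 i
    rw [map_one, one_smul]

theorem act_mul (Φ : PlaceChoice F ι) (γ δ : GL (Fin 2) F) (x : Pt F ι n) :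
    act Φ (γ * δ) x = act Φ γ (act Φ δ x) := by
  refine Prod.ext ?_ (funext fun i => ?_)
  · show GeneralLinearGroup.map (toAF F) (γ * δ) • x.1 = _
    rw [map_mul, mul_smul]
    rfl
  · show GeneralLinearGroup.map (Φ.emb i) (γ * δ) • x.2 i = _
    rw [map_mul, mul_smul]
    rfl

theorem map_scalar_two {R S : Type} [CommRing R] [CommRing S] (f : R →+* S) (z : Rˣ) :
    GeneralLinearGroup.map f (GeneralLinearGroup.scalar (Fin 2) z) =
      GeneralLinearGroup.scalar (Fin 2) (Units.map f.toMonoidHom z) := by
  refine Units.ext (Matrix.ext fun i j => ?_)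
  fin_cases i <;> fin_cases j <;> simp

theorem scalar_smul_h3 (z : ℂˣ) (P : H3) :
    GeneralLinearGroup.scalar (Fin 2) z • P = P := by
  have h : (z : ℂ) ≠ 0 := z.ne_zero
  have h' : (starRingEnd ℂ) (z : ℂ) ≠ 0 := by simp
  refine H3.ext ?_ ?_
  · rw [H3.smul_z]
    simp [H3.denom, Complex.normSq_eq_conj_mul_self]
    field_simp
  · rw [H3.smul_t]
    simp [H3.denom, Complex.normSq_eq_norm_sq]

theorem act_scalar (Φ : PlaceChoice F ι) (z : Fˣ) (x : Pt F ι n) :
    act Φ (GeneralLinearGroup.scalar (Fin 2) z) x = x := by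
  refine Prod.ext ?_ (funext fun i => ?_)
  · show GeneralLinearGroup.map (toAF F) (GeneralLinearGroup.scalar (Fin 2) z) • x.1 = x.1
    obtain ⟨g, hg⟩ := QuotientGroup.mk_surjective x.1
    have hz : GeneralLinearGroup.map (toAF F) (GeneralLinearGroup.scalar (Fin 2) z)
        ∈ Subgroup.center (GL (Fin 2) (AF F)) := by
      rw [map_scalar_two, GeneralLinearGroup.center_eq_range_scalar]
      exact ⟨_, rfl⟩
    rw [← hg, MulAction.Quotient.smul_coe, smul_eq_mul, QuotientGroup.eq,
      ← Subgroup.mem_center_iff.mp hz g, _root_.mul_inv_rev, mul_assoc, inv_mul_cancel, mul_one]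
    exact inv_mem (Subgroup.mem_sup_right hz)
  · show GeneralLinearGroup.map (n := Fin 2) (Φ.emb i) _ • x.2 i = x.2 i
    rw [map_scalar_two, scalar_smul_h3]

theorem act_of_mem_center (Φ : PlaceChoice F ι) {z : GL (Fin 2) F}
    (hz : z ∈ Subgroup.center (GL (Fin 2) F)) (x : Pt F ι n) : act Φ z x = x := by
  rw [GeneralLinearGroup.center_eq_range_scalar] at hz
  obtain ⟨c, rfl⟩ := hz
  exact act_scalar Φ c x

/-- The action factors through the projective group. -/
theorem act_out (Φ : PlaceChoice F ι) (γ : GL (Fin 2) F) (x : Pt F ι n) :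
    act Φ (γ : PGLF F).out x = act Φ γ x := by
  obtain ⟨z, hz⟩ := QuotientGroup.mk_out_eq_mul (Subgroup.center (GL (Fin 2) F)) γ
  rw [hz, act_mul, act_of_mem_center Φ z.2]

/-- The action of `PGL₂(F)` on points. -/
@[reducible] def pglAction (Φ : PlaceChoice F ι) : MulAction (PGLF F) (Pt F ι n) where
  smul q x := act Φ q.out x
  one_smul x := by
    show act Φ (1 : PGLF F).out x = x
    rw [← QuotientGroup.mk_one, act_out, act_one]
  mul_smul p q x := by
    show act Φ (p * q).out x = act Φ p.out (act Φ q.out x)
    conv_lhs => rw [← p.out_eq, ← q.out_eq]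
    rw [← act_mul]
    exact act_out Φ (p.out * q.out) x

theorem countable_field : Countable F :=
  Countable.of_equiv _ (Module.finBasis ℚ F).equivFun.toEquiv.symm

theorem countable_GL : Countable (GL (Fin 2) F) := by
  have := countable_field (F := F)
  have : Countable (Matrix (Fin 2) (Fin 2) F) := inferInstanceAs (Countable (Fin 2 → Fin 2 → F))
  exact Units.val_injective.countable

/-- The projective linear group of a number field is countable. -/
theorem countable_PGLF : Countable (PGLF F) := by
  have := countable_GL (F := F)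
  exact Quotient.countable

/-! ### Measure -/

/-- The action is measurable. -/
theorem measurable_act (Φ : PlaceChoice F ι) (γ : GL (Fin 2) F) :
    Measurable (act Φ γ : Pt F ι n → Pt F ι n) := by
  show Measurable fun x : Pt F ι n => (GeneralLinearGroup.map (toAF F) γ • x.1,
    fun i => GeneralLinearGroup.map (Φ.emb i) γ • x.2 i)
  refine Measurable.prodMk (measurable_from_top.comp measurable_fst) ?_
  refine measurable_pi_iff.mpr fun i => ?_
  exact (continuous_const_smul _).measurable.comp
    ((measurable_pi_apply i).comp measurable_snd)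

theorem measurePreserving_count {G X : Type} [Group G] [MulAction G X] [MeasurableSpace X]
    [MeasurableSingletonClass X] (h : ∀ s : Set X, MeasurableSet s) (g : G) :
    MeasurePreserving (fun x : X => g • x) Measure.count Measure.count := by
  have hm : Measurable fun x : X => g • x := fun s _ => h _
  refine ⟨hm, Measure.ext fun s hs => ?_⟩
  rw [Measure.map_apply hm hs, Measure.count_apply (h _), Measure.count_apply hs]
  exact congrArg _ (Set.encard_preimage_of_bijective (MulAction.bijective g) s)

theorem measurePreserving_act (Φ : PlaceChoice F ι) (hn : n ≠ ⊥) (γ : GL (Fin 2) F) :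
    MeasurePreserving (act Φ γ) (volPt : Measure (Pt F ι n)) volPt := by
  have := countable_finPt (F := F) hn
  have : SigmaFinite H3.volH3 := H3.sigmaFinite_volH3
  exact (measurePreserving_count (fun _ =>
    MeasurableSpace.measurableSet_top) (GeneralLinearGroup.map (toAF F) γ)).prod
    (measurePreserving_pi _ _ fun i => H3.measurePreserving_smul _)

/-! ### Fixed points -/

theorem volume_setOf_fibre_subsingleton {s : Set (ℂ × ℝ)} (hs : MeasurableSet s)
    (h : ∀ z, ((Prod.mk z) ⁻¹' s).Finite) : volume s = 0 := by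
  rw [Measure.volume_eq_prod, Measure.measure_prod_null hs]
  exact Filter.Eventually.of_forall fun z => (h z).measure_zero _

theorem volH3_fixed (g : GL (Fin 2) ℂ)
    (hg : ¬ (g.val 1 0 = 0 ∧ g.val 0 1 = 0 ∧ g.val 0 0 = g.val 1 1)) :
    H3.volH3 {P : H3 | g • P = P} = 0 := by
  have key : ∀ s : Set (ℂ × ℝ), volume s = 0 → H3.coords '' {P : H3 | g • P = P} ⊆ s →
      H3.volH3 {P : H3 | g • P = P} = 0 := fun s hs hsub => by
    rw [H3.volH3, H3.measurableEmbedding_coords.comap_apply]
    refine measure_mono_null hsub ?_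
    exact withDensity_absolutelyContinuous _ _ hs
  rcases eq_or_ne (g.val 1 0) 0 with hc | hc
  · have hd : g.val 1 1 ≠ 0 := (H3.row_ne_zero g).resolve_left (not_not.mpr hc)
    have hd' : (starRingEnd ℂ) (g.val 1 1) ≠ 0 := by simpa using hd
    have hz : ∀ P : H3, g • P = P → (g.val 0 0 - g.val 1 1) * P.z + g.val 0 1 = 0 := fun P h => by
      have h1 := congrArg H3.z h
      rw [H3.smul_z] at h1
      simp [H3.denom, hc, Complex.normSq_eq_conj_mul_self] at h1
      field_simp at h1
      linear_combination h1
    rcases eq_or_ne (g.val 0 0) (g.val 1 1) with had | had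
    · refine key ∅ measure_empty ?_
      rintro _ ⟨P, hP, rfl⟩
      have := hz P hP
      rw [had, sub_self, zero_mul, zero_add] at this
      exact hg ⟨hc, this, had⟩
    · refine key ({-g.val 0 1 / (g.val 0 0 - g.val 1 1)} ×ˢ Set.univ) ?_ ?_
      · rw [Measure.volume_eq_prod, Measure.prod_prod]
        simp
      · rintro _ ⟨P, hP, rfl⟩
        refine ⟨?_, trivial⟩
        have := hz P hP
        rw [Set.mem_singleton_iff, eq_div_iff (sub_ne_zero.mpr had)]
        show P.z * _ = _
        linear_combination this
  · let N : ℂ × ℝ → ℝ := fun x => Complex.normSq (g.val 1 0 * x.1 + g.val 1 1)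
        + Complex.normSq (g.val 1 0) * x.2 ^ 2
    refine key {x | N x = ‖g.val.det‖} (volume_setOf_fibre_subsingleton
      (measurableSet_eq_fun (by fun_prop) measurable_const) fun z => ?_) ?_
    · set r := (‖g.val.det‖ - Complex.normSq (g.val 1 0 * z + g.val 1 1))
        / Complex.normSq (g.val 1 0)
      refine ({√r, -√r} : Set ℝ).toFinite.subset fun t ht => ?_
      have h0 : Complex.normSq (g.val 1 0) ≠ 0 := by simpa using hc
      have h1 : t ^ 2 = r := by
        rw [eq_div_iff h0]
        simp only [Set.mem_preimage, Set.mem_ofPred_eq, N] at ht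
        linear_combination ht
      rcases le_or_gt 0 t with h | h
      · exact Or.inl (by rw [← h1, Real.sqrt_sq h])
      · exact Or.inr (by
          rw [Set.mem_singleton_iff, ← h1, ← neg_sq, Real.sqrt_sq (neg_nonneg.mpr h.le), neg_neg])
    · rintro _ ⟨P, hP, rfl⟩
      have h1 := congrArg H3.t (hP : g • P = P)
      rw [H3.smul_t, div_eq_iff (H3.denom_pos g P).ne', mul_comm P.t] at h1
      exact (mul_right_cancel₀ P.t_ne_zero h1).symm

theorem volPt_fixed (Φ : PlaceChoice F ι) {γ : GL (Fin 2) F}
    (hγ : γ ∉ Subgroup.center (GL (Fin 2) F)) :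
    (volPt : Measure (Pt F ι n)) {x | act Φ γ x = x} = 0 := by
  have : SigmaFinite H3.volH3 := H3.sigmaFinite_volH3
  obtain ⟨i⟩ : Nonempty ι := (placeEquiv Φ).symm.nonempty_congr.mp inferInstance
  have hne : ¬ ((GeneralLinearGroup.map (Φ.emb i) γ).val 1 0 = 0 ∧
      (GeneralLinearGroup.map (Φ.emb i) γ).val 0 1 = 0 ∧
      (GeneralLinearGroup.map (Φ.emb i) γ).val 0 0 =
        (GeneralLinearGroup.map (Φ.emb i) γ).val 1 1) := by
    rintro ⟨h10, h01, hd⟩
    refine hγ ?_
    rw [GeneralLinearGroup.center_eq_range_scalar]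
    have e10 : γ.val 1 0 = 0 := (Φ.emb i).injective (h10.trans (map_zero _).symm)
    have e01 : γ.val 0 1 = 0 := (Φ.emb i).injective (h01.trans (map_zero _).symm)
    have ed : γ.val 0 0 = γ.val 1 1 := (Φ.emb i).injective hd
    have h00 : γ.val 0 0 ≠ 0 := fun h => γ.det_ne_zero (by
      show γ.val.det = 0
      rw [Matrix.det_fin_two, h, e10]; simp)
    refine ⟨Units.mk0 _ h00, Units.ext (Matrix.ext fun a b => ?_)⟩
    fin_cases a <;> fin_cases b <;> simp [e10, e01, ed]
  refine measure_mono_null (t := Set.univ ×ˢ ((fun P : ι → H3 => P i) ⁻¹'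
    {P | GeneralLinearGroup.map (Φ.emb i) γ • P = P})) (fun x hx => ⟨trivial, ?_⟩) ?_
  · exact congrFun (congrArg Prod.snd hx) i
  · rw [volPt, Measure.prod_prod,
      Measure.pi_eval_preimage_null (fun _ : ι => H3.volH3) (volH3_fixed _ hne), mul_zero]

/-- Each element of `PGL₂(F)` acts measurably on points. -/
theorem measurableConstSMul_pgl (Φ : PlaceChoice F ι) :
    letI := pglAction (n := n) Φ
    MeasurableConstSMul (PGLF F) (Pt F ι n) :=
  letI := pglAction (n := n) Φ
  ⟨fun q => measurable_act Φ q.out⟩

/-- The action of `PGL₂(F)` preserves the measure on points. -/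
theorem smulInvariant_pgl (Φ : PlaceChoice F ι) (hn : n ≠ ⊥) :
    letI := pglAction (n := n) Φ
    SMulInvariantMeasure (PGLF F) (Pt F ι n) volPt :=
  letI := pglAction (n := n) Φ
  ⟨fun q _ hs => (measurePreserving_act Φ hn q.out).measure_preimage hs.nullMeasurableSet⟩

/-- Hecke words commute with translations. -/
theorem wordKernel_smul (ws : List (Ideal (𝓞 F))) (h : GL (Fin 2) (AF F)) (v v' : FinPt F n) :
    wordKernel n ws (h • v) (h • v') = wordKernel n ws v v' := by
  induction ws generalizing v with
  | nil => classical simp only [wordKernel, smul_left_cancel_iff]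
  | cons w ws ih =>
    simp only [wordKernel]
    rw [nbrs_smul, finsum_mem_image (MulAction.injective h).injOn]
    exact finsum_mem_congr rfl fun u _ => ih u

end FLTAgent.LanglandsTunnell.Geom
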