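import Fermat.Agent.LanglandsTunnell.AdelicRing
import Fermat.Agent.LanglandsTunnell.Geom.Reduction

/-!
# Heights under maps of fields

How contents, coordinate ideals and determinant ideals change along a ring homomorphism
`F →+* F'`, giving the behaviour of heights under base change (`height_map`) and under
automorphisms of the field (`height_map_equiv`).
-/

set_option autoImplicit false

noncomputable section

open NumberField Matrix
open scoped nonZeroDivisors

namespace FLTAgent.LanglandsTunnell.Geom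

open FLTAgent.LanglandsTunnell

variable {F : Type} [Field F] [NumberField F] {F' : Type} [Field F'] [NumberField F']

/-- The lattice coefficients of a vector in terms of the content of an approximation. -/
theorem coordFrac_eq_content {g : GL (Fin 2) (AF F)} {v : Fin 2 → F} (hv : v ≠ 0) {m K : ℕ}
    (hm : m ≠ 0) (hK : K ≠ 0) {a : Fin 2 → 𝓞 F} {u r : Fin 2 → AF F} (hu : IsIntVec u)
    (hr : IsIntVec r)
    (hw : ∀ l, (m : AF F) * ((g⁻¹).val *ᵥ (toAF F ∘ v)) l = toAF F (a l : F) + (K : AF F) * u l)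
    (hK' : ∑ l, r l * ((m : AF F) * ((g⁻¹).val *ᵥ (toAF F ∘ v)) l) = (K : AF F)) :
    coordFrac g v = FractionalIdeal.spanSingleton (𝓞 F)⁰ (m : F) *
      ((Ideal.span {a 0, a 1, (K : 𝓞 F)} : Ideal (𝓞 F)) : FractionalIdeal (𝓞 F)⁰ F)⁻¹ := by
  set A : Ideal (𝓞 F) := Ideal.span {a 0, a 1, (K : 𝓞 F)} with hA
  have hA0 : (A : FractionalIdeal (𝓞 F)⁰ F) ≠ 0 := by
    rw [Ne, FractionalIdeal.coeIdeal_eq_zero]
    exact fun h => hK (Nat.cast_eq_zero.mp (Ideal.mem_bot.mp (show (K : 𝓞 F) ∈ (⊥ : Ideal (𝓞 F)) by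
      rw [← h]; exact Ideal.subset_span (by simp))))
  have hmF : (m : F) ≠ 0 := Nat.cast_ne_zero.mpr hm
  refine FractionalIdeal.coe_ext (Submodule.ext fun c => ?_)
  show c ∈ coordFrac g v ↔ c ∈ FractionalIdeal.spanSingleton (𝓞 F)⁰ (m : F) * _
  rw [mem_coordFrac hv, mem_latt, FractionalIdeal.mem_singleton_mul]
  have key : ∀ l, ((g⁻¹).val *ᵥ (toAF F ∘ (c • v))) l
      = toAF F (c / m) * ((m : AF F) * ((g⁻¹).val *ᵥ (toAF F ∘ v)) l) := fun l => by
    rw [show toAF F ∘ (c • v) = toAF F c • (toAF F ∘ v) from funext fun j => by simp,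
      Matrix.mulVec_smul, Pi.smul_apply, smul_eq_mul, ← mul_assoc, ← map_natCast (toAF F) m,
      ← map_mul, div_mul_cancel₀ _ hmF]
  constructor
  · intro hc
    have hint : ∀ l, toAF F (c / m) * ((m : AF F) * ((g⁻¹).val *ᵥ (toAF F ∘ v)) l) ∈ intAF F :=
      fun l => key l ▸ hc l
    have hKint : toAF F (c / m) * (K : AF F) ∈ intAF F := by
      rw [← hK', Finset.mul_sum]
      exact sum_mem fun l _ => by rw [mul_left_comm]; exact mul_mem (hr l) (hint l)
    have ha : ∀ l, toAF F (c / m) * toAF F (a l : F) ∈ intAF F := fun l => by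
      rw [show toAF F (c / m) * toAF F (a l : F) = toAF F (c / m) * ((m : AF F) *
          ((g⁻¹).val *ᵥ (toAF F ∘ v)) l) - toAF F (c / m) * (K : AF F) * u l by
        rw [hw l]; ring]
      exact sub_mem (hint l) (mul_mem hKint (hu l))
    refine ⟨c / m, (FractionalIdeal.mem_inv_iff hA0).mpr fun y hy => ?_, by field_simp⟩
    obtain ⟨y', hy', rfl⟩ := (FractionalIdeal.mem_coeIdeal _).mp hy
    rw [FractionalIdeal.mem_one_iff]
    obtain ⟨b, hb⟩ : ∃ b : 𝓞 F, (b : F) = c / m * (y' : F) := by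
      clear hy
      induction hy' using Submodule.span_induction with
      | mem y' hy' =>
        rcases hy' with rfl | rfl | rfl
        · exact exists_eq_of_toAF_mem_intAF (by rw [map_mul]; exact ha 0)
        · exact exists_eq_of_toAF_mem_intAF (by rw [map_mul]; exact ha 1)
        · exact exists_eq_of_toAF_mem_intAF (by rw [map_mul]; simpa using hKint)
      | zero => exact ⟨0, by simp⟩
      | add p q _ _ hp hq =>
        obtain ⟨b, hb⟩ := hp
        obtain ⟨b', hb'⟩ := hq
        exact ⟨b + b', by simp only [map_add, mul_add]; exact congrArg₂ (· + ·) hb hb'⟩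
      | smul s p _ hp =>
        obtain ⟨b, hb⟩ := hp
        exact ⟨s * b, by
          simp only [smul_eq_mul, map_mul]; linear_combination (algebraMap (𝓞 F) F s) * hb⟩
    exact ⟨b, hb⟩
  · rintro ⟨e, he, rfl⟩ l
    have hmem : ∀ y ∈ A, toAF F (e * (y : F)) ∈ intAF F := fun y hy => by
      obtain ⟨b, hb⟩ := (FractionalIdeal.mem_one_iff _).mp
        ((FractionalIdeal.mem_inv_iff hA0).mp he (y : F) (FractionalIdeal.mem_coeIdeal_of_mem _ hy))
      rw [← hb]
      exact toAF_mem_intAF b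
    rw [key, hw l, mul_add, ← map_mul, ← mul_assoc, ← map_natCast (toAF F) K, ← map_mul,
      mul_div_cancel_left₀ _ hmF]
    refine add_mem (hmem (a l) (Ideal.subset_span ?_)) (mul_mem ?_ (hu l))
    · fin_cases l <;> simp
    · have := hmem (K : 𝓞 F) (Ideal.subset_span (by simp))
      simpa using this

theorem exists_content_data (g : GL (Fin 2) (AF F)) {v : Fin 2 → F} (hv : v ≠ 0) :
    ∃ (m K : ℕ) (a : Fin 2 → 𝓞 F) (u r : Fin 2 → AF F), m ≠ 0 ∧ K ≠ 0 ∧ IsIntVec u ∧ IsIntVec r ∧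
      (∀ l, (m : AF F) * ((g⁻¹).val *ᵥ (toAF F ∘ v)) l = toAF F (a l : F) + (K : AF F) * u l) ∧
      ∑ l, r l * ((m : AF F) * ((g⁻¹).val *ᵥ (toAF F ∘ v)) l) = (K : AF F) := by
  obtain ⟨M, hM, hMg⟩ := exists_bounded g
  set y := (g⁻¹).val *ᵥ (toAF F ∘ v) with hy
  obtain ⟨m₀, hm₀, h₀⟩ := exists_natCast_mul_mem_intAF (y 0)
  obtain ⟨m₁, hm₁, h₁⟩ := exists_natCast_mul_mem_intAF (y 1)
  have hmint : ∀ l, ((m₀ * m₁ : ℕ) : AF F) * y l ∈ intAF F := fun l => by
    rw [Nat.cast_mul]
    fin_cases l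
    · show (m₀ : AF F) * m₁ * y 0 ∈ _
      rw [mul_right_comm]; exact mul_mem h₀ (natCast_mem_intAF m₁)
    · show (m₀ : AF F) * m₁ * y 1 ∈ _
      rw [mul_assoc]; exact mul_mem (natCast_mem_intAF m₀) h₁
  obtain ⟨j, hj⟩ := Function.ne_iff.mp hv
  obtain ⟨k, hk, c, hc⟩ := exists_natCast_mul_eq_coe (v j)⁻¹
  have hj' : v j ≠ 0 := hj
  set m := m₀ * m₁ with hm_def
  set K := k * (m * M) with hK_def
  have hK : K ≠ 0 := mul_ne_zero hk (mul_ne_zero (mul_ne_zero hm₀ hm₁) hM)
  choose a u hu ha using fun l => exists_coe_approx (hmint l) hK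
  refine ⟨m, K, a, u, fun l => toAF F (c : F) * ((M : AF F) * g.val j l),
    mul_ne_zero hm₀ hm₁, hK, hu, fun l => mul_mem (toAF_mem_intAF c) (hMg.1 j l), ha, ?_⟩
  have hgy : (g.val *ᵥ y) j = toAF F (v j) := by
    rw [hy, Matrix.mulVec_mulVec, ← Units.val_mul, mul_inv_cancel, Units.val_one,
      Matrix.one_mulVec]
    rfl
  calc ∑ l, toAF F (c : F) * ((M : AF F) * g.val j l) * ((m : AF F) * y l)
      = toAF F (c : F) * ((M : AF F) * m) * (g.val *ᵥ y) j := by
        rw [Matrix.mulVec, dotProduct, Finset.mul_sum]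
        exact Finset.sum_congr rfl fun l _ => by ring
    _ = (K : AF F) := by
        have e : toAF F (v j)⁻¹ * toAF F (v j) = 1 := by
          rw [← map_mul, inv_mul_cancel₀ hj', map_one]
        rw [hgy, ← hc, map_mul, map_natCast, hK_def, Nat.cast_mul k, Nat.cast_mul m M]
        linear_combination ((k : AF F) * ((M : AF F) * (m : AF F))) * e

theorem absNorm_map_ringHom (f : F →+* F') {d : ℕ}
    (hdeg : Module.finrank ℚ F' = d * Module.finrank ℚ F) (I : Ideal (𝓞 F)) :
    (I.map (RingOfIntegers.mapRingHom f)).absNorm = I.absNorm ^ d := by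
  let : Algebra F F' := f.toAlgebra
  have h : ∀ J : Ideal (𝓞 F), (J.map (algebraMap (𝓞 F) (𝓞 F'))).absNorm
      = J.absNorm ^ Module.finrank (𝓞 F) (𝓞 F') := fun J => by rw [Ideal.absNorm_algebraMap]
  have h2 := h (Ideal.span {(2 : 𝓞 F)})
  rw [Ideal.map_span, Set.image_singleton, map_ofNat, Ideal.absNorm_span_singleton,
    Ideal.absNorm_span_singleton,
    show (2 : 𝓞 F) = algebraMap ℤ (𝓞 F) 2 from (map_ofNat _ 2).symm,
    show (2 : 𝓞 F') = algebraMap ℤ (𝓞 F') 2 from (map_ofNat _ 2).symm, Algebra.norm_algebraMap,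
    Algebra.norm_algebraMap, RingOfIntegers.rank, RingOfIntegers.rank, Int.natAbs_pow,
    Int.natAbs_pow, ← pow_mul, hdeg] at h2
  have h3 : d * Module.finrank ℚ F = Module.finrank ℚ F * Module.finrank (𝓞 F) (𝓞 F') :=
    Nat.pow_right_injective le_rfl h2
  rw [mul_comm d] at h3
  rw [Nat.eq_of_mul_eq_mul_left Module.finrank_pos h3]
  exact h I

theorem nrm_natCast_mul_inv (m : ℕ) (A : Ideal (𝓞 F)) :
    nrm (FractionalIdeal.spanSingleton (𝓞 F)⁰ (m : F) * (A : FractionalIdeal (𝓞 F)⁰ F)⁻¹)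
      = (m : ℝ) ^ Module.finrank ℚ F / (A.absNorm : ℝ) := by
  rw [nrm_mul, nrm_spanSingleton, show (m : F) = algebraMap ℚ F m from (map_natCast _ m).symm,
    Algebra.norm_algebraMap, nrm, map_inv₀, FractionalIdeal.coeIdeal_absNorm]
  simp [div_eq_mul_inv]

omit [NumberField F'] in
theorem map_val_mulVec (f : F →+* F') (g : GL (Fin 2) (AF F)) (v : Fin 2 → F) (l : Fin 2) :
    ((GeneralLinearGroup.map (mapAF f).toRingHom g)⁻¹.val *ᵥ (toAF F' ∘ (f ∘ v))) l =
      mapAF f (((g⁻¹).val *ᵥ (toAF F ∘ v)) l) := by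
  rw [show mapAF f (((g⁻¹).val *ᵥ (toAF F ∘ v)) l)
    = (mapAF f).toRingHom (((g⁻¹).val *ᵥ (toAF F ∘ v)) l) from rfl, RingHom.map_mulVec, ← map_inv]
  refine congrArg (fun w => ((GeneralLinearGroup.map (mapAF f).toRingHom g⁻¹).val *ᵥ w) l) ?_
  exact funext fun j => (FLTAgent.LanglandsTunnell.mapAF_toAF f (v j)).symm

/-- Norms of coordinate ideals under a map of fields. -/
theorem nrm_coordFrac_map (f : F →+* F') {d : ℕ}
    (hdeg : Module.finrank ℚ F' = d * Module.finrank ℚ F) (g : GL (Fin 2) (AF F))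
    {v : Fin 2 → F} (hv : v ≠ 0) :
    nrm (coordFrac (GeneralLinearGroup.map (mapAF f).toRingHom g) (f ∘ v))
      = nrm (coordFrac g v) ^ d := by
  obtain ⟨m, K, a, u, r, hm, hK, hu, hr, hw, hK'⟩ := exists_content_data g hv
  have hv' : f ∘ v ≠ 0 := fun h => hv (funext fun j => f.injective
    ((congrFun h j).trans (map_zero f).symm))
  have hint : ∀ {x : AF F}, x ∈ intAF F → mapAF f x ∈ intAF F' := fun {x} hx =>
    FLTAgent.LanglandsTunnell.mapAF_mem_intAF f hx
  rw [coordFrac_eq_content hv hm hK hu hr hw hK',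
    coordFrac_eq_content hv' hm hK (a := fun l => RingOfIntegers.mapRingHom f (a l))
      (u := fun l => mapAF f (u l)) (r := fun l => mapAF f (r l))
      (fun l => hint (hu l)) (fun l => hint (hr l))
      (fun l => ?_) ?_, nrm_natCast_mul_inv, nrm_natCast_mul_inv, div_pow, ← pow_mul, mul_comm _ d,
    ← hdeg, ← Nat.cast_pow, ← Nat.cast_pow, ← absNorm_map_ringHom f hdeg, Ideal.map_span]
  · simp [Set.image_insert_eq]
  · rw [← map_natCast (mapAF f) K, ← hK', map_sum]
    exact Finset.sum_congr rfl fun l _ => by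
      rw [map_val_mulVec, map_mul, map_mul, map_natCast]
  · rw [map_val_mulVec, ← map_natCast (mapAF f) m, ← map_mul, hw l, map_add, map_mul, map_natCast]
    congr 1

theorem nrm_ideleFrac_map_det (f : F →+* F') {d : ℕ}
    (hdeg : Module.finrank ℚ F' = d * Module.finrank ℚ F) (g : GL (Fin 2) (AF F)) :
    nrm (ideleFrac (GeneralLinearGroup.det (GeneralLinearGroup.map (mapAF f).toRingHom g)))
      = nrm (ideleFrac (GeneralLinearGroup.det g)) ^ d := by
  -- the ideal of an idele as a coordinate ideal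
  have key : ∀ {L : Type} [Field L] [NumberField L] (z : (AF L)ˣ),
      coordFrac (affineGL (R := AF L) z 0) ![1, 0] = ideleFrac z := by
    intro L _ _ z
    refine FractionalIdeal.coe_ext (Submodule.ext fun c => ?_)
    show c ∈ coordFrac _ _ ↔ c ∈ ideleFrac z
    rw [mem_coordFrac fst_ne_zero, mem_latt, mem_ideleFrac]
    have h : toAF L ∘ (c • ![(1 : L), 0]) = ![toAF L c, 0] := funext fun j => by
      fin_cases j <;> simp
    rw [h]
    constructor
    · intro hc
      have h0 := hc 0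
      change ((affineGL (R := AF L) z 0).inv 0 0 * toAF L c
        + ((affineGL (R := AF L) z 0).inv 0 1 * 0 + 0)) ∈ intAF L at h0
      rw [mul_zero, add_zero, add_zero, mul_comm] at h0
      exact h0
    · intro hc l
      show (affineGL (R := AF L) z 0).inv l 0 * toAF L c
        + ((affineGL (R := AF L) z 0).inv l 1 * 0 + 0) ∈ intAF L
      rw [mul_zero, add_zero, add_zero, mul_comm]
      fin_cases l
      · exact hc
      · show toAF L c * 0 ∈ _
        rw [mul_zero]
        exact zero_mem _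
  rw [← key, ← key, show affineGL (R := AF F') (GeneralLinearGroup.det
      (GeneralLinearGroup.map (mapAF f).toRingHom g)) 0
    = GeneralLinearGroup.map (mapAF f).toRingHom
        (affineGL (R := AF F) (GeneralLinearGroup.det g) 0) by
      rw [affineGL_map, map_zero]
      congr 1
      exact Units.ext ((mapAF f).toRingHom.map_det g.val).symm,
    show (![1, 0] : Fin 2 → F') = f ∘ ![1, 0] from funext fun j => by fin_cases j <;> simp,
    nrm_coordFrac_map f hdeg _ fst_ne_zero]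

variable {ι ι' : Type} [Fintype ι] [Fintype ι'] {n : Ideal (𝓞 F)} {n' : Ideal (𝓞 F')}

/-- Heights under a map of fields. -/
theorem height_map (f : F →+* F') (Φ : PlaceChoice F ι) (Φ' : PlaceChoice F' ι') (e : ι' → ι)
    (he : ∀ j, (Φ'.emb j).comp f = Φ.emb (e j)) {d : ℕ}
    (hd : ∀ i, Nat.card {j // e j = i} = d) (g : GL (Fin 2) (AF F)) (P : ι → H3)
    {v : Fin 2 → F} (hv : v ≠ 0) :
    height Φ' (((GeneralLinearGroup.map (mapAF f).toRingHom g : GL (Fin 2) (AF F')) : FinPt F' n'),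
      fun j => P (e j)) (f ∘ v) = height Φ ((g : FinPt F n), P) v ^ d := by
  classical
  have hdeg : Module.finrank ℚ F' = d * Module.finrank ℚ F := by
    rw [← two_mul_card Φ, ← two_mul_card Φ', Fintype.card_eq_nat_card (α := ι'),
      ← Nat.card_congr (Equiv.sigmaFiberEquiv e), Nat.card_sigma]
    simp only [hd, Finset.sum_const, Finset.card_univ, smul_eq_mul]
    ring
  rw [height_mk, height_mk, inv_pow, sizeFn, sizeFn, nrm_coordFrac_map f hdeg g hv,
    nrm_ideleFrac_map_det f hdeg, mul_pow, div_pow, ← pow_mul, ← pow_mul, mul_comm d,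
    ← Finset.prod_pow]
  congr 2
  rw [← Fintype.prod_fiberwise e]
  refine Finset.prod_congr rfl fun i _ => ?_
  have h : ∀ j : {j // e j = i}, (P (e j)).qform (Φ'.emb j ∘ (f ∘ v)) ^ 2
      = (P i).qform (Φ.emb i ∘ v) ^ 2 := by
    rintro ⟨j, rfl⟩
    rw [show Φ'.emb j ∘ (f ∘ v) = Φ.emb (e j) ∘ v from funext fun l => by
      rw [← he j]; rfl]
  rw [Finset.prod_congr rfl fun j _ => h j, Finset.prod_const, Finset.card_univ,
    ← Nat.card_eq_fintype_card, hd]

/-- Heights under an automorphism. -/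
theorem height_map_equiv (f : F →+* F) (Φ : PlaceChoice F ι) (e : ι ≃ ι)
    (he : ∀ i, (Φ.emb i).comp f = Φ.emb (e i)) (g : GL (Fin 2) (AF F)) (P : ι → H3)
    {v : Fin 2 → F} (hv : v ≠ 0) :
    height Φ (((GeneralLinearGroup.map (mapAF f).toRingHom g : GL (Fin 2) (AF F)) : FinPt F n),
      fun j => P (e j)) (f ∘ v) = height Φ ((g : FinPt F n), P) v := by
  rw [height_map (n := n) (n' := n) f Φ Φ e he (d := 1) (fun i => ?_) g P hv, pow_one]
  have : Unique {j // e j = i} :=
    ⟨⟨⟨e.symm i, e.apply_symm_apply i⟩⟩, fun j => Subtype.ext ((e.eq_symm_apply).mpr j.2)⟩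
  exact Nat.card_unique

end FLTAgent.LanglandsTunnell.Geom
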