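import Fermat.Agent.LanglandsTunnell.Geom.Reduction

/-!
# Finitely high cusps

The heights of all cusps seen from one point are bounded above (`exists_height_le`), a consequence
of `h h' ≤ 1`.  Used in `Trace.TraceAssembly`.
-/

set_option autoImplicit false

noncomputable section

open NumberField Matrix
open scoped nonZeroDivisors

namespace FLTAgent.LanglandsTunnell.Geom

open FLTAgent.LanglandsTunnell

variable {F : Type} [Field F] [NumberField F] {ι : Type} [Fintype ι] {n : Ideal (𝓞 F)}

/-- Every point has only finitely high cusps. -/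
theorem exists_height_le (Φ : PlaceChoice F ι) (x : Pt F ι n) :
    ∃ T : ℝ, ∀ v : Fin 2 → F, v ≠ 0 → height Φ x v ≤ T := by
  refine ⟨max (height Φ x ![1, 0]) (height Φ x ![1, 0])⁻¹, fun v hv => ?_⟩
  rcases eq_or_ne (v 1) 0 with h1 | h1
  · have h0 : v 0 ≠ 0 := fun h0 => hv (funext fun i => by fin_cases i <;> assumption)
    rw [show v = v 0 • ![1, 0] from funext fun i => by fin_cases i <;> simp [h1],
      height_smul Φ x h0 fst_ne_zero]
    exact le_max_left _ _
  · refine le_max_of_le_right ((le_inv_mul_iff₀ (height_pos Φ x fst_ne_zero)).mpr ?_ |>.trans_eq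
      (mul_one _))
    exact height_mul_le_one Φ x (by simpa using h1)

end FLTAgent.LanglandsTunnell.Geom
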