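import Fermat.Agent.LanglandsTunnell.Geom.Action

/-!
# Proper discontinuity of the action on points

Normalised representatives with bounded denominators and determinant (`exists_normalised`) and
finiteness of the group elements carrying a compact set to meet another one (`finite_act_inter`).
Used for fundamental domains (`Domain`) and local finiteness of twisted points (`Twist`).
-/

set_option autoImplicit false

noncomputable section

open NumberField Matrix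
open scoped nonZeroDivisors

namespace FLTAgent.LanglandsTunnell.Geom

open FLTAgent.LanglandsTunnell

variable {F : Type} [Field F] [NumberField F] {ι : Type} [Fintype ι] {n : Ideal (𝓞 F)}

/-- Finitely many units represent all units modulo squares. -/
theorem exists_unit_square_reps : ∃ U : Set (𝓞 F)ˣ, U.Finite ∧
    ∀ ε : (𝓞 F)ˣ, ∃ ε₀ ∈ U, ∃ η : (𝓞 F)ˣ, ε = ε₀ * η ^ 2 := by
  let S : Subgroup (𝓞 F)ˣ := (powMonoidHom 2).range
  have : Group.FG (𝓞 F)ˣ := Group.fg_iff_monoid_fg.mpr inferInstance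
  have : Group.FG ((𝓞 F)ˣ ⧸ S) := Group.fg_of_surjective (QuotientGroup.mk'_surjective S)
  have : Finite ((𝓞 F)ˣ ⧸ S) := CommGroup.finite_of_fg_isMulTorsion _ (fun q => by
    obtain ⟨x, rfl⟩ := QuotientGroup.mk_surjective q
    exact isOfFinOrder_iff_pow_eq_one.mpr ⟨2, two_pos,
      by rw [← QuotientGroup.mk_pow]; exact (QuotientGroup.eq_one_iff _).mpr ⟨x, rfl⟩⟩)
  refine ⟨Set.range (Quotient.out : (𝓞 F)ˣ ⧸ S → (𝓞 F)ˣ), Set.finite_range _, fun ε => ?_⟩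
  obtain ⟨⟨z, η, hη⟩, hz⟩ := QuotientGroup.mk_out_eq_mul S ε
  refine ⟨(ε : (𝓞 F)ˣ ⧸ S).out, ⟨_, rfl⟩, η⁻¹, ?_⟩
  rw [hz]
  change η ^ 2 = z at hη
  show ε = ε * z * η⁻¹ ^ 2
  rw [← hη, mul_assoc, inv_pow, mul_inv_cancel, mul_one]

theorem bounded_scalar_of_ideleFrac {z : (AF F)ˣ} {J : Ideal (𝓞 F)}
    (h : ideleFrac z = (J : FractionalIdeal (𝓞 F)⁰ F)) :
    Bounded J.absNorm (GeneralLinearGroup.scalar (Fin 2) z) := by
  have hint : (z : AF F) ∈ intAF F := by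
    obtain ⟨M, hM, -, hMz'⟩ := exists_units_bound z
    obtain ⟨a, w, hw, ha⟩ := exists_approx (z : AF F) hM
    have haI : a ∈ ideleFrac z := by
      rw [mem_ideleFrac, show toAF F a * (z⁻¹ : (AF F)ˣ)
        = 1 - ((M : AF F) * (z⁻¹ : (AF F)ˣ)) * w by
          linear_combination z.mul_inv - ((z⁻¹ : (AF F)ˣ) : AF F) * ha]
      exact sub_mem (one_mem _) (mul_mem hMz' hw)
    rw [h] at haI
    obtain ⟨a', -, rfl⟩ := (FractionalIdeal.mem_coeIdeal _).mp haI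
    rw [ha]
    exact add_mem (toAF_mem_intAF a') (mul_mem (natCast_mem_intAF M) hw)
  have hinv : (J.absNorm : AF F) * (z⁻¹ : (AF F)ˣ) ∈ intAF F := by
    have h1 : (J.absNorm : F) ∈ ideleFrac z := by
      rw [h]
      exact (FractionalIdeal.mem_coeIdeal _).mpr ⟨_, Ideal.absNorm_mem J, map_natCast _ _⟩
    rwa [mem_ideleFrac, map_natCast] at h1
  refine ⟨fun i j => ?_, fun i j => ?_⟩
  · rw [GeneralLinearGroup.coe_scalar, Matrix.scalar_apply]
    show (J.absNorm : AF F) * Matrix.diagonal (fun _ => (z : AF F)) i j ∈ intAF F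
    rw [Matrix.diagonal_apply]
    split_ifs
    exacts [mul_mem (natCast_mem_intAF _) hint, by rw [mul_zero]; exact zero_mem _]
  · rw [← map_inv, GeneralLinearGroup.coe_scalar, Matrix.scalar_apply]
    show (J.absNorm : AF F) * Matrix.diagonal (fun _ => ((z⁻¹ : (AF F)ˣ) : AF F)) i j ∈ intAF F
    rw [Matrix.diagonal_apply]
    split_ifs
    exacts [hinv, by rw [mul_zero]; exact zero_mem _]

omit [Fintype ι] in
/-- Integral elements with bounded conjugates form a finite set. -/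
theorem finite_bounded_entries (Φ : PlaceChoice F ι) {M : ℕ} (hM : M ≠ 0) (B : ℝ) :
    {x : F | (∃ a : 𝓞 F, (a : F) = (M : F) * x) ∧ ∀ i, ‖Φ.emb i x‖ ≤ B}.Finite := by
  refine ((NumberField.Embeddings.finite_of_norm_le F ℂ ((M : ℝ) * B)).image
    fun y => y / (M : F)).subset ?_
  rintro x ⟨⟨a, ha⟩, hx⟩
  refine ⟨(M : F) * x, ⟨ha ▸ a.2, fun φ => ?_⟩, by field_simp⟩
  obtain ⟨i, hi⟩ := Φ.bijective.surjective (InfinitePlace.mk φ)
  rw [← InfinitePlace.apply, ← hi, InfinitePlace.apply, map_mul, map_natCast, norm_mul,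
    Complex.norm_natCast]
  exact mul_le_mul_of_nonneg_left (hx i) (Nat.cast_nonneg M)

/-- On a compact set the metrics are uniformly bounded. -/
theorem exists_qform_bounds {K : Set H3} (hK : IsCompact K) :
    ∃ A : ℝ, 0 ≤ A ∧ ∀ P ∈ K, ∀ v : Fin 2 → ℂ,
      (P.qform v ≤ A * (‖v 0‖ ^ 2 + ‖v 1‖ ^ 2)) ∧ ∀ j, ‖v j‖ ^ 2 ≤ A * P.qform v := by
  obtain ⟨A₁, hA₁⟩ := hK.bddAbove_image H3.continuous_t.continuousOn
  obtain ⟨A₂, hA₂⟩ := hK.bddAbove_image
    (H3.continuous_t.inv₀ fun P => P.t_ne_zero).continuousOn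
  obtain ⟨A₃, hA₃⟩ := hK.bddAbove_image H3.continuous_z.norm.continuousOn
  set a := max (max A₁ A₂) (max A₃ 1)
  have ha : 1 ≤ a := le_max_of_le_right (le_max_right _ _)
  refine ⟨6 * a ^ 3, by positivity, fun P hP v => ?_⟩
  have h1 : P.t ≤ a := (hA₁ ⟨P, hP, rfl⟩).trans (le_max_of_le_left (le_max_left _ _))
  have h2 : P.t⁻¹ ≤ a := (hA₂ ⟨P, hP, rfl⟩).trans (le_max_of_le_left (le_max_right _ _))
  have h3 : ‖P.z‖ ≤ a := (hA₃ ⟨P, hP, rfl⟩).trans (le_max_of_le_right (le_max_left _ _))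
  have ht := P.t_pos
  have hsub : ‖v 0 - P.z * v 1‖ ^ 2 ≤ 2 * ‖v 0‖ ^ 2 + 2 * (a ^ 2 * ‖v 1‖ ^ 2) := by
    have h4 : ‖v 0 - P.z * v 1‖ ≤ ‖v 0‖ + a * ‖v 1‖ := (norm_sub_le _ _).trans (by
      rw [norm_mul]
      exact add_le_add le_rfl (mul_le_mul_of_nonneg_right h3 (norm_nonneg _)))
    have h5 := pow_le_pow_left₀ (norm_nonneg _) h4 2
    nlinarith [sq_nonneg (‖v 0‖ - a * ‖v 1‖)]
  have hq : P.qform v = ‖v 0 - P.z * v 1‖ ^ 2 * P.t⁻¹ + P.t * ‖v 1‖ ^ 2 := by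
    rw [H3.qform, Complex.normSq_eq_norm_sq, Complex.normSq_eq_norm_sq]
    field_simp
  have n0 : 0 ≤ ‖v 0‖ ^ 2 := sq_nonneg _
  have n1 : 0 ≤ ‖v 1‖ ^ 2 := sq_nonneg _
  have a0 : 0 ≤ a := le_trans zero_le_one ha
  have a13 : a ≤ a ^ 3 := le_self_pow₀ ha (by norm_num)
  refine ⟨?_, fun j => ?_⟩
  · rw [hq]
    have e1 : ‖v 0 - P.z * v 1‖ ^ 2 * P.t⁻¹ ≤ (2 * ‖v 0‖ ^ 2 + 2 * (a ^ 2 * ‖v 1‖ ^ 2)) * a :=
      mul_le_mul hsub h2 (inv_nonneg.mpr ht.le) (by positivity)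
    have e2 : P.t * ‖v 1‖ ^ 2 ≤ a * ‖v 1‖ ^ 2 := mul_le_mul_of_nonneg_right h1 n1
    nlinarith [mul_le_mul_of_nonneg_right a13 n0, mul_le_mul_of_nonneg_right a13 n1,
      mul_nonneg (pow_nonneg a0 3) n0, mul_nonneg (pow_nonneg a0 3) n1]
  · have hqn := H3.qform_nonneg P v
    have hb : ‖v 1‖ ^ 2 ≤ a * P.qform v := by
      have e1 : ‖v 1‖ ^ 2 = P.t⁻¹ * (P.t * ‖v 1‖ ^ 2) := by field_simp
      rw [e1]
      refine mul_le_mul h2 ?_ (by positivity) a0
      rw [hq]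
      exact le_add_of_nonneg_left (by positivity)
    have hc : ‖v 0 - P.z * v 1‖ ^ 2 ≤ a * P.qform v := by
      have e1 : ‖v 0 - P.z * v 1‖ ^ 2 = P.t * (‖v 0 - P.z * v 1‖ ^ 2 * P.t⁻¹) := by field_simp
      rw [e1]
      refine mul_le_mul h1 ?_ (by positivity) a0
      rw [hq]
      exact le_add_of_nonneg_right (by positivity)
    have e3 : a * P.qform v ≤ a ^ 3 * P.qform v := mul_le_mul_of_nonneg_right a13 hqn
    have e4 : 0 ≤ a ^ 3 * P.qform v := mul_nonneg (pow_nonneg a0 3) hqn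
    fin_cases j
    · have e5 : ‖v 0‖ ≤ ‖v 0 - P.z * v 1‖ + a * ‖v 1‖ := by
        calc ‖v 0‖ = ‖(v 0 - P.z * v 1) + P.z * v 1‖ := by rw [sub_add_cancel]
          _ ≤ _ := (norm_add_le _ _).trans (by
            rw [norm_mul]
            exact add_le_add le_rfl (mul_le_mul_of_nonneg_right h3 (norm_nonneg _)))
      have e6 := pow_le_pow_left₀ (norm_nonneg _) e5 2
      have e7 := mul_le_mul_of_nonneg_left hb (sq_nonneg a)
      show ‖v 0‖ ^ 2 ≤ _
      nlinarith [sq_nonneg (‖v 0 - P.z * v 1‖ - a * ‖v 1‖)]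
    · show ‖v 1‖ ^ 2 ≤ _
      linarith

theorem exists_det_reps (g g' : GL (Fin 2) (AF F)) (S : Finset (Ideal (𝓞 F))) :
    ∃ D : Set F, D.Finite ∧ ∀ x : F, ∀ J ∈ S,
      FractionalIdeal.spanSingleton (𝓞 F)⁰ x * ideleFrac (GeneralLinearGroup.det g) =
        ideleFrac (GeneralLinearGroup.det g') * ((J : FractionalIdeal (𝓞 F)⁰ F) * J) →
      ∃ δ ∈ D, ∃ η : (𝓞 F)ˣ, x = δ * ((η : 𝓞 F) : F) ^ 2 := by
  classical
  obtain ⟨U, hU, hUrep⟩ := exists_unit_square_reps (F := F)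
  let T : Ideal (𝓞 F) → FractionalIdeal (𝓞 F)⁰ F := fun J =>
    ideleFrac (GeneralLinearGroup.det g') * ((J : FractionalIdeal (𝓞 F)⁰ F) * J) *
      (ideleFrac (GeneralLinearGroup.det g))⁻¹
  let pick : Ideal (𝓞 F) → F := fun J =>
    if h : ∃ x, FractionalIdeal.spanSingleton (𝓞 F)⁰ x = T J then h.choose else 0
  refine ⟨(fun p : Ideal (𝓞 F) × (𝓞 F)ˣ => pick p.1 * ((p.2 : 𝓞 F) : F)) '' ((S : Set _) ×ˢ U),
    ((S.finite_toSet).prod hU).image _, fun x J hJ hx => ?_⟩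
  have hx' : FractionalIdeal.spanSingleton (𝓞 F)⁰ x = T J := by
    simp only [T]
    rw [← hx, mul_assoc, mul_inv_cancel₀ (ideleFrac_ne_zero _), mul_one]
  have hp : FractionalIdeal.spanSingleton (𝓞 F)⁰ (pick J) = T J := by
    have h : ∃ x, FractionalIdeal.spanSingleton (𝓞 F)⁰ x = T J := ⟨x, hx'⟩
    simp only [pick, dif_pos h]
    exact h.choose_spec
  obtain ⟨ε, hε⟩ := FractionalIdeal.spanSingleton_eq_spanSingleton.mp (hp.trans hx'.symm)
  obtain ⟨ε₀, hε₀, η, rfl⟩ := hUrep ε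
  refine ⟨_, ⟨(J, ε₀), ⟨hJ, hε₀⟩, rfl⟩, η, ?_⟩
  rw [← hε, Units.smul_def, Algebra.smul_def]
  simp only [Units.val_mul, Units.val_pow_eq_pow_val, map_mul, map_pow]
  ring

/-- Representatives with bounded denominators and bounded determinant. -/
theorem exists_normalised (Φ : PlaceChoice F ι) (y y' : FinPt F n) :
    ∃ (L : ℕ) (D : ℝ), L ≠ 0 ∧ 0 ≤ D ∧ ∀ q : PGLF F,
      GeneralLinearGroup.map (toAF F) q.out • y = y' → ∃ γ : GL (Fin 2) F, (γ : PGLF F) = q ∧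
        (∀ a b, ∃ c : 𝓞 F, (c : F) = (L : F) * γ.val a b) ∧ ∀ i, ‖Φ.emb i γ.val.det‖ ≤ D := by
  obtain ⟨g, rfl⟩ := QuotientGroup.mk_surjective y
  obtain ⟨g', rfl⟩ := QuotientGroup.mk_surjective y'
  obtain ⟨M, hM, hMg⟩ := exists_bounded g
  obtain ⟨M', hM', hMg'⟩ := exists_bounded g'
  obtain ⟨S, hS0, hS⟩ := exists_class_reps (F := F)
  obtain ⟨D, hD, hDrep⟩ := exists_det_reps g g' S
  set m₀ := ∏ J ∈ S, J.absNorm with hm₀_def
  have hm₀ : m₀ ≠ 0 := Finset.prod_ne_zero_iff.mpr fun J hJ => by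
    rw [Ne, Ideal.absNorm_eq_zero_iff]; exact hS0 J hJ
  set L := M' * (M * m₀) with hL_def
  have hL : L ≠ 0 := mul_ne_zero hM' (mul_ne_zero hM hm₀)
  obtain ⟨B, hB⟩ := (hD.image fun δ => ∑ i, ‖Φ.emb i δ‖).bddAbove
  refine ⟨L, max B 0, hL, le_max_right _ _, fun q hfst => ?_⟩
  obtain ⟨k, hk, z, hz⟩ := exists_level_decomp (n := n) hfst.symm
  change GeneralLinearGroup.map (toAF F) q.out * g = _ at hz
  -- normalise the idele
  obtain ⟨J, hJ, α, hα, hzJ⟩ := hS _ (ideleFrac_ne_zero z)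
  set αu : Fˣ := Units.mk0 α hα with hαu
  set γ₁ : GL (Fin 2) F := q.out * (GeneralLinearGroup.scalar (Fin 2) αu)⁻¹ with hγ₁
  set z₁ : (AF F)ˣ := (Units.map (toAF F : F →* AF F) αu)⁻¹ * z with hz₁
  have hzJ₁ : ideleFrac z₁ = (J : FractionalIdeal (𝓞 F)⁰ F) := by
    have h1 : ideleFrac (Units.map (toAF F : F →* AF F) αu) * ideleFrac z₁ = ideleFrac z := by
      rw [← ideleFrac_mul, hz₁, mul_inv_cancel_left]
    rw [ideleFrac_toAF, hzJ, hαu, Units.val_mk0] at h1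
    exact mul_left_cancel₀ (FractionalIdeal.spanSingleton_ne_zero_iff.mpr hα) h1
  have hz' : GeneralLinearGroup.map (toAF F) γ₁ * g
      = g' * k * GeneralLinearGroup.scalar (Fin 2) z₁ := by
    have hc : ∀ (u : (AF F)ˣ) (x : GL (Fin 2) (AF F)), x * GeneralLinearGroup.scalar (Fin 2) u
        = GeneralLinearGroup.scalar (Fin 2) u * x := fun u x =>
      Subgroup.mem_center_iff.mp (by
        rw [GeneralLinearGroup.center_eq_range_scalar]
        exact ⟨u, rfl⟩) x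
    rw [hγ₁, map_mul, map_inv, map_scalar_two, mul_assoc, hz₁, ← map_inv, map_mul, ← hc,
      ← mul_assoc, ← mul_assoc, hz, mul_assoc _ (GeneralLinearGroup.scalar (Fin 2) z),
      ← map_mul, mul_assoc _ (GeneralLinearGroup.scalar (Fin 2) _), ← map_mul, mul_comm z]
    rfl
  -- normalise the determinant
  have hdet : FractionalIdeal.spanSingleton (𝓞 F)⁰ γ₁.val.det
      * ideleFrac (GeneralLinearGroup.det g) =
        ideleFrac (GeneralLinearGroup.det g') * ((J : FractionalIdeal (𝓞 F)⁰ F) * J) := by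
    have h1 := congrArg (fun x => ideleFrac (GeneralLinearGroup.det x)) hz'
    simp only [map_mul, ideleFrac_mul, det_scalar_two, pow_two, hzJ₁] at h1
    rw [show GeneralLinearGroup.det (GeneralLinearGroup.map (toAF F) γ₁)
      = Units.map (toAF F : F →* AF F) (GeneralLinearGroup.det γ₁) from
        Units.ext ((toAF F).map_det γ₁.val).symm, ideleFrac_toAF,
      GeneralLinearGroup.val_det_apply] at h1
    rw [h1, ← ideleFrac_mul, ← map_mul, ideleFrac_det_mul_right (bounded_of_congrOne hk)]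
  obtain ⟨δ, hδ, η, hη⟩ := hDrep _ J hJ hdet
  set ηu : Fˣ := Units.map (algebraMap (𝓞 F) F).toMonoidHom η with hηu
  set γ₂ : GL (Fin 2) F := γ₁ * GeneralLinearGroup.scalar (Fin 2) ηu⁻¹ with hγ₂
  have hq : (γ₂ : PGLF F) = q := by
    rw [hγ₂, hγ₁, mul_assoc, ← map_inv, ← map_mul]
    conv_rhs => rw [← q.out_eq]
    refine (QuotientGroup.eq.mpr ?_).symm
    rw [inv_mul_cancel_left, GeneralLinearGroup.center_eq_range_scalar]
    exact ⟨_, rfl⟩
  refine ⟨γ₂, hq, fun a b => ?_, fun i => ?_⟩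
  · -- integrality
    obtain ⟨c, hc⟩ : ∃ c : 𝓞 F, (c : F) = (L : F) * γ₁.val a b := by
      refine exists_eq_of_toAF_mem_intAF ?_
      have hb1 : GeneralLinearGroup.map (toAF F) γ₁
          = g' * k * GeneralLinearGroup.scalar (Fin 2) z₁ * g⁻¹ := by
        rw [← hz', mul_inv_cancel_right]
      have hb2 : Bounded (M' * 1 * J.absNorm * M) (GeneralLinearGroup.map (toAF F) γ₁) :=
        hb1 ▸ ((hMg'.mul (bounded_of_congrOne hk)).mul (bounded_scalar_of_ideleFrac hzJ₁)).mul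
          hMg.inv
      have hdvd : M' * 1 * J.absNorm * M ∣ L := by
        obtain ⟨e, he⟩ := Finset.dvd_prod_of_mem (fun J : Ideal (𝓞 F) => J.absNorm) hJ
        exact ⟨e, by rw [hL_def, hm₀_def, he]; ring⟩
      have h3 := (hb2.mono hdvd).1 a b
      rw [map_mul, map_natCast]
      exact h3
    refine ⟨((η⁻¹ : (𝓞 F)ˣ) : 𝓞 F) * c, ?_⟩
    rw [hγ₂, Units.val_mul, GeneralLinearGroup.coe_scalar, Matrix.scalar_apply,
      Matrix.mul_diagonal, hηu, ← map_inv]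
    show ((η⁻¹ : (𝓞 F)ˣ) : F) * (c : F) = (L : F) * (γ₁.val a b * _)
    rw [hc]
    rw [Units.coe_map]
    show _ = (L : F) * (γ₁.val a b * ((η⁻¹ : (𝓞 F)ˣ) : F))
    ring
  · -- the determinant
    have hdet₂ : γ₂.val.det = δ := by
      rw [hγ₂, Units.val_mul, Matrix.det_mul, hη, GeneralLinearGroup.coe_scalar,
        Matrix.scalar_apply, Matrix.det_diagonal, Fin.prod_univ_two]
      have hne : ((η : 𝓞 F) : F) ≠ 0 := by simp
      simp only [hηu, Units.coe_map, Units.val_inv_eq_inv_val]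
      show δ * ((η : 𝓞 F) : F) ^ 2 * (((η : 𝓞 F) : F)⁻¹ * ((η : 𝓞 F) : F)⁻¹) = δ
      field_simp
    rw [hdet₂]
    refine le_trans ?_ ((hB ⟨δ, hδ, rfl⟩).trans (le_max_left _ _))
    exact Finset.single_le_sum (f := fun i => ‖Φ.emb i δ‖) (fun i _ => norm_nonneg _)
      (Finset.mem_univ i)

/-- Proper discontinuity. -/
theorem finite_act_inter (Φ : PlaceChoice F ι) {K K' : Set (ι → H3)} (hK : IsCompact K)
    (hK' : IsCompact K') (y y' : FinPt F n) :
    {q : PGLF F | ∃ P ∈ K, (act Φ q.out (y, P)).1 = y' ∧ (act Φ q.out (y, P)).2 ∈ K'}.Finite := by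
  obtain ⟨L, D, hL, -, hrep⟩ := exists_normalised Φ y y'
  choose A hA0 hA using fun i => exists_qform_bounds (K := (fun P : ι → H3 => P i) '' K)
    (hK.image (continuous_apply i))
  choose A' hA'0 hA' using fun i => exists_qform_bounds (K := (fun P : ι → H3 => P i) '' K')
    (hK'.image (continuous_apply i))
  set B := ∑ i, A' i * (|D| * A i) with hB
  have hfin := finite_bounded_entries Φ hL √B
  set E := {γ : GL (Fin 2) F | ∀ a b, γ.val a b ∈
    {x : F | (∃ c : 𝓞 F, (c : F) = (L : F) * x) ∧ ∀ i, ‖Φ.emb i x‖ ≤ √B}} with hE_def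
  have hE : E.Finite := by
    refine Set.Finite.of_finite_image (f := fun γ : GL (Fin 2) F => fun a b => γ.val a b) ?_
      (fun γ _ δ _ h => Units.ext h)
    refine ((Set.Finite.pi fun _ : Fin 2 => Set.Finite.pi fun _ : Fin 2 => hfin)).subset ?_
    rintro _ ⟨γ, hγ, rfl⟩ a - b -
    exact hγ a b
  refine (hE.image fun γ : GL (Fin 2) F => (γ : PGLF F)).subset ?_
  rintro q ⟨P, hP, hfst, hsnd⟩
  obtain ⟨γ₂, hq, hint, hdet⟩ := hrep q hfst
  refine ⟨γ₂, fun a b => ⟨hint a b, fun i => ?_⟩, hq⟩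
  have hQ : (act Φ γ₂ (y, P)).2 i = (act Φ q.out (y, P)).2 i := by
    rw [← hq, act_out]
  have h1 := H3.qform_smul (GeneralLinearGroup.map (Φ.emb i) γ₂) (P i) (Pi.single b 1)
  rw [Matrix.mulVec_single_one] at h1
  have h2 := ((hA' i _ ⟨_, hsnd, rfl⟩) fun a => (GeneralLinearGroup.map (Φ.emb i) γ₂).val a b).2 a
  change _ ≤ A' i * H3.qform ((act Φ q.out (y, P)).2 i) _ at h2
  rw [← hQ] at h2
  change (GeneralLinearGroup.map (Φ.emb i) γ₂ • P i).qform
    (fun a => (GeneralLinearGroup.map (Φ.emb i) γ₂).val a b) = _ at h1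
  change ‖Φ.emb i (γ₂.val a b)‖ ^ 2 ≤ A' i * (GeneralLinearGroup.map (Φ.emb i) γ₂ • P i).qform
    (fun a => (GeneralLinearGroup.map (Φ.emb i) γ₂).val a b) at h2
  rw [h1] at h2
  have h3 := ((hA i _ ⟨_, hP, rfl⟩) (Pi.single b (1 : ℂ))).1
  have h4 : ‖(Pi.single b (1 : ℂ) : Fin 2 → ℂ) 0‖ ^ 2 + ‖(Pi.single b (1 : ℂ) : Fin 2 → ℂ) 1‖ ^ 2
      = 1 := by fin_cases b <;> simp
  rw [h4, mul_one] at h3
  have h5 : ‖(GeneralLinearGroup.map (Φ.emb i) γ₂).val.det‖ ≤ |D| := by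
    rw [show (GeneralLinearGroup.map (Φ.emb i) γ₂).val.det = Φ.emb i γ₂.val.det from
      ((Φ.emb i).map_det γ₂.val).symm]
    exact (hdet i).trans (le_abs_self D)
  refine Real.le_sqrt_of_sq_le (h2.trans ?_)
  refine le_trans (mul_le_mul_of_nonneg_left
    (mul_le_mul h5 h3 (H3.qform_nonneg _ _) (abs_nonneg D)) (hA'0 i)) ?_
  exact Finset.single_le_sum (f := fun i => A' i * (|D| * A i))
    (fun i _ => mul_nonneg (hA'0 i) (mul_nonneg (abs_nonneg D) (hA0 i))) (Finset.mem_univ i)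

end FLTAgent.LanglandsTunnell.Geom
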