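import Fermat.Agent.LanglandsTunnell.Internal
import Fermat.Agent.LanglandsTunnell.Geom.Proper

/-!
# Fundamental domains of finite volume and unfolding

Abstract orbit sections and unfolding of integrals for countable group actions, then a fundamental
domain of finite volume for `PGL₂(F)` on points (`exists_isFundDomain`), packaged as
`reductionSpec`, and the unfolding formulas `lintegral_unfold_fundDomain` and
`integral_unfold_fundDomain`.
-/

set_option autoImplicit false

noncomputable section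

open MeasureTheory
open scoped ENNReal

namespace FLTAgent.LanglandsTunnell.Geom

/-! ### Countable groups with a countable family of slices -/

section Abstract

variable {G X : Type} [Group G] [Countable G] [MulAction G X] [MeasurableSpace X]
  [MeasurableConstSMul G X]

/-- A measurable set meeting every orbit through the slices exactly once. -/
theorem exists_orbit_section (U : ℕ → Set X) (hU : ∀ k, MeasurableSet (U k))
    (hslice : ∀ k, ∀ g : G, g ≠ 1 → ∀ x ∈ U k, g • x ∉ U k) :
    ∃ D : Set X, MeasurableSet D ∧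
      ∀ x, (∃ (k : ℕ) (g : G), g • x ∈ U k) → ∃! g : G, g • x ∈ D := by
  classical
  refine ⟨{x | ∃ k, x ∈ U k ∧ ∀ j < k, ∀ g : G, g • x ∉ U j}, ?_, fun x hx => ?_⟩
  · rw [show {x | ∃ k, x ∈ U k ∧ ∀ j < k, ∀ g : G, g • x ∉ U j}
      = ⋃ k, U k ∩ ⋂ (j : ℕ) (_ : j < k) (g : G), ((fun x => g • x) ⁻¹' U j)ᶜ by
        ext x; simp]
    exact MeasurableSet.iUnion fun k => (hU k).inter (MeasurableSet.iInter fun j =>
      MeasurableSet.iInter fun _ => MeasurableSet.iInter fun g =>
        ((measurable_const_smul g) (hU j)).compl)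
  obtain ⟨g, hg⟩ := Nat.find_spec hx
  refine ⟨g, ⟨Nat.find hx, hg, fun j hj h hh => Nat.find_min hx hj ⟨h * g, by rwa [mul_smul]⟩⟩, ?_⟩
  rintro g' ⟨k, hk, hmin⟩
  have hle : Nat.find hx ≤ k := Nat.find_min' hx ⟨g', hk⟩
  rcases hle.lt_or_eq with hlt | rfl
  · refine absurd ?_ (hmin _ hlt (g * g'⁻¹))
    rwa [← mul_smul, inv_mul_cancel_right]
  · by_contra hne
    exact hslice _ (g' * g⁻¹) (fun h => hne (mul_inv_eq_one.mp h)) _ hg
      (by rwa [← mul_smul, inv_mul_cancel_right])

variable {μ : Measure X} [SMulInvariantMeasure G X μ]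

omit [MeasurableConstSMul G X] in
theorem measurableSet_free_part {D : Set X} (hD : MeasurableSet D)
    (hfix : ∀ g : G, g ≠ 1 → MeasurableSet {x : X | g • x = x}) :
    MeasurableSet (D ∩ {x | ∀ g : G, g ≠ 1 → g • x ≠ x}) := by
  refine hD.inter ?_
  rw [show {x : X | ∀ g : G, g ≠ 1 → g • x ≠ x} = ⋂ (g : G) (_ : g ≠ 1), {x | g • x = x}ᶜ by
    ext x; simp]
  exact MeasurableSet.iInter fun g => MeasurableSet.iInter fun hg => (hfix g hg).compl

/-- A section has at most the measure of any set meeting every orbit. -/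
theorem measure_section_le {D S : Set X} (hD : MeasurableSet D) (hS : MeasurableSet S)
    (hdisj : ∀ g : G, g ≠ 1 → ∀ x ∈ D, g • x ∉ D) (hcover : ∀ x, ∃ g : G, g • x ∈ S) :
    μ D ≤ μ S := by
  calc μ D ≤ ∑' g : G, μ (D ∩ (fun x => g • x) ⁻¹' S) := by
        refine le_trans (measure_mono ?_) (measure_iUnion_le _)
        intro x hx
        obtain ⟨g, hg⟩ := hcover x
        exact Set.mem_iUnion.mpr ⟨g, hx, hg⟩
    _ = ∑' g : G, μ ((fun x => g⁻¹ • x) ⁻¹' D ∩ S) := tsum_congr fun g => by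
        rw [← (measurePreserving_smul g μ).measure_preimage
          (((measurable_const_smul g⁻¹) hD).inter hS).nullMeasurableSet]
        congr 1
        ext x
        simp
    _ = μ (⋃ g : G, (fun x => g⁻¹ • x) ⁻¹' D ∩ S) := by
        refine (measure_iUnion ?_ fun g => ((measurable_const_smul g⁻¹) hD).inter hS).symm
        intro g h hne
        refine Set.disjoint_left.mpr fun x hx hx' => ?_
        refine hdisj (h⁻¹ * g) (fun he => hne (inv_mul_eq_one.mp he).symm) _ hx.1 ?_
        rw [← mul_smul, mul_assoc, mul_inv_cancel, mul_one]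
        exact hx'.1
    _ ≤ μ S := measure_mono (Set.iUnion_subset fun g => Set.inter_subset_right)

/-- Unfolding: an integral over the whole space is an integral over a section. -/
theorem lintegral_eq_setLIntegral_tsum {S : Set X} (hS : MeasurableSet S)
    (h : ∀ᵐ x ∂μ, ∃! g : G, g • x ∈ S) {f : X → ℝ≥0∞} (hf : Measurable f) :
    ∫⁻ x, f x ∂μ = ∫⁻ x in S, ∑' g : G, f (g • x) ∂μ := by
  have h1 : ∀ᵐ x ∂μ, ∑' g : G, S.indicator 1 (g • x) * f x = f x := h.mono fun x ⟨g, hg, hu⟩ => by
    rw [tsum_eq_single g fun g' hg' => by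
      rw [Set.indicator_of_notMem fun hm => hg' (hu g' hm), zero_mul],
      Set.indicator_of_mem hg, Pi.one_apply, one_mul]
  have hm : ∀ g : G, Measurable fun x => S.indicator (1 : X → ℝ≥0∞) (g • x) * f x := fun g =>
    ((measurable_one.indicator hS).comp (measurable_const_smul g)).mul hf
  have hm' : ∀ g : G, Measurable fun x => f (g • x) := fun g => hf.comp (measurable_const_smul g)
  rw [← lintegral_congr_ae h1, lintegral_tsum fun g => (hm g).aemeasurable,
    lintegral_tsum fun g => (hm' g).aemeasurable, ← (Equiv.inv G).tsum_eq]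
  refine tsum_congr fun g => ?_
  rw [← lintegral_indicator hS, ← (measurePreserving_smul g μ).lintegral_comp (hm _)]
  refine lintegral_congr fun x => ?_
  simp only [Equiv.inv_apply, inv_smul_smul]
  by_cases hx : x ∈ S <;> simp [hx]

/-- Unfolding for integrable functions. -/
theorem integral_eq_setIntegral_tsum {S : Set X} (hS : MeasurableSet S)
    (h : ∀ᵐ x ∂μ, ∃! g : G, g • x ∈ S) {f : X → ℂ} (hf : Integrable f μ) :
    ∫ x, f x ∂μ = ∫ x in S, ∑' g : G, f (g • x) ∂μ := by
  have hmp : ∀ g : G, MeasurePreserving (fun x => g • x) μ μ := fun g => measurePreserving_smul g μ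
  have h1 : ∀ᵐ x ∂μ, ∑' g : G, S.indicator (fun _ => f x) (g • x) = f x :=
    h.mono fun x ⟨g, hg, hu⟩ => by
      rw [tsum_eq_single g fun g' hg' => Set.indicator_of_notMem (fun hm => hg' (hu g' hm)) _,
        Set.indicator_of_mem hg]
  have hF : ∀ g : G, Integrable (fun x => f (g • x)) μ := fun g =>
    (hmp g).integrable_comp_of_integrable hf
  have hmeas : ∀ g : G, AEStronglyMeasurable (fun x => S.indicator (fun _ => f x) (g • x)) μ := by
    intro g
    have : (fun x => S.indicator (fun _ => f x) (g • x))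
        = ((fun x => g • x) ⁻¹' S).indicator f := by
      funext x
      by_cases hx : g • x ∈ S <;> simp [hx]
    rw [this]
    exact hf.aestronglyMeasurable.indicator ((measurable_const_smul g) hS)
  have hfin : ∑' g : G, ∫⁻ x, ‖S.indicator (fun _ => f x) (g • x)‖ₑ ∂μ ≠ ⊤ := by
    rw [← lintegral_tsum fun g => (hmeas g).enorm]
    refine (lt_of_le_of_lt (le_of_eq ?_) hf.2).ne
    refine lintegral_congr_ae (h.mono fun x ⟨g, hg, hu⟩ => ?_)
    dsimp only
    rw [tsum_eq_single g fun g' hg' => by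
      rw [Set.indicator_of_notMem fun hm => hg' (hu g' hm), enorm_zero],
      Set.indicator_of_mem hg]
  have hfin' : ∑' g : G, ∫⁻ x in S, ‖f (g • x)‖ₑ ∂μ ≠ ⊤ := by
    rw [← (Equiv.inv G).tsum_eq] at hfin
    refine ne_of_eq_of_ne (tsum_congr fun g => ?_) hfin
    rw [← lintegral_indicator hS,
      ← (hmp g⁻¹).lintegral_comp_emb (measurableEmbedding_const_smul g⁻¹)]
    refine lintegral_congr fun x => ?_
    simp only [Equiv.inv_apply]
    by_cases hx : g⁻¹ • x ∈ S <;> simp [hx]
  rw [← integral_congr_ae h1, integral_tsum hmeas hfin,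
    integral_tsum (fun g => (hF g).aestronglyMeasurable.restrict) hfin', ← (Equiv.inv G).tsum_eq]
  refine tsum_congr fun g => ?_
  rw [← integral_indicator hS, ← (hmp g).integral_comp (measurableEmbedding_const_smul g)]
  refine integral_congr_ae (Filter.Eventually.of_forall fun x => ?_)
  simp only [Equiv.inv_apply, inv_smul_smul]
  by_cases hx : x ∈ S <;> simp [hx]

end Abstract

/-! ### The fundamental domain on points -/

open FLTAgent.LanglandsTunnell NumberField Matrix

variable {F : Type} [Field F] [NumberField F] {ι : Type} [Fintype ι] {n : Ideal (𝓞 F)}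

omit [NumberField F] [Fintype ι] in
theorem continuous_act_snd (Φ : PlaceChoice F ι) (γ : GL (Fin 2) F) (y : FinPt F n) :
    Continuous fun P : ι → H3 => (act Φ γ (y, P)).2 :=
  continuous_pi fun i => by
    show Continuous fun P : ι → H3 => GeneralLinearGroup.map (Φ.emb i) γ • P i
    exact (continuous_const_smul _).comp (continuous_apply i)

theorem measurableSet_fixed (Φ : PlaceChoice F ι) (hn : n ≠ ⊥) (γ : GL (Fin 2) F) :
    MeasurableSet {x : Pt F ι n | act Φ γ x = x} := by
  have := countable_finPt (F := F) hn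
  rw [show {x : Pt F ι n | act Φ γ x = x} = ⋃ y ∈ {y : FinPt F n |
      GeneralLinearGroup.map (toAF F) γ • y = y},
      ({y} : Set (FinPt F n)) ×ˢ {P : ι → H3 | (act Φ γ (y, P)).2 = P} by
    ext ⟨y, P⟩
    constructor
    · intro h
      exact Set.mem_biUnion (x := y) (congrArg Prod.fst h : _) ⟨rfl, congrArg Prod.snd h⟩
    · intro h
      obtain ⟨y', hy', hy'', hP⟩ := Set.mem_iUnion₂.mp h
      obtain rfl : y = y' := hy''
      exact Prod.ext hy' hP]
  exact MeasurableSet.biUnion (Set.to_countable _) fun y _ =>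
    (measurableSet_singleton y).prod
      (measurableSet_eq_fun (continuous_act_snd Φ γ y).measurable measurable_id)

/-- Near a free point, group elements other than `1` move points away. -/
theorem exists_slice (Φ : PlaceChoice F ι) (y : FinPt F n) (P : ι → H3)
    (hfree : ∀ q : PGLF F, q ≠ 1 → act Φ q.out (y, P) ≠ (y, P))
    {b : Set (Set (ι → H3))} (hb : TopologicalSpace.IsTopologicalBasis b) :
    ∃ B ∈ b, P ∈ B ∧ ∀ q : PGLF F, q ≠ 1 →
      ∀ Q ∈ B, act Φ q.out (y, Q) ∉ ({y} : Set (FinPt F n)) ×ˢ B := by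
  obtain ⟨K, hK, hKP⟩ := exists_compact_mem_nhds P
  have hfin := finite_act_inter Φ hK hK y y
  have key2 : ∀ q : PGLF F, ∃ W ∈ nhds P, q ≠ 1 → ∀ Q ∈ W,
      act Φ q.out (y, Q) ∉ ({y} : Set (FinPt F n)) ×ˢ W := by
    intro q
    by_cases hq : q ≠ 1 ∧ GeneralLinearGroup.map (toAF F) q.out • y = y
    · have hne : (act Φ q.out (y, P)).2 ≠ P := fun h => hfree q hq.1 (Prod.ext hq.2 h)
      obtain ⟨U, V, hU, hV, hPU, hPV, hUV⟩ := t2_separation hne
      refine ⟨(fun Q => (act Φ q.out (y, Q)).2) ⁻¹' U ∩ V, Filter.inter_mem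
        ((continuous_act_snd Φ q.out y).continuousAt (hU.mem_nhds hPU)) (hV.mem_nhds hPV),
        fun _ Q hQ h => Set.disjoint_left.mp hUV hQ.1 h.2.2⟩
    · exact ⟨Set.univ, Filter.univ_mem, fun h1 Q _ h => hq ⟨h1, h.1⟩⟩
  choose W hW hW' using key2
  have hN : K ∩ ⋂ q ∈ hfin.toFinset, W q ∈ nhds P :=
    Filter.inter_mem hKP ((Filter.biInter_finset_mem _).mpr fun q _ => hW q)
  obtain ⟨B, hB, hPB, hBsub⟩ := hb.mem_nhds_iff.mp hN
  refine ⟨B, hB, hPB, fun q hq Q hQ h => ?_⟩
  have hmem : q ∈ hfin.toFinset := hfin.mem_toFinset.mpr ⟨Q, (hBsub hQ).1, h.1, (hBsub h.2).1⟩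
  exact hW' q hq Q (Set.mem_iInter₂.mp (hBsub hQ).2 q hmem)
    ⟨h.1, Set.mem_iInter₂.mp (hBsub h.2).2 q hmem⟩

theorem volH3_siegel_lt_top (C : ℝ) {c : ℝ} (hc : 0 < c) :
    H3.volH3 {P : H3 | ‖P.z‖ ≤ C ∧ c ≤ P.t} < ⊤ := by
  set s : Set (ℂ × ℝ) := Metric.closedBall (0 : ℂ) C ×ˢ Set.Ici c with hs_def
  have hsub : H3.coords '' {P : H3 | ‖P.z‖ ≤ C ∧ c ≤ P.t} ⊆ s := by
    rintro _ ⟨P, hP, rfl⟩
    exact ⟨mem_closedBall_zero_iff.mpr hP.1, hP.2⟩
  rw [H3.volH3, H3.measurableEmbedding_coords.comap_apply]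
  refine (measure_mono hsub).trans_lt ?_
  rw [withDensity_apply _ ((measurableSet_closedBall).prod measurableSet_Ici),
    Measure.volume_eq_prod, ← Measure.prod_restrict]
  rw [show (fun x : ℂ × ℝ => ENNReal.ofReal (1 / x.2 ^ 3))
    = fun x => (fun _ : ℂ => (1 : ℝ≥0∞)) x.1 * (fun t : ℝ => ENNReal.ofReal (1 / t ^ 3)) x.2 from
      funext fun x => (one_mul _).symm]
  refine (lintegral_prod_mul (f := fun _ : ℂ => (1 : ℝ≥0∞))
    (g := fun t : ℝ => ENNReal.ofReal (1 / t ^ 3)) aemeasurable_const (by fun_prop)).trans_lt ?_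
  rw [setLIntegral_one]
  refine ENNReal.mul_lt_top measure_closedBall_lt_top ?_
  rw [← restrict_Ioi_eq_restrict_Ici]
  have h := (integrableOn_Ioi_rpow_of_lt (a := (-3 : ℝ)) (by norm_num) hc).2
  rw [hasFiniteIntegral_iff_enorm] at h
  refine lt_of_le_of_lt (lintegral_mono_ae ?_) h
  refine (ae_restrict_mem measurableSet_Ioi).mono fun t (ht : c < t) => ?_
  have ht0 : 0 < t := hc.trans ht
  rw [Real.enorm_eq_ofReal (Real.rpow_nonneg ht0.le _), Real.rpow_neg ht0.le,
    show ((3 : ℝ)) = ((3 : ℕ) : ℝ) by norm_num, Real.rpow_natCast, one_div]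

/-- A fundamental domain of finite volume exists. -/
theorem exists_isFundDomain (Φ : PlaceChoice F ι) (hn : n ≠ ⊥) :
    ∃ S : Set (Pt F ι n), IsFundDomain Φ S := by
  classical
  have := countable_finPt (F := F) hn
  have := countable_PGLF (F := F)
  have : SigmaFinite H3.volH3 := H3.sigmaFinite_volH3
  let := pglAction (n := n) Φ
  have := measurableConstSMul_pgl (n := n) Φ
  have := smulInvariant_pgl (n := n) Φ hn
  obtain ⟨b, hbc, -, hb⟩ := TopologicalSpace.exists_countable_basis (ι → H3)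
  let good : Set (FinPt F n × Set (ι → H3)) := {p | p.2 ∈ b ∧ ∀ q : PGLF F, q ≠ 1 →
    ∀ Q ∈ p.2, act Φ q.out (p.1, Q) ∉ ({p.1} : Set (FinPt F n)) ×ˢ p.2}
  have hgood : good.Countable := by
    have hsub : good ⊆ (Set.univ : Set (FinPt F n)) ×ˢ b := fun p hp => ⟨Set.mem_univ p.1, hp.1⟩
    exact (Set.countable_univ.prod hbc).mono hsub
  have : Nonempty (FinPt F n × Set (ι → H3)) := ⟨(((1 : GL (Fin 2) (AF F)) : FinPt F n), ∅)⟩
  obtain ⟨e, he⟩ := Set.countable_iff_exists_subset_range.mp hgood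
  let U : ℕ → Set (Pt F ι n) := fun k =>
    if e k ∈ good then ({(e k).1} : Set (FinPt F n)) ×ˢ (e k).2 else ∅
  have hU : ∀ k, MeasurableSet (U k) := fun k => by
    simp only [U]
    split_ifs with h
    · exact (measurableSet_singleton _).prod (hb.isOpen h.1).measurableSet
    · exact MeasurableSet.empty
  have hslice : ∀ k, ∀ q : PGLF F, q ≠ 1 → ∀ x ∈ U k, q • x ∉ U k := fun k q hq x hx => by
    simp only [U] at hx ⊢
    split_ifs at hx ⊢ with h
    · obtain ⟨x1, x2⟩ := x
      obtain ⟨h1, h2⟩ := hx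
      rw [Set.mem_singleton_iff] at h1
      subst h1
      exact h.2 q hq x2 h2
    · exact hx.elim
  obtain ⟨D₀, hD₀, hD₀u⟩ := exists_orbit_section U hU hslice
  set D := D₀ ∩ {x : Pt F ι n | ∀ q : PGLF F, q ≠ 1 → q • x ≠ x} with hD_def
  have hD : MeasurableSet D :=
    measurableSet_free_part hD₀ fun q _ => measurableSet_fixed Φ hn q.out
  have hinv : ∀ (g : PGLF F) (x : Pt F ι n), (∀ q : PGLF F, q ≠ 1 → q • x ≠ x) →
      ∀ q : PGLF F, q ≠ 1 → q • g • x ≠ g • x := fun g x hx q hq h => by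
    refine hx (g⁻¹ * q * g) (fun h1 => hq ?_) ?_
    · rw [mul_eq_one_iff_eq_inv, inv_mul_eq_iff_eq_mul, mul_inv_cancel] at h1
      exact h1
    · rw [mul_smul, mul_smul, h, inv_smul_smul]
  have hslices : ∀ x : Pt F ι n, (∀ q : PGLF F, q ≠ 1 → q • x ≠ x) →
      ∃ (k : ℕ) (g : PGLF F), g • x ∈ U k := by
    rintro ⟨y, P⟩ hx
    obtain ⟨B, hB, hPB, hBq⟩ := exists_slice Φ y P hx hb
    obtain ⟨k, hk⟩ := he (show (y, B) ∈ good from ⟨hB, hBq⟩)
    refine ⟨k, 1, ?_⟩
    rw [one_smul]
    simp only [U, hk]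
    rw [if_pos (show (y, B) ∈ good from ⟨hB, hBq⟩)]
    exact ⟨rfl, hPB⟩
  have huniq : ∀ x : Pt F ι n, (∀ q : PGLF F, q ≠ 1 → q • x ≠ x) →
      ∃! g : PGLF F, g • x ∈ D := fun x hx => by
    obtain ⟨g, hg, hu⟩ := hD₀u x (hslices x hx)
    exact ⟨g, ⟨hg, hinv g x hx⟩, fun g' hg' => hu g' hg'.1⟩
  refine ⟨D, hD, ?_, ?_⟩
  · obtain ⟨R, C, c, hR, hc, hred⟩ := exists_reduction (n := n) Φ hn
    refine lt_of_le_of_lt (measure_section_le (G := PGLF F) (S := R ×ˢ siegel ι C c) hD ?_ ?_ ?_) ?_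
    · refine hR.measurableSet.prod ?_
      rw [show siegel ι C c = Set.univ.pi fun _ : ι => {P : H3 | ‖P.z‖ ≤ C ∧ c ≤ P.t} by
        ext P; simp [siegel]]
      exact MeasurableSet.univ_pi fun _ =>
        ((isClosed_le H3.continuous_z.norm continuous_const).inter
        (isClosed_le continuous_const H3.continuous_t)).measurableSet
    · intro g hg x hx hgx
      obtain ⟨g₀, -, hu⟩ := huniq x hx.2
      exact hg ((hu g hgx).trans (hu 1 (show (1 : PGLF F) • x ∈ D by rw [one_smul]; exact hx)).symm)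
    · intro x
      obtain ⟨γ, h1, h2⟩ := hred x
      exact ⟨(γ : PGLF F), by
        show act Φ (γ : PGLF F).out x ∈ _
        rw [act_out]
        exact ⟨h1, h2⟩⟩
    · rw [volPt, Measure.prod_prod, show siegel ι C c
        = Set.univ.pi fun _ : ι => {P : H3 | ‖P.z‖ ≤ C ∧ c ≤ P.t} by ext P; simp [siegel],
        Measure.pi_pi]
      exact ENNReal.mul_lt_top (Measure.count_apply_lt_top.mpr hR)
        (ENNReal.prod_lt_top fun i _ => volH3_siegel_lt_top C hc)
  · have hnull : ∀ᵐ x ∂(volPt : Measure (Pt F ι n)), ∀ q : PGLF F, q ≠ 1 → q • x ≠ x := by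
      refine ae_all_iff.mpr fun q => ?_
      by_cases hq : q = 1
      · exact Filter.Eventually.of_forall fun x h => absurd hq h
      · have hout : q.out ∉ Subgroup.center (GL (Fin 2) F) := fun h =>
          hq (by rw [← q.out_eq]; exact (QuotientGroup.eq_one_iff _).mpr h)
        refine (ae_iff.mpr ?_).mono fun x hx _ => hx
        refine measure_mono_null (fun x hx => ?_) (volPt_fixed Φ hout)
        exact not_not.mp hx
    exact hnull.mono fun x hx => huniq x hx

/-- Reduction theory for the internal interfaces. -/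
theorem reductionSpec : ReductionSpec := fun _ _ _ _ _ Φ _ hn => exists_isFundDomain Φ hn

/-- Unfolding over a fundamental domain. -/
theorem lintegral_unfold_fundDomain (Φ : PlaceChoice F ι) (hn : n ≠ ⊥) {S : Set (Pt F ι n)}
    (hS : IsFundDomain Φ S) {f : Pt F ι n → ℝ≥0∞} (hf : Measurable f) :
    ∫⁻ x, f x ∂volPt = ∫⁻ x in S, ∑' γ : PGLF F, f (act Φ γ.out x) ∂volPt := by
  have := countable_PGLF (F := F)
  let := pglAction (n := n) Φ
  have := measurableConstSMul_pgl (n := n) Φ
  have := smulInvariant_pgl (n := n) Φ hn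
  exact lintegral_eq_setLIntegral_tsum hS.measurable hS.unique hf

/-- Unfolding over a fundamental domain, for integrable functions. -/
theorem integral_unfold_fundDomain (Φ : PlaceChoice F ι) (hn : n ≠ ⊥) {S : Set (Pt F ι n)}
    (hS : IsFundDomain Φ S) {f : Pt F ι n → ℂ} (hf : Integrable f volPt) :
    ∫ x, f x ∂volPt = ∫ x in S, ∑' γ : PGLF F, f (act Φ γ.out x) ∂volPt := by
  have := countable_PGLF (F := F)
  let := pglAction (n := n) Φ
  have := measurableConstSMul_pgl (n := n) Φ
  have := smulInvariant_pgl (n := n) Φ hn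
  exact integral_eq_setIntegral_tsum hS.measurable hS.unique hf

end FLTAgent.LanglandsTunnell.Geom
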