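import Fermat.Agent.LanglandsTunnell.AdelicRing

/-!
# Approximation in the finite adeles

Supplements to `LanglandsTunnell.AdelicRing` in the form used by the geometry modules: integral
elements of `F` are exactly `𝓞 F` (`toAF_mem_intAF_iff`), and a finite adele is approximated by
elements of `F` modulo `M` (`exists_approx`, `exists_coe_approx`).
-/

set_option autoImplicit false
set_option linter.unusedSectionVars false

noncomputable section

open scoped TensorProduct
open NumberField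

namespace FLTAgent.LanglandsTunnell.Geom

open FLTAgent.LanglandsTunnell

/-! ### The integral finite adeles -/

variable {F : Type} [Field F]

theorem intHom_mem (u : 𝓞 F ⊗[ℤ] Zhat) : intHom F u ∈ intAF F := ⟨u, rfl⟩

theorem natCast_mem_intAF (m : ℕ) : (m : AF F) ∈ intAF F := _root_.natCast_mem _ m

variable [NumberField F]

theorem exists_natCast_mul_eq_coe (x : F) : ∃ m : ℕ, m ≠ 0 ∧ ∃ a : 𝓞 F, (m : F) * x = a := by
  obtain ⟨a, b, hb, rfl⟩ := IsFractionRing.div_surjective (𝓞 F) x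
  have hb0 : b ≠ 0 := nonZeroDivisors.ne_zero hb
  obtain ⟨c, hc⟩ := Ideal.mem_span_singleton'.mp (Ideal.absNorm_mem (Ideal.span {b}))
  refine ⟨(Ideal.span {b}).absNorm, by simpa [Ideal.absNorm_eq_zero_iff] using hb0, c * a, ?_⟩
  rw [← map_natCast (algebraMap (𝓞 F) F), ← hc]
  have : algebraMap (𝓞 F) F b ≠ 0 := by simpa using hb0
  push_cast
  field_simp

theorem exists_sub_tmul_one {m : ℕ} (hm : m ≠ 0) (u : 𝓞 F ⊗[ℤ] Zhat) :
    ∃ a : 𝓞 F, (m : 𝓞 F ⊗[ℤ] Zhat) ∣ u - a ⊗ₜ 1 := by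
  obtain ⟨a, y, rfl⟩ := oh_exists_add hm u
  exact ⟨a, y, add_sub_cancel_left _ _⟩

theorem toAF_mem_intAF_iff {x : F} : toAF F x ∈ intAF F ↔ ∃ a : 𝓞 F, (a : F) = x :=
  ⟨exists_eq_of_toAF_mem_intAF, fun ⟨a, h⟩ => h ▸ toAF_mem_intAF a⟩

theorem intCast_zhat_injective : Function.Injective (fun a : ℤ => (a : Zhat)) := fun _ _ h =>
  Int.cast_injective (congrFun h ⟨2, Nat.prime_two⟩)

instance : Nontrivial (AF F) := by
  refine ⟨1, 0, fun h => ?_⟩
  have h1 : (1 : 𝓞 F) ⊗ₜ[ℤ] (1 : Zhat) = 0 := intHom_injective (h.trans (map_zero (intHom F)).symm)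
  let b := RingOfIntegers.basis F
  refine one_ne_zero (α := 𝓞 F) (b.ext_elem fun i => intCast_zhat_injective ?_)
  simpa using congrArg (fun v => (TensorProduct.lid ℤ Zhat) ((b.coord i).rTensor Zhat v)) h1

/-- Strong approximation. -/
theorem exists_approx (a : AF F) {M : ℕ} (hM : M ≠ 0) :
    ∃ x : F, ∃ u ∈ intAF F, a = toAF F x + (M : AF F) * u := by
  obtain ⟨m, hm, v, hv⟩ := exists_natCast_mul_mem_intAF a
  obtain ⟨b, w, hw⟩ := exists_sub_tmul_one (mul_ne_zero hm hM) v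
  refine ⟨(b : F) / m, intHom F w, intHom_mem w, (isUnit_natCast_AF hm).mul_left_cancel ?_⟩
  rw [mul_add, ← mul_assoc, ← Nat.cast_mul, ← map_natCast (toAF F) m, ← map_mul,
    mul_div_cancel₀ _ (Nat.cast_ne_zero.mpr hm), map_natCast, ← hv,
    ← map_natCast (intHom F) (m * M)]
  show intHom F v = _
  erw [← map_mul, ← hw, map_sub]
  exact (add_sub_cancel _ _).symm

/-- Integral finite adeles modulo `m` are integers modulo `m`. -/
theorem exists_coe_approx {a : AF F} (ha : a ∈ intAF F) {M : ℕ} (hM : M ≠ 0) :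
    ∃ x : 𝓞 F, ∃ u ∈ intAF F, a = toAF F (x : F) + (M : AF F) * u := by
  obtain ⟨v, rfl⟩ := ha
  obtain ⟨b, w, hw⟩ := exists_sub_tmul_one hM v
  refine ⟨b, intHom F w, intHom_mem w, ?_⟩
  rw [← map_natCast (intHom F) M, ← map_mul, ← hw, map_sub]
  exact (add_sub_cancel _ _).symm

/-! ### Ideals -/

theorem idealAF_le (n : Ideal (𝓞 F)) {a : AF F} (h : a ∈ idealAF F n) : a ∈ intAF F := by
  obtain ⟨u, _, rfl⟩ := h
  exact intHom_mem u

end FLTAgent.LanglandsTunnell.Geom
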