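import Fermat.Agent.LanglandsTunnell.Basic

/-!
# Hyperbolic three-space with its action of `GL₂(ℂ)`

Points of `H3` as Hermitian forms of determinant one, the Möbius action (`MulAction` instance, with
`smul_z` and `smul_t`), the quadratic form `qform` with its equivariance, and the hyperbolic cosine
distance with its symmetry and invariance (`coshDist_smul`).
-/

set_option autoImplicit false

noncomputable section

open Complex ComplexConjugate
open scoped MatrixGroups

namespace FLTAgent.LanglandsTunnell

namespace H3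

/-- The height of a point is nonzero. -/
theorem t_ne_zero (P : H3) : P.t ≠ 0 := P.t_pos.ne'

/-- The base point `(0, 1)`. -/
def base : H3 := ⟨0, 1, one_pos⟩

instance : Inhabited H3 := ⟨base⟩

/-- The hermitian form of a point, positive definite of determinant one. -/
def form (P : H3) : Matrix (Fin 2) (Fin 2) ℂ :=
  !![((normSq P.z + P.t ^ 2) / P.t : ℝ), P.z / P.t; conj P.z / P.t, ((P.t⁻¹ : ℝ) : ℂ)]

theorem det_form (P : H3) : P.form.det = 1 := by
  have := P.t_ne_zero
  rw [form, Matrix.det_fin_two_of]
  push_cast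
  rw [Complex.normSq_eq_conj_mul_self]
  have : (P.t : ℂ) ≠ 0 := by exact_mod_cast P.t_ne_zero
  field_simp
  ring

theorem form_injective : Function.Injective form := by
  intro P Q h
  have h11 := congrFun (congrFun h 1) 1
  have h01 := congrFun (congrFun h 0) 1
  simp [form] at h11 h01
  rw [h11] at h01
  exact H3.ext ((div_left_inj' (by exact_mod_cast Q.t_ne_zero)).mp h01) h11

theorem conjTranspose_form (P : H3) : P.form.conjTranspose = P.form := by
  ext i j
  fin_cases i <;> fin_cases j <;> simp [form, Matrix.conjTranspose_apply, Complex.conj_ofReal]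

section Action

variable (g : GL (Fin 2) ℂ) (P : H3)

theorem row_ne_zero : g.val 1 0 ≠ 0 ∨ g.val 1 1 ≠ 0 := by
  by_contra! h
  have hdet : g.val.det ≠ 0 := g.det_ne_zero
  rw [Matrix.det_fin_two, h.1, h.2] at hdet
  simp at hdet

/-- The denominator of the action. -/
def denom : ℝ := normSq (g.val 1 0 * P.z + g.val 1 1) + normSq (g.val 1 0) * P.t ^ 2

theorem denom_pos : 0 < denom g P := by
  rcases eq_or_ne (g.val 1 0) 0 with h | h
  · have h1 := (row_ne_zero g).resolve_left (not_not.mpr h)
    simpa [denom, h] using h1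
  · have h1 : 0 < normSq (g.val 1 0) * P.t ^ 2 :=
      mul_pos (normSq_pos.mpr h) (pow_pos P.t_pos 2)
    have := normSq_nonneg (g.val 1 0 * P.z + g.val 1 1)
    unfold denom
    linarith

theorem ofReal_denom : ((denom g P : ℝ) : ℂ) = conj (g.val 1 0 * P.z + g.val 1 1) *
    (g.val 1 0 * P.z + g.val 1 1) + conj (g.val 1 0) * g.val 1 0 * (P.t : ℂ) ^ 2 := by
  simp [denom, Complex.normSq_eq_conj_mul_self]

instance : SMul (GL (Fin 2) ℂ) H3 := ⟨moebius⟩

/-- The Möbius map is the group action. -/
theorem moebius_eq_smul : moebius g P = g • P := rfl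

/-- The first coordinate of a translated point. -/
theorem smul_z : (g • P).z = ((g.val 0 0 * P.z + g.val 0 1) * conj (g.val 1 0 * P.z + g.val 1 1)
    + g.val 0 0 * conj (g.val 1 0) * (P.t : ℂ) ^ 2) / (denom g P : ℝ) := by
  simp only [denom, Complex.normSq_eq_norm_sq]
  rfl

/-- The height of a translated point. -/
theorem smul_t : (g • P).t = ‖g.val.det‖ * P.t / denom g P := by
  simp only [denom, Complex.normSq_eq_norm_sq]
  rfl

theorem form_smul :
    (g • P).form = (‖g.val.det‖ : ℂ)⁻¹ • (g.val * P.form * g.val.conjTranspose) := by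
  have ht : (P.t : ℂ) ≠ 0 := by exact_mod_cast P.t_ne_zero
  have hD : ((denom g P : ℝ) : ℂ) ≠ 0 := by exact_mod_cast (denom_pos g P).ne'
  have hn : (‖g.val.det‖ : ℂ) ≠ 0 := by exact_mod_cast (norm_pos_iff.mpr g.det_ne_zero).ne'
  have hn2 : (‖g.val.det‖ : ℂ) ^ 2 = conj g.val.det * g.val.det := by
    rw [← Complex.normSq_eq_conj_mul_self, Complex.normSq_eq_norm_sq]; push_cast; rfl
  set n : ℝ := ‖g.val.det‖ with hn_def
  rw [Matrix.det_fin_two] at hn2
  simp only [map_sub, map_mul] at hn2
  have hden := ofReal_denom g P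
  simp only [map_add, map_mul] at hden
  ext i j
  fin_cases i <;> fin_cases j <;>
    simp only [form, smul_z, smul_t, ← hn_def, Matrix.mul_apply, Fin.sum_univ_two,
      Matrix.conjTranspose_apply, Matrix.smul_apply, smul_eq_mul, Fin.zero_eta, Fin.mk_one,
      Fin.isValue, Matrix.of_apply, Matrix.cons_val', Matrix.cons_val_zero, Matrix.cons_val_one,
      Matrix.cons_val_fin_one, Complex.star_def, Complex.ofReal_div, Complex.ofReal_add,
      Complex.ofReal_mul, Complex.ofReal_pow, Complex.ofReal_inv, Complex.normSq_eq_conj_mul_self,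
      map_add, map_mul, map_div₀, map_pow, Complex.conj_conj, Complex.conj_ofReal]
  all_goals field_simp
  all_goals first
    | ring1
    | (rw [hden]; ring1)
    | (rw [hn2, hden]; ring1)

instance : MulAction (GL (Fin 2) ℂ) H3 where
  one_smul P := H3.ext (by simp [smul_z, denom]) (by simp [smul_t, denom])
  mul_smul g h P := form_injective (by
    simp only [form_smul, Units.val_mul, Matrix.det_mul, norm_mul, Complex.ofReal_mul, mul_inv,
      Matrix.conjTranspose_mul, Matrix.mul_smul, Matrix.smul_mul, smul_smul, Matrix.mul_assoc])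

end Action

/-- The squared length of a vector of `ℂ²` in the metric of a point. -/
def qform (P : H3) (v : Fin 2 → ℂ) : ℝ :=
  (normSq (v 0 - P.z * v 1) + P.t ^ 2 * normSq (v 1)) / P.t

theorem qform_nonneg (P : H3) (v : Fin 2 → ℂ) : 0 ≤ P.qform v :=
  div_nonneg (add_nonneg (normSq_nonneg _) (mul_nonneg (sq_nonneg _) (normSq_nonneg _))) P.t_pos.le

theorem qform_pos (P : H3) {v : Fin 2 → ℂ} (hv : v ≠ 0) : 0 < P.qform v := by
  refine div_pos ?_ P.t_pos
  rcases eq_or_ne (v 1) 0 with h | h
  · have h0 : v 0 ≠ 0 := fun h0 => hv (by ext i; fin_cases i <;> simp [h, h0])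
    simpa [h] using h0
  · exact add_pos_of_nonneg_of_pos (normSq_nonneg _)
      (mul_pos (pow_pos P.t_pos 2) (normSq_pos.mpr h))

theorem qform_smul_vec (P : H3) (a : ℂ) (v : Fin 2 → ℂ) :
    P.qform (a • v) = normSq a * P.qform v := by
  simp only [qform, Pi.smul_apply, smul_eq_mul]
  rw [show a * v 0 - P.z * (a * v 1) = a * (v 0 - P.z * v 1) by ring, map_mul, map_mul]
  ring

theorem qform_fst (P : H3) : P.qform ![1, 0] = P.t⁻¹ := by simp [qform]

/-- The metric is carried along by the action. -/
theorem qform_smul (g : GL (Fin 2) ℂ) (P : H3) (v : Fin 2 → ℂ) :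
    (g • P).qform (g.val.mulVec v) = ‖g.val.det‖ * P.qform v := by
  have ht : (P.t : ℂ) ≠ 0 := by exact_mod_cast P.t_ne_zero
  have hD : ((denom g P : ℝ) : ℂ) ≠ 0 := by exact_mod_cast (denom_pos g P).ne'
  have hn : (‖g.val.det‖ : ℂ) ≠ 0 := by exact_mod_cast (norm_pos_iff.mpr g.det_ne_zero).ne'
  have hn2 : (‖g.val.det‖ : ℂ) ^ 2 = conj g.val.det * g.val.det := by
    rw [← Complex.normSq_eq_conj_mul_self, Complex.normSq_eq_norm_sq]; push_cast; rfl
  set n : ℝ := ‖g.val.det‖ with hn_def
  rw [Matrix.det_fin_two] at hn2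
  simp only [map_sub, map_mul] at hn2
  have hden := ofReal_denom g P
  simp only [map_add, map_mul] at hden
  apply Complex.ofReal_injective
  simp only [qform, smul_z, smul_t, ← hn_def, Matrix.mulVec, dotProduct, Fin.sum_univ_two,
    Complex.ofReal_div, Complex.ofReal_add, Complex.ofReal_mul, Complex.ofReal_pow,
    Complex.normSq_eq_conj_mul_self, map_add, map_mul, map_sub, map_div₀, map_pow,
    Complex.conj_conj, Complex.conj_ofReal]
  field_simp
  rw [hn2, hden]
  ring

/-- Hadamard's inequality. -/
theorem normSq_det_le_qform_mul (P : H3) (v w : Fin 2 → ℂ) :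
    normSq (v 0 * w 1 - v 1 * w 0) ≤ P.qform v * P.qform w := by
  have ht := P.t_pos
  set a := v 0 - P.z * v 1
  set c := w 0 - P.z * w 1
  have hkey : normSq (a * (P.t * w 1) - P.t * v 1 * c)
      + normSq (a * conj c + (P.t : ℂ) * v 1 * conj ((P.t : ℂ) * w 1))
      = (normSq a + normSq ((P.t : ℂ) * v 1)) * (normSq c + normSq ((P.t : ℂ) * w 1)) := by
    apply Complex.ofReal_injective
    simp only [Complex.ofReal_add, Complex.ofReal_mul, Complex.normSq_eq_conj_mul_self, map_add,
      map_mul, map_sub, Complex.conj_conj, Complex.conj_ofReal]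
    ring
  have h1 : a * (P.t * w 1) - P.t * v 1 * c = (P.t : ℂ) * (v 0 * w 1 - v 1 * w 0) := by ring
  rw [h1] at hkey
  have h2 := normSq_nonneg (a * conj c + (P.t : ℂ) * v 1 * conj ((P.t : ℂ) * w 1))
  simp only [map_mul, Complex.normSq_ofReal, Complex.conj_ofReal] at hkey h2
  rw [qform, qform, div_mul_div_comm, le_div_iff₀ (mul_pos ht ht)]
  change _ ≤ (normSq a + P.t ^ 2 * normSq (v 1)) * (normSq c + P.t ^ 2 * normSq (w 1))
  nlinarith

theorem coshDist_eq (P Q : H3) :
    coshDist P Q = 1 + (normSq (P.z - Q.z) + (P.t - Q.t) ^ 2) / (2 * P.t * Q.t) := by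
  have := P.t_ne_zero
  have := Q.t_ne_zero
  rw [coshDist, Complex.normSq_eq_norm_sq]
  field_simp
  ring

/-- The hyperbolic cosine of a distance is at least one. -/
theorem one_le_coshDist (P Q : H3) : 1 ≤ coshDist P Q := by
  rw [coshDist_eq]
  exact le_add_of_nonneg_right (div_nonneg (add_nonneg (normSq_nonneg _) (sq_nonneg _))
    (mul_nonneg (mul_nonneg two_pos.le P.t_pos.le) Q.t_pos.le))

/-- The distance is symmetric. -/
theorem coshDist_comm (P Q : H3) : coshDist P Q = coshDist Q P := by
  rw [coshDist_eq, coshDist_eq, ← neg_sub Q.z P.z, normSq_neg]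
  ring

theorem coshDist_self (P : H3) : coshDist P P = 1 := by simp [coshDist_eq]

theorem two_mul_coshDist (P Q : H3) :
    ((2 * coshDist P Q : ℝ) : ℂ) = (P.form.adjugate * Q.form).trace := by
  have hP := P.t_ne_zero
  have hQ := Q.t_ne_zero
  simp only [coshDist_eq, form, Matrix.adjugate_fin_two, Matrix.trace_fin_two, Matrix.mul_apply,
    Fin.sum_univ_two, Matrix.of_apply, Matrix.cons_val', Matrix.cons_val_zero, Matrix.cons_val_one,
    Matrix.cons_val_fin_one, Fin.isValue]
  push_cast
  simp only [Complex.normSq_eq_conj_mul_self, map_sub]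
  have hP' : (P.t : ℂ) ≠ 0 := by exact_mod_cast hP
  have hQ' : (Q.t : ℂ) ≠ 0 := by exact_mod_cast hQ
  field_simp
  ring

/-- The distance is invariant. -/
theorem coshDist_smul (g : GL (Fin 2) ℂ) (P Q : H3) : coshDist (g • P) (g • Q) = coshDist P Q := by
  have hn : (‖g.val.det‖ : ℂ) ≠ 0 := by exact_mod_cast (norm_pos_iff.mpr g.det_ne_zero).ne'
  have hn2 : (‖g.val.det‖ : ℂ) ^ 2 = conj g.val.det * g.val.det := by
    rw [← Complex.normSq_eq_conj_mul_self, Complex.normSq_eq_norm_sq]; push_cast; rfl
  have key : ((g • P).form.adjugate * (g • Q).form).trace = (P.form.adjugate * Q.form).trace := by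
    have hstar : g.val.conjTranspose.adjugate *
      (P.form.adjugate * (g.val.adjugate * g.val) * Q.form)
        * g.val.conjTranspose = g.val.det • (g.val.conjTranspose.adjugate
          * (P.form.adjugate * Q.form) * g.val.conjTranspose) := by
      rw [Matrix.adjugate_mul]
      simp only [Matrix.mul_smul, Matrix.smul_mul, Matrix.mul_one]
    rw [form_smul, form_smul, Matrix.adjugate_smul, Fintype.card_fin, Matrix.smul_mul,
      Matrix.mul_smul, smul_smul, Matrix.trace_smul, Matrix.adjugate_mul_distrib,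
      Matrix.adjugate_mul_distrib,
      show g.val.conjTranspose.adjugate * (P.form.adjugate * g.val.adjugate)
          * (g.val * Q.form * g.val.conjTranspose)
        = g.val.conjTranspose.adjugate * (P.form.adjugate * (g.val.adjugate * g.val) * Q.form)
            * g.val.conjTranspose by simp only [Matrix.mul_assoc],
      hstar, Matrix.trace_smul, Matrix.trace_mul_comm, ← Matrix.mul_assoc, Matrix.mul_adjugate,
      Matrix.smul_mul, Matrix.one_mul, Matrix.trace_smul, Matrix.det_conjTranspose, smul_eq_mul,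
      smul_eq_mul, smul_eq_mul, Nat.add_one_sub_one, pow_one, ← mul_inv, ← sq, hn2,
        Complex.star_def]
    have := g.det_ne_zero
    have hc : conj g.val.det ≠ 0 := by simpa using this
    field_simp
  rw [← two_mul_coshDist, ← two_mul_coshDist, Complex.ofReal_inj] at key
  linarith

end H3

end FLTAgent.LanglandsTunnell
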