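import Fermat.Agent.LanglandsTunnell.Geom.Lattices

/-!
# Fractional ideals of ideles and of coordinates

The norm `nrm` of fractional ideals, the fractional ideal `ideleFrac z` of an idele, and the ideal
`coordFrac g v` of coefficients `c` with `c • v` in the lattice of `g`.  The inclusion
`coordFrac_mul_det_le` is the arithmetic input of `h h' ≤ 1` for cusp heights.
-/

set_option autoImplicit false

noncomputable section

open NumberField Matrix
open scoped nonZeroDivisors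

namespace FLTAgent.LanglandsTunnell.Geom

open FLTAgent.LanglandsTunnell

variable {F : Type} [Field F] [NumberField F]

/-! ### Norms of fractional ideals -/

/-- The absolute norm as a real number. -/
def nrm (I : FractionalIdeal (𝓞 F)⁰ F) : ℝ := ((FractionalIdeal.absNorm I : ℚ) : ℝ)

/-- The norm of a product of fractional ideals. -/
theorem nrm_mul (I J : FractionalIdeal (𝓞 F)⁰ F) : nrm (I * J) = nrm I * nrm J := by
  simp [nrm]

theorem nrm_one : nrm (1 : FractionalIdeal (𝓞 F)⁰ F) = 1 := by simp [nrm]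

/-- The norm of a nonzero fractional ideal is positive. -/
theorem nrm_pos {I : FractionalIdeal (𝓞 F)⁰ F} (h : I ≠ 0) : 0 < nrm I := by
  refine lt_of_le_of_ne (Rat.cast_nonneg.mpr (FractionalIdeal.absNorm_nonneg I)) (Ne.symm ?_)
  simpa [nrm, FractionalIdeal.absNorm_eq_zero_iff] using h

theorem nrm_spanSingleton (x : F) :
    nrm (FractionalIdeal.spanSingleton (𝓞 F)⁰ x) = |(Algebra.norm ℚ x : ℝ)| := by
  simp [nrm]

theorem nrm_le_of_le {I J : FractionalIdeal (𝓞 F)⁰ F} (hI : I ≠ 0) (h : I ≤ J) :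
    nrm J ≤ nrm I := by
  have hJ : J ≠ 0 := by
    rintro rfl
    exact hI (le_bot_iff.mp (by simpa using h))
  obtain ⟨A, hA⟩ := FractionalIdeal.le_one_iff_exists_coeIdeal.mp
    (show J⁻¹ * I ≤ 1 from (mul_le_mul_right h _).trans_eq (inv_mul_cancel₀ hJ))
  have hI' : I = J * A := by rw [hA, ← mul_assoc, mul_inv_cancel₀ hJ, one_mul]
  have hA0 : A ≠ ⊥ := by
    rintro rfl
    simp [hI'] at hI
  rw [hI', nrm_mul]
  refine le_mul_of_one_le_right (nrm_pos hJ).le ?_
  have : 1 ≤ Ideal.absNorm A :=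
    Nat.one_le_iff_ne_zero.mpr fun h0 => hA0 (Ideal.absNorm_eq_zero_iff.mp h0)
  simpa [nrm, FractionalIdeal.coeIdeal_absNorm] using (Nat.one_le_cast (α := ℝ)).mpr this

/-! ### Ideles -/

theorem exists_units_bound (z : (AF F)ˣ) : ∃ M : ℕ, M ≠ 0 ∧
    (M : AF F) * z ∈ intAF F ∧ (M : AF F) * (z⁻¹ : (AF F)ˣ) ∈ intAF F := by
  obtain ⟨a, ha, hza⟩ := exists_natCast_mul_mem_intAF (z : AF F)
  obtain ⟨b, hb, hzb⟩ := exists_natCast_mul_mem_intAF ((z⁻¹ : (AF F)ˣ) : AF F)
  refine ⟨a * b, mul_ne_zero ha hb, ?_, ?_⟩ <;> rw [Nat.cast_mul]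
  · rw [mul_right_comm]; exact mul_mem hza (natCast_mem_intAF b)
  · rw [mul_assoc]; exact mul_mem (natCast_mem_intAF a) hzb

/-- The elements of `F` in `z (𝓞 ⊗ Ẑ)`. -/
def ideleSub (z : (AF F)ˣ) : Submodule (𝓞 F) F where
  carrier := {c | toAF F c * (z⁻¹ : (AF F)ˣ) ∈ intAF F}
  add_mem' {a b} ha hb := by
    show toAF F (a + b) * _ ∈ intAF F
    rw [map_add, add_mul]
    exact add_mem ha hb
  zero_mem' := by
    show toAF F 0 * _ ∈ intAF F
    rw [map_zero, zero_mul]
    exact zero_mem _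
  smul_mem' c x hx := by
    show toAF F ((c : F) * x) * _ ∈ intAF F
    rw [map_mul, mul_assoc]
    exact mul_mem (toAF_mem_intAF c) hx

theorem isFractional_ideleSub (z : (AF F)ˣ) : IsFractional (𝓞 F)⁰ (ideleSub z) := by
  obtain ⟨M, hM, hMz, -⟩ := exists_units_bound z
  refine ⟨(M : 𝓞 F), mem_nonZeroDivisors_of_ne_zero (Nat.cast_ne_zero.mpr hM), fun c hc => ?_⟩
  obtain ⟨a, ha⟩ := exists_eq_of_toAF_mem_intAF (f := (M : F) * c) (by
    rw [map_mul, map_natCast, show (M : AF F) * toAF F c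
      = ((M : AF F) * z) * (toAF F c * (z⁻¹ : (AF F)ˣ)) by
        linear_combination -((M : AF F) * toAF F c) * z.mul_inv]
    exact mul_mem hMz hc)
  exact ⟨a, by rw [Algebra.smul_def, map_natCast]; exact ha⟩

/-- The fractional ideal of an idele. -/
def ideleFrac (z : (AF F)ˣ) : FractionalIdeal (𝓞 F)⁰ F := ⟨ideleSub z, isFractional_ideleSub z⟩

theorem mem_ideleFrac {z : (AF F)ˣ} {c : F} :
    c ∈ ideleFrac z ↔ toAF F c * (z⁻¹ : (AF F)ˣ) ∈ intAF F := Iff.rfl

theorem ideleFrac_one : ideleFrac (1 : (AF F)ˣ) = 1 := by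
  refine FractionalIdeal.coe_ext (Submodule.ext fun c => ?_)
  show c ∈ ideleFrac 1 ↔ c ∈ (1 : FractionalIdeal (𝓞 F)⁰ F)
  rw [mem_ideleFrac, FractionalIdeal.mem_one_iff, inv_one, Units.val_one, mul_one,
    toAF_mem_intAF_iff]

theorem ideleFrac_mul_le (z w : (AF F)ˣ) : ideleFrac z * ideleFrac w ≤ ideleFrac (z * w) :=
  FractionalIdeal.mul_le.mpr fun a ha b hb => by
    rw [mem_ideleFrac, map_mul, _root_.mul_inv_rev, Units.val_mul,
      mul_comm ((w⁻¹ : (AF F)ˣ) : AF F), mul_mul_mul_comm]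
    exact mul_mem ha hb

theorem ideleFrac_mul_inv (z : (AF F)ˣ) : ideleFrac z * ideleFrac z⁻¹ = 1 := by
  refine le_antisymm ((ideleFrac_mul_le z z⁻¹).trans_eq (by rw [mul_inv_cancel, ideleFrac_one]))
    (FractionalIdeal.one_le.mpr ?_)
  obtain ⟨M, hM, hMz, hMz'⟩ := exists_units_bound z
  obtain ⟨a, u, hu, ha⟩ := exists_approx (z : AF F) (pow_ne_zero 3 hM)
  obtain ⟨b, v, hv, hb⟩ := exists_approx ((z⁻¹ : (AF F)ˣ) : AF F) (pow_ne_zero 3 hM)
  push_cast at ha hb
  have h1 : (z : AF F) * (z⁻¹ : (AF F)ˣ) = 1 := z.mul_inv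
  have haI : a ∈ ideleFrac z := by
    rw [mem_ideleFrac, show toAF F a * (z⁻¹ : (AF F)ˣ)
      = 1 - (M : AF F) ^ 2 * (((M : AF F) * (z⁻¹ : (AF F)ˣ)) * u) by
        linear_combination h1 - ((z⁻¹ : (AF F)ˣ) : AF F) * ha]
    exact sub_mem (one_mem _) (mul_mem (pow_mem (natCast_mem_intAF M) 2) (mul_mem hMz' hu))
  have hbI : b ∈ ideleFrac z⁻¹ := by
    rw [mem_ideleFrac, inv_inv, show toAF F b * (z : AF F)
      = 1 - (M : AF F) ^ 2 * (((M : AF F) * z) * v) by
        linear_combination h1 - (z : AF F) * hb]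
    exact sub_mem (one_mem _) (mul_mem (pow_mem (natCast_mem_intAF M) 2) (mul_mem hMz hv))
  have hMI : (M : F) ∈ ideleFrac z ∧ (M : F) ∈ ideleFrac z⁻¹ := by
    simp only [mem_ideleFrac, inv_inv, map_natCast]
    exact ⟨hMz', hMz⟩
  obtain ⟨e, he⟩ := exists_eq_of_toAF_mem_intAF (f := (1 - a * b) / (M : F) ^ 2) (by
    refine (show toAF F ((1 - a * b) / (M : F) ^ 2)
      = ((M : AF F) * z - (M : AF F) ^ 4 * u) * v + ((M : AF F) * (z⁻¹ : (AF F)ˣ)
          - (M : AF F) ^ 4 * v) * u + (M : AF F) ^ 4 * (u * v) from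
      ((isUnit_natCast_AF (F := F) hM).pow 2).mul_left_cancel ?_) ▸
      add_mem (add_mem (mul_mem (sub_mem hMz (mul_mem (pow_mem (natCast_mem_intAF M) 4) hu)) hv)
        (mul_mem (sub_mem hMz' (mul_mem (pow_mem (natCast_mem_intAF M) 4) hv)) hu))
        (mul_mem (pow_mem (natCast_mem_intAF M) 4) (mul_mem hu hv))
    rw [← map_natCast (toAF F), ← map_pow, ← map_mul,
      mul_div_cancel₀ _ (pow_ne_zero 2 (Nat.cast_ne_zero.mpr hM)), map_sub, map_one, map_mul,
      map_pow, map_natCast]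
    linear_combination -h1 + (((z⁻¹ : (AF F)ˣ) : AF F) - (M : AF F) ^ 3 * v) * ha + toAF F a * hb)
  have hMM : (M : F) * (M : F) ∈ ideleFrac z * ideleFrac z⁻¹ :=
    FractionalIdeal.mul_mem_mul hMI.1 hMI.2
  have h2 : (1 : F) = a * b + e • ((M : F) * (M : F)) := by
    rw [Algebra.smul_def]
    change _ = _ + (e : F) * _
    rw [he, ← sq, div_mul_cancel₀ _ (pow_ne_zero 2 (Nat.cast_ne_zero.mpr hM))]
    ring
  rw [h2, ← FractionalIdeal.mem_coe]
  exact Submodule.add_mem _ (FractionalIdeal.mem_coe.mpr (FractionalIdeal.mul_mem_mul haI hbI))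
    (Submodule.smul_mem _ e (FractionalIdeal.mem_coe.mpr hMM))

/-- The fractional ideal of an idele is nonzero. -/
theorem ideleFrac_ne_zero (z : (AF F)ˣ) : ideleFrac z ≠ 0 :=
  left_ne_zero_of_mul_eq_one (ideleFrac_mul_inv z)

theorem ideleFrac_mul (z w : (AF F)ˣ) : ideleFrac (z * w) = ideleFrac z * ideleFrac w := by
  refine le_antisymm ?_ (ideleFrac_mul_le z w)
  calc ideleFrac (z * w) = ideleFrac z * (ideleFrac z⁻¹ * ideleFrac (z * w)) := by
        rw [← mul_assoc, ideleFrac_mul_inv, one_mul]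
    _ ≤ ideleFrac z * ideleFrac (z⁻¹ * (z * w)) := mul_le_mul_right (ideleFrac_mul_le _ _) _
    _ = _ := by rw [inv_mul_cancel_left]

theorem ideleFrac_toAF (x : Fˣ) :
    ideleFrac (Units.map (toAF F : F →* AF F) x) =
      FractionalIdeal.spanSingleton (𝓞 F)⁰ (x : F) := by
  refine FractionalIdeal.coe_ext (Submodule.ext fun c => ?_)
  show c ∈ ideleFrac _ ↔ c ∈ FractionalIdeal.spanSingleton (𝓞 F)⁰ (x : F)
  rw [mem_ideleFrac, ← map_inv, Units.coe_map, MonoidHom.coe_coe, ← map_mul, toAF_mem_intAF_iff,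
    FractionalIdeal.mem_spanSingleton]
  refine exists_congr fun a => ?_
  rw [Algebra.smul_def, Units.val_inv_eq_inv_val, ← div_eq_mul_inv, eq_div_iff x.ne_zero]

theorem ideleFrac_eq_one {z : (AF F)ˣ} (h : (z : AF F) ∈ intAF F)
    (h' : ((z⁻¹ : (AF F)ˣ) : AF F) ∈ intAF F) : ideleFrac z = 1 := by
  refine le_antisymm (fun c hc =>
    ?_) (FractionalIdeal.one_le.mpr (by simpa [mem_ideleFrac] using h'))
  change c ∈ ideleFrac z at hc
  rw [mem_ideleFrac] at hc
  show c ∈ (1 : FractionalIdeal (𝓞 F)⁰ F)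
  rw [FractionalIdeal.mem_one_iff]
  obtain ⟨a, ha⟩ := exists_eq_of_toAF_mem_intAF (f := c)
    (by simpa [mul_assoc] using mul_mem hc h)
  exact ⟨a, ha⟩

/-! ### Coordinates in lattices -/

/-- The coefficients `c` with `c • v` in the lattice of `g`. -/
def coordSub (g : GL (Fin 2) (AF F)) (v : Fin 2 → F) : Submodule (𝓞 F) F :=
  (latt g).comap ((LinearMap.toSpanSingleton F (Fin 2 → F) v).restrictScalars (𝓞 F))

theorem mem_latt_natCast_smul {g : GL (Fin 2) (AF F)} {M : ℕ} (hg : Bounded M g) {v : Fin 2 → F}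
    (hv : v ∈ latt g) (i : Fin 2) : ∃ a : 𝓞 F, (a : F) = (M : F) * v i := by
  refine exists_eq_of_toAF_mem_intAF ?_
  have h := hg.1.mulVec hv i
  rw [Matrix.smul_mulVec, Matrix.mulVec_mulVec, ← Units.val_mul, mul_inv_cancel, Units.val_one,
    Matrix.one_mulVec] at h
  rw [map_mul, map_natCast]
  exact h

theorem isFractional_coordSub (g : GL (Fin 2) (AF F)) {v : Fin 2 → F} (hv : v ≠ 0) :
    IsFractional (𝓞 F)⁰ (coordSub g v) := by
  obtain ⟨M, hM, hg⟩ := exists_bounded g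
  obtain ⟨i, hi⟩ := Function.ne_iff.mp hv
  obtain ⟨a, b, hb, hab⟩ := IsFractionRing.div_surjective (𝓞 F) (v i)
  have hb0 : algebraMap (𝓞 F) F b ≠ 0 := by simpa using nonZeroDivisors.ne_zero hb
  have ha0 : a ≠ 0 := by
    rintro rfl
    simp at hab
    exact hi hab.symm
  refine ⟨(M : 𝓞 F) * a, mem_nonZeroDivisors_of_ne_zero
    (mul_ne_zero (Nat.cast_ne_zero.mpr hM) ha0), fun c hc => ?_⟩
  obtain ⟨e, he⟩ := mem_latt_natCast_smul hg hc i
  refine ⟨b * e, ?_⟩
  rw [Algebra.smul_def, map_mul, map_mul, map_natCast]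
  change _ * (e : F) = _
  rw [he]
  change _ * ((M : F) * (c * v i)) = _
  rw [← hab]
  field_simp

open Classical in
/-- The fractional ideal of coefficients of `v` in the lattice of `g`. -/
def coordFrac (g : GL (Fin 2) (AF F)) (v : Fin 2 → F) : FractionalIdeal (𝓞 F)⁰ F :=
  if hv : v ≠ 0 then ⟨coordSub g v, isFractional_coordSub g hv⟩ else 0

theorem mem_coordFrac {g : GL (Fin 2) (AF F)} {v : Fin 2 → F} (hv : v ≠ 0) {c : F} :
    c ∈ coordFrac g v ↔ c • v ∈ latt g := by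
  rw [show coordFrac g v = ⟨coordSub g v, isFractional_coordSub g hv⟩ from dif_pos hv]
  exact Iff.rfl

theorem coordFrac_ne_zero (g : GL (Fin 2) (AF F)) {v : Fin 2 → F} (hv : v ≠ 0) :
    coordFrac g v ≠ 0 := by
  obtain ⟨M, hM, hg⟩ := exists_bounded g
  choose m hm a ha using fun i => exists_natCast_mul_eq_coe (v i)
  have hN : M * ∏ i, m i ≠ 0 := mul_ne_zero hM (Finset.prod_ne_zero_iff.mpr fun i _ => hm i)
  refine fun h0 => hN (Nat.cast_eq_zero (R := F).mp ((FractionalIdeal.mem_zero_iff _).mp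
    (h0 ▸ (mem_coordFrac hv).mpr ?_)))
  rw [mem_latt]
  have h1 : IsIntVec (fun j => toAF F (((∏ i, m i : ℕ) : F) * v j)) := fun j => by
    obtain ⟨k, hk⟩ := Finset.dvd_prod_of_mem m (Finset.mem_univ j)
    show toAF F _ ∈ intAF F
    rw [hk, Nat.cast_mul, mul_comm (m j : F), mul_assoc (k : F), map_mul, map_natCast]
    exact mul_mem (natCast_mem_intAF k) (ha j ▸ toAF_mem_intAF (a j))
  have h2 : toAF F ∘ (((M * ∏ i, m i : ℕ) : F) • v)
      = (M : AF F) • fun j => toAF F (((∏ i, m i : ℕ) : F) * v j) := funext fun j => by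
    simp [mul_assoc]
  rw [h2, Matrix.mulVec_smul, ← Matrix.smul_mulVec]
  exact hg.2.mulVec h1

theorem coordFrac_map_mul (γ : GL (Fin 2) F) (g : GL (Fin 2) (AF F)) (v : Fin 2 → F) :
    coordFrac (GeneralLinearGroup.map (toAF F) γ * g) (γ.val *ᵥ v) = coordFrac g v := by
  by_cases hv : v = 0
  · simp [hv, coordFrac]
  have hγv : γ.val *ᵥ v ≠ 0 := fun h => hv (by
    have := congrArg ((γ⁻¹).val *ᵥ ·) h
    simp only [Matrix.mulVec_mulVec, ← Units.val_mul, inv_mul_cancel, Units.val_one,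
      Matrix.one_mulVec, Matrix.mulVec_zero] at this
    exact this)
  refine FractionalIdeal.coe_ext (Submodule.ext fun c => ?_)
  show c ∈ coordFrac _ _ ↔ c ∈ coordFrac g v
  rw [mem_coordFrac hγv, mem_coordFrac hv, ← Matrix.mulVec_smul, mem_latt_map_mul]

theorem coordFrac_mul_right {g k : GL (Fin 2) (AF F)} (hk : Bounded 1 k) (v : Fin 2 → F) :
    coordFrac (g * k) v = coordFrac g v := by
  by_cases hv : v = 0
  · simp [hv, coordFrac]
  refine FractionalIdeal.coe_ext (Submodule.ext fun c => ?_)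
  show c ∈ coordFrac _ _ ↔ c ∈ coordFrac g v
  rw [mem_coordFrac hv, mem_coordFrac hv, latt_mul hk]

theorem ideleFrac_mul_coordFrac_le (g : GL (Fin 2) (AF F)) (z : (AF F)ˣ) {v : Fin 2 → F}
    (hv : v ≠ 0) :
    ideleFrac z * coordFrac g v ≤ coordFrac (g * GeneralLinearGroup.scalar (Fin 2) z) v :=
  FractionalIdeal.mul_le.mpr fun c hc d hd => by
    rw [mem_coordFrac hv] at hd ⊢
    rw [mem_latt] at hd ⊢
    intro i
    have h1 : toAF F ∘ ((c * d) • v) = toAF F c • (toAF F ∘ (d • v)) := funext fun j => by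
      simp [mul_assoc]
    have h2 : ((g * GeneralLinearGroup.scalar (Fin 2) z)⁻¹).val
        = ((z⁻¹ : (AF F)ˣ) : AF F) • (g⁻¹).val := by
      ext a b
      rw [_root_.mul_inv_rev, ← map_inv, Units.val_mul, GeneralLinearGroup.coe_scalar,
        Matrix.scalar_apply, Matrix.diagonal_mul]
      rfl
    rw [h1, h2, Matrix.mulVec_smul, Matrix.smul_mulVec, smul_smul]
    exact mul_mem hc (hd i)

theorem coordFrac_mul_scalar (g : GL (Fin 2) (AF F)) (z : (AF F)ˣ) {v : Fin 2 → F} (hv : v ≠ 0) :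
    coordFrac (g * GeneralLinearGroup.scalar (Fin 2) z) v = ideleFrac z * coordFrac g v := by
  refine le_antisymm ?_ (ideleFrac_mul_coordFrac_le g z hv)
  have h := ideleFrac_mul_coordFrac_le (g * GeneralLinearGroup.scalar (Fin 2) z) z⁻¹ hv
  rw [mul_assoc g, ← map_mul, mul_inv_cancel, map_one, mul_one] at h
  calc coordFrac (g * GeneralLinearGroup.scalar (Fin 2) z) v
      = ideleFrac z * (ideleFrac z⁻¹ * coordFrac (g * GeneralLinearGroup.scalar (Fin 2) z) v) := by
        rw [← mul_assoc, ideleFrac_mul_inv, one_mul]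
    _ ≤ _ := mul_le_mul_right h _

theorem coordFrac_smul (g : GL (Fin 2) (AF F)) {a : F} (ha : a ≠ 0) {v : Fin 2 → F} (hv : v ≠ 0) :
    coordFrac g (a • v) = FractionalIdeal.spanSingleton (𝓞 F)⁰ a⁻¹ * coordFrac g v := by
  refine FractionalIdeal.coe_ext (Submodule.ext fun c => ?_)
  show c ∈ coordFrac g (a • v) ↔ c ∈ FractionalIdeal.spanSingleton (𝓞 F)⁰ a⁻¹ * coordFrac g v
  rw [mem_coordFrac (smul_ne_zero ha hv), smul_smul, FractionalIdeal.mem_singleton_mul]
  refine ⟨fun h => ⟨c * a, (mem_coordFrac hv).mpr h, by field_simp⟩, ?_⟩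
  rintro ⟨y, hy, rfl⟩
  rwa [mul_right_comm, inv_mul_cancel₀ ha, one_mul, ← mem_coordFrac hv]

/-- The key inclusion behind `h h' ≤ 1`. -/
theorem coordFrac_mul_det_le (g : GL (Fin 2) (AF F)) {v w : Fin 2 → F} (hv : v ≠ 0) (hw : w ≠ 0) :
    coordFrac g v * coordFrac g w * FractionalIdeal.spanSingleton (𝓞 F)⁰ (v 0 * w 1 - v 1 * w 0)
      ≤ ideleFrac (GeneralLinearGroup.det g) := by
  have key : ∀ c ∈ coordFrac g v, ∀ d ∈ coordFrac g w,
      c * d * (v 0 * w 1 - v 1 * w 0) ∈ ideleFrac (GeneralLinearGroup.det g) := by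
    intro c hc d hd
    rw [mem_coordFrac hv, mem_latt] at hc
    rw [mem_coordFrac hw, mem_latt] at hd
    let A : Matrix (Fin 2) (Fin 2) F := !![c * v 0, d * w 0; c * v 1, d * w 1]
    have hA : IsIntMat ((g⁻¹).val * A.map (toAF F)) := fun i j => by
      have hcol : (fun l => (A.map (toAF F)) l j)
          = if j = 0 then toAF F ∘ (c • v) else toAF F ∘ (d • w) := by
        fin_cases j <;> (funext l; fin_cases l <;> simp [A])
      show ((g⁻¹).val *ᵥ fun l => (A.map (toAF F)) l j) i ∈ intAF F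
      rw [hcol]
      split_ifs
      exacts [hc i, hd i]
    have h := hA.det
    rw [Matrix.det_mul, ← RingHom.mapMatrix_apply, ← RingHom.map_det, mul_comm] at h
    rw [mem_ideleFrac, ← map_inv]
    convert h using 3
    rotate_left
    · exact GeneralLinearGroup.val_det_apply _
    · simp [A, Matrix.det_fin_two]; ring
  rw [FractionalIdeal.mul_le]
  intro x hx y hy
  obtain ⟨r, rfl⟩ := (FractionalIdeal.mem_spanSingleton _).mp hy
  rw [mul_smul_comm]
  refine Submodule.smul_mem (ideleFrac (GeneralLinearGroup.det g) : Submodule (𝓞 F) F) r ?_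
  refine FractionalIdeal.mul_induction_on hx (fun c hc d hd => key c hc d hd) fun p q hp hq => ?_
  rw [add_mul]
  exact add_mem hp hq

end FLTAgent.LanglandsTunnell.Geom
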