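import Fermat.Agent.LanglandsTunnell.Geom.FiniteAdeles

/-!
# Lattices attached to `GL₂` of the finite adeles

Integral matrices, the bound `Bounded M g` on the denominators of `g` and of `g⁻¹`, and the lattice
`latt g` of vectors of `F²` in `g (𝓞 ⊗ Ẑ)²`.  Matrices with bounded denominators give finitely many
level cosets (`finite_bounded`), so the finite part of the level quotient is countable
(`countable_finPt`).
-/

set_option autoImplicit false
set_option linter.unusedSectionVars false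

noncomputable section

open NumberField Matrix

namespace FLTAgent.LanglandsTunnell.Geom

open FLTAgent.LanglandsTunnell

theorem smul_mul_smul_matrix {R : Type} [CommRing R] (a b : R) (A B : Matrix (Fin 2) (Fin 2) R) :
    (a • A) * (b • B) = (a * b) • (A * B) := by
  rw [Matrix.smul_mul, Matrix.mul_smul, smul_smul]

theorem mul_smul_matrix {R : Type} [CommRing R] (a b : R) (A u : Matrix (Fin 2) (Fin 2) R) :
    A * ((a * b) • u) = b • ((a • A) * u) := by
  rw [Matrix.smul_mul, Matrix.mul_smul, smul_smul, mul_comm]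

theorem neg_mul_smul_matrix {R : Type} [CommRing R] (a b : R) (A u : Matrix (Fin 2) (Fin 2) R) :
    1 - A * ((a * b) • u) = 1 + b • ((-1 : R) • ((a • A) * u)) := by
  rw [mul_smul_matrix, sub_eq_add_neg, neg_one_smul, smul_neg]

variable {F : Type} [Field F]

/-! ### Integral matrices -/

/-- All entries are integral. -/
def IsIntMat (M : Matrix (Fin 2) (Fin 2) (AF F)) : Prop := ∀ i j, M i j ∈ intAF F

/-- An integral vector. -/
def IsIntVec (v : Fin 2 → AF F) : Prop := ∀ i, v i ∈ intAF F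

theorem IsIntMat.mul {A B : Matrix (Fin 2) (Fin 2) (AF F)} (hA : IsIntMat A) (hB : IsIntMat B) :
    IsIntMat (A * B) := fun i j => by
  rw [Matrix.mul_apply]
  exact sum_mem fun l _ => mul_mem (hA i l) (hB l j)

/-- An integral matrix preserves integral vectors. -/
theorem IsIntMat.mulVec {A : Matrix (Fin 2) (Fin 2) (AF F)} {v : Fin 2 → AF F} (hA : IsIntMat A)
    (hv : IsIntVec v) : IsIntVec (A *ᵥ v) := fun i => by
  show ∑ l, A i l * v l ∈ intAF F
  exact sum_mem fun l _ => mul_mem (hA i l) (hv l)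

/-- An integral matrix has integral determinant. -/
theorem IsIntMat.det {A : Matrix (Fin 2) (Fin 2) (AF F)} (hA : IsIntMat A) : A.det ∈ intAF F := by
  rw [Matrix.det_fin_two]
  exact sub_mem (mul_mem (hA 0 0) (hA 1 1)) (mul_mem (hA 0 1) (hA 1 0))

/-- Integral multiples of integral matrices are integral. -/
theorem IsIntMat.smul {A : Matrix (Fin 2) (Fin 2) (AF F)} (hA : IsIntMat A) {c : AF F}
    (hc : c ∈ intAF F) : IsIntMat (c • A) := fun i j => mul_mem hc (hA i j)

/-- The denominators of `g` and of `g⁻¹` divide `M`. -/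
def Bounded (M : ℕ) (g : GL (Fin 2) (AF F)) : Prop :=
  IsIntMat ((M : AF F) • g.val) ∧ IsIntMat ((M : AF F) • (g⁻¹).val)

theorem bounded_one_iff {g : GL (Fin 2) (AF F)} :
    Bounded 1 g ↔ IsIntMat g.val ∧ IsIntMat (g⁻¹).val := by
  simp [Bounded]

theorem Bounded.mul {M N : ℕ} {g h : GL (Fin 2) (AF F)} (hg : Bounded M g) (hh : Bounded N h) :
    Bounded (M * N) (g * h) := by
  refine ⟨?_, ?_⟩
  · rw [Nat.cast_mul, Units.val_mul, ← smul_mul_smul_matrix]
    exact hg.1.mul hh.1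
  · rw [_root_.mul_inv_rev, Nat.cast_mul, mul_comm, Units.val_mul, ← smul_mul_smul_matrix]
    exact hh.2.mul hg.2

theorem Bounded.mono {M N : ℕ} (h : M ∣ N) {g : GL (Fin 2) (AF F)} (hg : Bounded M g) :
    Bounded N g := by
  obtain ⟨k, rfl⟩ := h
  constructor <;> rw [Nat.cast_mul, mul_comm, ← smul_smul]
  exacts [hg.1.smul (natCast_mem_intAF k), hg.2.smul (natCast_mem_intAF k)]

/-- Boundedness of denominators is stable under inversion. -/
theorem Bounded.inv {M : ℕ} {g : GL (Fin 2) (AF F)} (hg : Bounded M g) : Bounded M g⁻¹ :=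
  ⟨hg.2, by rw [inv_inv]; exact hg.1⟩

variable [NumberField F]

theorem exists_bounded (g : GL (Fin 2) (AF F)) : ∃ M : ℕ, M ≠ 0 ∧ Bounded M g := by
  choose m hm h using fun p : Fin 2 × Fin 2 => exists_natCast_mul_mem_intAF (g.val p.1 p.2)
  choose m' hm' h' using fun p : Fin 2 × Fin 2 => exists_natCast_mul_mem_intAF ((g⁻¹).val p.1 p.2)
  refine ⟨(∏ p, m p) * ∏ p, m' p, mul_ne_zero (Finset.prod_ne_zero_iff.mpr fun p _ => hm p)
    (Finset.prod_ne_zero_iff.mpr fun p _ => hm' p), fun i j => ?_, fun i j => ?_⟩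
  · obtain ⟨k, hk⟩ := (Finset.dvd_prod_of_mem m (Finset.mem_univ (i, j))).mul_right (∏ p, m' p)
    rw [Matrix.smul_apply, smul_eq_mul, hk, Nat.cast_mul, mul_right_comm]
    exact mul_mem (h (i, j)) (natCast_mem_intAF k)
  · obtain ⟨k, hk⟩ := (Finset.dvd_prod_of_mem m' (Finset.mem_univ (i, j))).mul_left (∏ p, m p)
    rw [Matrix.smul_apply, smul_eq_mul, hk, Nat.cast_mul, mul_right_comm]
    exact mul_mem (h' (i, j)) (natCast_mem_intAF k)

theorem exists_vec_approx (x : Fin 2 → AF F) {M : ℕ} (hM : M ≠ 0) :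
    ∃ y : Fin 2 → F, ∃ w, IsIntVec w ∧ x = toAF F ∘ y + (M : AF F) • w := by
  choose y w hw h using fun i => exists_approx (x i) hM
  exact ⟨y, w, hw, funext h⟩

/-! ### The lattice of an adelic matrix -/

/-- The vectors of `F²` in `g (𝓞 ⊗ Ẑ)²`. -/
def latt (g : GL (Fin 2) (AF F)) : Submodule (𝓞 F) (Fin 2 → F) where
  carrier := {v | IsIntVec ((g⁻¹).val *ᵥ (toAF F ∘ v))}
  add_mem' {v w} hv hw := fun i => by
    have : toAF F ∘ (v + w) = toAF F ∘ v + toAF F ∘ w := funext fun j => map_add _ _ _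
    rw [this, Matrix.mulVec_add]
    exact add_mem (hv i) (hw i)
  zero_mem' := fun i => by
    have : toAF F ∘ (0 : Fin 2 → F) = 0 := funext fun j => map_zero _
    rw [this, Matrix.mulVec_zero]
    exact zero_mem _
  smul_mem' c v hv := fun i => by
    have : toAF F ∘ (c • v) = toAF F (c : F) • (toAF F ∘ v) :=
      funext fun j => by simp [Algebra.smul_def]
    rw [this, Matrix.mulVec_smul]
    exact mul_mem (toAF_mem_intAF c) (hv i)

theorem mem_latt {g : GL (Fin 2) (AF F)} {v : Fin 2 → F} :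
    v ∈ latt g ↔ IsIntVec ((g⁻¹).val *ᵥ (toAF F ∘ v)) := Iff.rfl

theorem map_mulVec (γ : GL (Fin 2) F) (v : Fin 2 → F) :
    (GeneralLinearGroup.map (toAF F) γ).val *ᵥ (toAF F ∘ v) = toAF F ∘ (γ.val *ᵥ v) :=
  funext fun i => (RingHom.map_mulVec (toAF F) γ.val v i).symm

theorem mem_latt_map_mul (γ : GL (Fin 2) F) (g : GL (Fin 2) (AF F)) (v : Fin 2 → F) :
    γ.val *ᵥ v ∈ latt (GeneralLinearGroup.map (toAF F) γ * g) ↔ v ∈ latt g := by
  rw [mem_latt, mem_latt, _root_.mul_inv_rev, Units.val_mul, ← Matrix.mulVec_mulVec,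
    ← map_mulVec, Matrix.mulVec_mulVec (toAF F ∘ v), ← Units.val_mul, inv_mul_cancel,
    Units.val_one, Matrix.one_mulVec]

theorem latt_mul {g k : GL (Fin 2) (AF F)} (hk : Bounded 1 k) : latt (g * k) = latt g := by
  have h := bounded_one_iff.mp hk
  ext v
  rw [mem_latt, mem_latt, _root_.mul_inv_rev, Units.val_mul, ← Matrix.mulVec_mulVec]
  refine ⟨fun hv => ?_, fun hv => h.2.mulVec hv⟩
  have := h.1.mulVec hv
  rwa [Matrix.mulVec_mulVec, ← Units.val_mul, mul_inv_cancel, Units.val_one,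
    Matrix.one_mulVec] at this

/-- A lattice between `m 𝓞²` and `𝓞²` comes from bounded denominators. -/
theorem bounded_of_latt {g : GL (Fin 2) (AF F)} {m : ℕ}
    (hle : ∀ v ∈ latt g, ∀ i, toAF F (v i) ∈ intAF F)
    (hge : ∀ v : Fin 2 → 𝓞 F, (fun i => (m : F) * (v i : F)) ∈ latt g) : Bounded m g := by
  refine ⟨fun i j => ?_, fun i j => ?_⟩
  · rw [Matrix.smul_apply, smul_eq_mul]
    refine mul_mem (natCast_mem_intAF m) ?_
    obtain ⟨M, hM, hMg⟩ := exists_bounded g
    obtain ⟨y, w, hw, hx⟩ := exists_vec_approx (fun l => g.val l j) hM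
    have hy : y ∈ latt g := by
      have h1 : toAF F ∘ y = (fun l => g.val l j) - (M : AF F) • w := eq_sub_of_add_eq hx.symm
      have h2 : (g⁻¹).val *ᵥ (fun l => g.val l j) = Pi.single j 1 := by
        rw [show (fun l => g.val l j) = g.val *ᵥ Pi.single j 1 from
          (Matrix.mulVec_single_one g.val j).symm, Matrix.mulVec_mulVec, ← Units.val_mul,
          inv_mul_cancel, Units.val_one, Matrix.one_mulVec]
      intro l
      rw [h1, Matrix.mulVec_sub, h2, Pi.sub_apply, Matrix.mulVec_smul, ← Matrix.smul_mulVec]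
      refine sub_mem ?_ (hMg.2.mulVec hw l)
      rw [Pi.single_apply]
      split_ifs
      exacts [one_mem _, zero_mem _]
    rw [show g.val i j = toAF F (y i) + (M : AF F) * w i from congrFun hx i]
    exact add_mem (hle y hy i) (mul_mem (natCast_mem_intAF M) (hw i))
  · have h := hge (Pi.single j 1) i
    have h2 : toAF F ∘ (fun l => (m : F) * ((Pi.single j 1 : Fin 2 → 𝓞 F) l : F))
        = (m : AF F) • Pi.single j 1 := by
      funext l
      rcases eq_or_ne l j with rfl | hl <;> simp [*]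
    rw [h2, Matrix.mulVec_smul, Matrix.mulVec_single_one] at h
    exact h

/-! ### Finiteness -/

variable {n : Ideal (𝓞 F)}

theorem finite_quotient_span_natCast {K : ℕ} (hK : K ≠ 0) :
    Finite (𝓞 F ⧸ Ideal.span {(K : 𝓞 F)}) :=
  Ideal.finiteQuotientOfFreeOfNeBot _ (by simpa using hK)

theorem congrOne_of_sub {N : ℕ} (hN : (N : 𝓞 F) ∈ n) {A : Matrix (Fin 2) (Fin 2) (AF F)}
    {u : Matrix (Fin 2) (Fin 2) (AF F)} (hu : IsIntMat u) (h : A = 1 + (N : AF F) • u) :
    CongrOne n A := fun i j => by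
  rw [h, add_sub_cancel_left, Matrix.smul_apply, smul_eq_mul, mul_comm]
  exact mul_mem_idealAF_left (hu i j) (natCast_mem_idealAF hN)

theorem mk_eq_of_sub {M N : ℕ} (hN : (N : 𝓞 F) ∈ n) {g g' : GL (Fin 2) (AF F)}
    (hg : Bounded M g) (hg' : Bounded M g') {u : Matrix (Fin 2) (Fin 2) (AF F)} (hu : IsIntMat u)
    (h : g'.val = g.val + ((M * N : ℕ) : AF F) • u) :
    (g : FinPt F n) = (g' : FinPt F n) := by
  rw [QuotientGroup.eq]
  refine Subgroup.mem_sup_left ⟨?_, ?_⟩
  · refine congrOne_of_sub hN (hg.2.mul hu) ?_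
    rw [Units.val_mul, h, Matrix.mul_add, ← Units.val_mul, inv_mul_cancel, Units.val_one,
      Nat.cast_mul, mul_smul_matrix]
  · refine congrOne_of_sub hN ((hg'.2.mul hu).smul (neg_mem (one_mem (intAF F)))) ?_
    rw [_root_.mul_inv_rev, inv_inv, Units.val_mul, eq_sub_of_add_eq h.symm, Matrix.mul_sub,
      ← Units.val_mul, inv_mul_cancel, Units.val_one, Nat.cast_mul, neg_mul_smul_matrix]

/-- Bounded denominators give finitely many cosets. -/
theorem finite_bounded (hn : n ≠ ⊥) {M : ℕ} (hM : M ≠ 0) :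
    ((fun g : GL (Fin 2) (AF F) => (g : FinPt F n)) '' {g | Bounded M g}).Finite := by
  set N := n.absNorm with hN_def
  have hN : (N : 𝓞 F) ∈ n := Ideal.absNorm_mem n
  have hN0 : N ≠ 0 := fun h => hn (Ideal.absNorm_eq_zero_iff.mp h)
  set K := M * (M * N) with hK_def
  have hK : K ≠ 0 := mul_ne_zero hM (mul_ne_zero hM hN0)
  have := finite_quotient_span_natCast (F := F) hK
  choose x u hu hx using fun a : intAF F => exists_coe_approx a.2 hK
  let res : {g : GL (Fin 2) (AF F) // Bounded M g} →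
      (Fin 2 → Fin 2 → 𝓞 F ⧸ Ideal.span {(K : 𝓞 F)}) :=
    fun g i j => Ideal.Quotient.mk _ (x ⟨_, g.2.1 i j⟩)
  refine Set.Finite.of_finite_image (f := fun v => {r | ∃ g, (g.1 : FinPt F n) = v ∧ res g = r})
    (Set.toFinite _) ?_
  rintro _ ⟨g, hg, rfl⟩ _ ⟨g', hg', rfl⟩ heq
  obtain ⟨h, hh, hres⟩ : res ⟨g, hg⟩ ∈ {r | ∃ h,
    (h.1 : FinPt F n) = (g' : FinPt F n) ∧ res h = r} := by
    dsimp only at heq
    rw [← heq]; exact ⟨⟨g, hg⟩, rfl, rfl⟩
  show (g : FinPt F n) = (g' : FinPt F n)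
  rw [← hh]
  choose d hd using fun i j => Ideal.mem_span_singleton'.mp
    ((Ideal.Quotient.eq).mp (congrFun (congrFun hres i) j))
  refine mk_eq_of_sub hN hg h.2
    (u := fun i j => toAF F (d i j : F) + u ⟨_, h.2.1 i j⟩ - u ⟨_, hg.1 i j⟩)
    (fun i j => sub_mem (add_mem (toAF_mem_intAF _) (hu _)) (hu _)) ?_
  ext i j
  refine (isUnit_natCast_AF (F := F) hM).mul_left_cancel ?_
  have h1 := hx ⟨_, h.2.1 i j⟩
  have h2 := hx ⟨_, hg.1 i j⟩
  have h3 := congrArg (fun a : 𝓞 F => toAF F (a : F)) (hd i j)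
  simp only [map_mul, map_sub, map_natCast] at h3
  show _ = (M : AF F) * (g.val i j + ((M * N : ℕ) : AF F) *
    (toAF F (d i j : F) + u ⟨_, h.2.1 i j⟩ - u ⟨_, hg.1 i j⟩))
  change (M : AF F) * h.1.val i j = _ at h1
  change (M : AF F) * g.val i j = _ at h2
  simp only [hK_def, Nat.cast_mul] at h1 h2 h3 ⊢
  linear_combination h1 - h2 - h3

/-- The finite part of the level quotient is countable. -/
theorem countable_finPt (hn : n ≠ ⊥) : Countable (FinPt F n) := by
  have h : (Set.univ : Set (FinPt F n)) = ⋃ M : ℕ, (fun g : GL (Fin 2) (AF F) => (g : FinPt F n)) ''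
      {g | Bounded (M + 1) g} := by
    refine (Set.eq_univ_of_forall fun v => ?_).symm
    obtain ⟨g, rfl⟩ := QuotientGroup.mk_surjective v
    obtain ⟨M, hM, hg⟩ := exists_bounded g
    exact Set.mem_iUnion.mpr ⟨M - 1, g, by rwa [Set.mem_ofPred_eq, Nat.sub_add_cancel
      (Nat.one_le_iff_ne_zero.mpr hM)], rfl⟩
  refine Set.countable_univ_iff.mp (h ▸ Set.countable_iUnion fun M => ?_)
  exact (finite_bounded hn (Nat.succ_ne_zero M)).countable

end FLTAgent.LanglandsTunnell.Geom
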