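import Fermat.Agent.LanglandsTunnell.Internal
import Fermat.Agent.LanglandsTunnell.Geom.BaseChange
import Fermat.Agent.LanglandsTunnell.Geom.Proper
import Fermat.Agent.LanglandsTunnell.Geom.Displacement

/-!
# Twisted points

For a self-map of `F` stabilising the level, twisting points intertwines the action
(`sigmaPt_act`) and preserves heights (`height_sigmaPt`).  Below a given height only boundedly
many translates lie near a point, uniformly, also for twisted points (`exists_encard_le_sigmaPt`).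
-/

set_option autoImplicit false
set_option linter.unusedSectionVars false

noncomputable section

open NumberField Matrix
open scoped nonZeroDivisors

namespace FLTAgent.LanglandsTunnell.Geom

open FLTAgent.LanglandsTunnell

variable {F : Type} [Field F] [NumberField F] {ι : Type} [Fintype ι] {n : Ideal (𝓞 F)}

/-- A map of fields keeping `n` keeps the level group. -/
theorem map_mem_levelGroup (f : F →+* F) (hf : n.map (RingOfIntegers.mapRingHom f) ≤ n)
    {k : GL (Fin 2) (AF F)} (hk : k ∈ levelGroup n) :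
    GeneralLinearGroup.map (mapAF f).toRingHom k ∈ levelGroup n := by
  obtain ⟨a, ha, c, hc, rfl⟩ := Subgroup.mem_sup_of_normal_right.mp hk
  rw [map_mul]
  refine mul_mem (Subgroup.mem_sup_left ?_) (Subgroup.mem_sup_right ?_)
  · have h : ∀ {A : Matrix (Fin 2) (Fin 2) (AF F)}, CongrOne n A →
        CongrOne n (A.map (mapAF f).toRingHom) := fun {A} hA i j => by
      rw [show (1 : Matrix (Fin 2) (Fin 2) (AF F)) = (1 : Matrix (Fin 2) (Fin 2) (AF F)).map
        (mapAF f).toRingHom from (Matrix.map_one _ (map_zero _) (map_one _)).symm,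
        Matrix.sub_apply, Matrix.map_apply, Matrix.map_apply, ← map_sub, ← Matrix.sub_apply]
      exact FLTAgent.LanglandsTunnell.idealAF_mono hf
        (FLTAgent.LanglandsTunnell.mapAF_mem_idealAF f (hA i j))
    refine ⟨h ha.1, ?_⟩
    rw [← map_inv]
    exact h ha.2
  · rw [GeneralLinearGroup.center_eq_range_scalar] at hc ⊢
    obtain ⟨z, rfl⟩ := hc
    exact ⟨_, (map_scalar_two _ z).symm⟩

theorem sigmaPt_mk (f : F →+* F) (hf : n.map (RingOfIntegers.mapRingHom f) ≤ n) (e : ι ≃ ι)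
    (g : GL (Fin 2) (AF F)) (P : ι → H3) :
    sigmaPt f e ((g : FinPt F n), P) =
      (((GeneralLinearGroup.map (mapAF f).toRingHom g : GL (Fin 2) (AF F)) : FinPt F n),
        fun i => P (e i)) := by
  refine Prod.ext ?_ rfl
  show (QuotientGroup.mk _ : FinPt F n) = QuotientGroup.mk _
  obtain ⟨k, hk⟩ := QuotientGroup.mk_out_eq_mul (levelGroup n) g
  rw [QuotientGroup.eq, hk, ← map_inv, ← map_mul, _root_.mul_inv_rev, mul_assoc, inv_mul_cancel,
    mul_one]
  exact map_mem_levelGroup f hf (inv_mem k.2)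

theorem map_toAF_comm (f : F →+* F) (γ : GL (Fin 2) F) :
    GeneralLinearGroup.map (mapAF f).toRingHom (GeneralLinearGroup.map (toAF F) γ) =
      GeneralLinearGroup.map (toAF F) (GeneralLinearGroup.map f γ) :=
  Units.ext (Matrix.ext fun i j => FLTAgent.LanglandsTunnell.mapAF_toAF f (γ.val i j))

/-- The twist carries the action to the twisted action. -/
theorem sigmaPt_act (Φ : PlaceChoice F ι) (f : F →+* F)
    (hf : n.map (RingOfIntegers.mapRingHom f) ≤ n) (e : ι ≃ ι)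
    (he : ∀ i, Φ.emb (e i) = (Φ.emb i).comp f) (γ : GL (Fin 2) F) (x : Pt F ι n) :
    sigmaPt f e (act Φ γ x) = act Φ (GeneralLinearGroup.map f γ) (sigmaPt f e x) := by
  obtain ⟨g, hg⟩ := QuotientGroup.mk_surjective x.1
  rw [show x = ((g : FinPt F n), x.2) from Prod.ext hg.symm rfl, act_mk, sigmaPt_mk f hf,
    sigmaPt_mk f hf, act_mk, map_mul, map_toAF_comm]
  refine Prod.ext rfl (funext fun i => ?_)
  show GeneralLinearGroup.map (Φ.emb (e i)) γ • x.2 (e i) = _
  rw [he i]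
  rfl

/-- Heights of twisted points. -/
theorem height_sigmaPt (Φ : PlaceChoice F ι) (f : F →+* F) (e : ι ≃ ι)
    (he : ∀ i, Φ.emb (e i) = (Φ.emb i).comp f) (x : Pt F ι n) {v : Fin 2 → F} (hv : v ≠ 0) :
    height Φ (sigmaPt f e x) (f ∘ v) = height Φ x v := by
  conv_rhs => rw [show x = ((x.1.out : FinPt F n), x.2) from Prod.ext x.1.out_eq.symm rfl]
  exact height_map_equiv f Φ e (fun i => (he i).symm) x.1.out x.2 hv

theorem coshDist_bounds {P Q : H3} {B : ℝ} (h : H3.coshDist P Q ≤ B) :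
    Q.t ≤ 2 * B * P.t ∧ ‖P.z - Q.z‖ ^ 2 ≤ 2 * B * (P.t * Q.t) := by
  have hP := P.t_pos
  have hQ := Q.t_pos
  have h' : ‖P.z - Q.z‖ ^ 2 + P.t ^ 2 + Q.t ^ 2 ≤ B * (2 * P.t * Q.t) := by
    rw [H3.coshDist, div_le_iff₀ (by positivity)] at h
    exact h
  refine ⟨?_, by nlinarith [sq_nonneg P.t, sq_nonneg Q.t]⟩
  have h1 : Q.t * Q.t ≤ 2 * B * P.t * Q.t := by nlinarith [sq_nonneg P.t, sq_nonneg ‖P.z - Q.z‖]
  exact le_of_mul_le_mul_right h1 hQ

theorem exists_ball_box (C : ℝ) {c : ℝ} (hc : 0 < c) (b : ℝ) {B : ℝ} (hB : 1 ≤ B) :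
    ∃ C' c' b', 0 < c' ∧ ∀ P ∈ siegelBox ι C c b, ∀ Q : ι → H3,
      (∀ i, H3.coshDist (P i) (Q i) ≤ B) → Q ∈ siegelBox ι C' c' b' := by
  refine ⟨C + √(2 * B * (b * (2 * B * b))), c / (2 * B), 2 * B * b, by positivity,
    fun P hP Q hQ i => ?_⟩
  obtain ⟨h1, h2, h3⟩ := hP i
  have hb := coshDist_bounds (hQ i)
  have hb' := coshDist_bounds ((H3.coshDist_comm _ _).trans_le (hQ i))
  have hQb : (Q i).t ≤ 2 * B * b := hb.1.trans (mul_le_mul_of_nonneg_left h3 (by linarith))
  refine ⟨?_, ?_, hQb⟩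
  · have h4 : ‖(P i).z - (Q i).z‖ ≤ √(2 * B * (b * (2 * B * b))) :=
      Real.le_sqrt_of_sq_le (hb.2.trans (mul_le_mul_of_nonneg_left
        (mul_le_mul h3 hQb (Q i).t_pos.le ((P i).t_pos.le.trans h3)) (by linarith)))
    calc ‖(Q i).z‖ = ‖(P i).z - ((P i).z - (Q i).z)‖ := by rw [sub_sub_cancel]
      _ ≤ _ := (norm_sub_le _ _).trans (add_le_add h1 h4)
  · rw [div_le_iff₀ (by linarith), mul_comm]
    exact h2.trans hb'.1

/-- A bounded number of translates is near a point below a given height. -/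
theorem exists_encard_le (Φ : PlaceChoice F ι) (hn : n ≠ ⊥) {S : Set (FinPt F n)} (hS : S.Finite)
    (B L : ℝ) (τ : Pt F ι n → Pt F ι n) (φ : FinPt F n → FinPt F n)
    (ψ : (ι → H3) → ι → H3) (θ : GL (Fin 2) F → GL (Fin 2) F) (hψ : Continuous ψ)
    (hτ : ∀ x, τ x = (φ x.1, ψ x.2)) (hθ : ∀ γ x, τ (act Φ γ x) = act Φ (θ γ) (τ x)) :
    ∃ N : ℕ, ∀ x : Pt F ι n, (∀ v, v ≠ 0 → height Φ x v ≤ L) →
      ∀ g : GL (Fin 2) (AF F), (g : FinPt F n) = x.1 →
        {q : PGLF F | g⁻¹ • (act Φ q.out (τ x)).1 ∈ S ∧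
          ∀ i, H3.coshDist (x.2 i) ((act Φ q.out (τ x)).2 i) ≤ B}.encard ≤ N := by
  classical
  obtain ⟨R, C, c, hR, hc, hred⟩ := exists_truncated_reduction (n := n) Φ hn
  obtain ⟨b, hb⟩ := hred L
  obtain ⟨C', c', b', hc', hball⟩ :=
    exists_ball_box (ι := ι) C hc b (B := max B 1) (le_max_right _ _)
  choose s hs using QuotientGroup.mk_surjective (s := levelGroup n)
  choose Ms hMs0 hMs using fun v : FinPt F n => exists_bounded (s v)
  set M := (∏ v ∈ hS.toFinset, Ms v) * ∏ v ∈ hR.toFinset, Ms v with hM_def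
  have hM : M * M ≠ 0 := by
    simp [hM_def, Finset.prod_ne_zero_iff, hMs0]
  set Y := (fun g : GL (Fin 2) (AF F) => (g : FinPt F n)) '' {g | Bounded (M * M) g}
  have hY : Y.Finite := finite_bounded hn hM
  set E : Set (PGLF F) := ⋃ y ∈ φ '' R, ⋃ y' ∈ Y,
    {q | ∃ P ∈ ψ '' siegelBox ι C c b, (act Φ q.out (y, P)).1 = y' ∧
      (act Φ q.out (y, P)).2 ∈ siegelBox ι C' c' b'}
  have hE : E.Finite := (hR.image φ).biUnion fun y _ => hY.biUnion fun y' _ =>
    finite_act_inter Φ ((isCompact_siegelBox C hc b).image hψ) (isCompact_siegelBox C' hc' b') y y'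
  refine ⟨hE.toFinset.card, fun x hx g hg => ?_⟩
  obtain ⟨δ, hδR, hδB⟩ := hb x hx
  rw [← hE.encard_eq_coe_toFinset_card]
  let conj : PGLF F → PGLF F := fun q =>
    (δ : PGLF F) * q * ((θ δ : GL (Fin 2) F) : PGLF F)⁻¹
  have hinj : Function.Injective conj := fun a a' h => mul_left_cancel (mul_right_cancel h)
  rw [← hinj.injOn.encard_image]
  refine Set.encard_le_encard ?_
  rintro _ ⟨q, ⟨hqS, hqB⟩, rfl⟩
  have hkey : act Φ (conj q).out (τ (act Φ δ x)) = act Φ δ (act Φ q.out (τ x)) := by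
    have h1 : conj q = ((δ * q.out * (θ δ)⁻¹ : GL (Fin 2) F) : PGLF F) := by
      show (δ : PGLF F) * q * _ = _
      conv_lhs => rw [← q.out_eq]
      rfl
    rw [h1, act_out, hθ, ← act_mul, inv_mul_cancel_right, act_mul]
  refine Set.mem_iUnion₂.mpr ⟨φ (act Φ δ x).1, ⟨_, hδR, rfl⟩, Set.mem_iUnion₂.mpr
    ⟨(act Φ δ (act Φ q.out (τ x))).1, ?_, ψ (act Φ δ x).2, ⟨_, hδB, rfl⟩, ?_⟩⟩
  · -- the finite part is bounded
    set a := (act Φ δ x).1 with ha
    have hga : ((GeneralLinearGroup.map (toAF F) δ * g : GL (Fin 2) (AF F)) : FinPt F n) = a := by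
      rw [ha, ← smul_eq_mul, ← MulAction.Quotient.smul_coe, hg]
      rfl
    obtain ⟨k, hk, z, hz⟩ := exists_level_decomp (n := n) (g := s a)
      (g' := GeneralLinearGroup.map (toAF F) δ * g) ((hs a).trans hga.symm)
    set p := g⁻¹ • (act Φ q.out (τ x)).1
    refine ⟨s a * k * s p, ?_, ?_⟩
    · have h2 : Bounded (Ms a * 1 * Ms p) (s a * k * s p) :=
        ((hMs a).mul (bounded_of_congrOne hk)).mul (hMs p)
      refine h2.mono ?_
      rw [mul_one]
      exact mul_dvd_mul ((Finset.dvd_prod_of_mem Ms (hR.mem_toFinset.mpr hδR)).mul_left _)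
        ((Finset.dvd_prod_of_mem Ms (hS.mem_toFinset.mpr hqS)).mul_right _)
    · have e2 : g • ((s p : GL (Fin 2) (AF F)) : FinPt F n) = (act Φ q.out (τ x)).1 :=
        (congrArg (g • ·) (hs p)).trans (smul_inv_smul g _)
      show (QuotientGroup.mk _ : FinPt F n) = GeneralLinearGroup.map (toAF F) δ • _
      rw [← e2, MulAction.Quotient.smul_coe, MulAction.Quotient.smul_coe, smul_eq_mul, smul_eq_mul,
        ← mul_assoc, hz, QuotientGroup.eq]
      refine Subgroup.mem_sup_right ?_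
      rw [GeneralLinearGroup.center_eq_range_scalar]
      refine ⟨z, ?_⟩
      have hzc : GeneralLinearGroup.scalar (Fin 2) z * s p
          = s p * GeneralLinearGroup.scalar (Fin 2) z :=
        (Subgroup.mem_center_iff.mp (by
          rw [GeneralLinearGroup.center_eq_range_scalar]
          exact ⟨z, rfl⟩) _).symm
      rw [eq_inv_mul_iff_mul_eq]
      simp only [mul_assoc, hzc]
  · rw [← hkey, hτ (act Φ δ x)]
    refine ⟨rfl, ?_⟩
    have h2 : (act Φ (conj q).out (φ (act Φ δ x).1, ψ (act Φ δ x).2)).2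
        = (act Φ δ (act Φ q.out (τ x))).2 := by rw [← hkey, hτ (act Φ δ x)]
    rw [h2]
    refine hball _ hδB _ fun i => ?_
    show H3.coshDist (GeneralLinearGroup.map (Φ.emb i) δ • x.2 i)
      (GeneralLinearGroup.map (Φ.emb i) δ • (act Φ q.out (τ x)).2 i) ≤ _
    rw [H3.coshDist_smul]
    exact (hqB i).trans (le_max_left _ _)

/-- Local finiteness for the identity. -/
theorem exists_encard_le_id (Φ : PlaceChoice F ι) (hn : n ≠ ⊥) {S : Set (FinPt F n)}
    (hS : S.Finite) (B L : ℝ) : ∃ N : ℕ, ∀ x : Pt F ι n, (∀ v, v ≠ 0 → height Φ x v ≤ L) →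
      ∀ g : GL (Fin 2) (AF F), (g : FinPt F n) = x.1 →
        {q : PGLF F | g⁻¹ • (act Φ q.out x).1 ∈ S ∧
          ∀ i, H3.coshDist (x.2 i) ((act Φ q.out x).2 i) ≤ B}.encard ≤ N :=
  exists_encard_le Φ hn hS B L id id id id continuous_id (fun _ => rfl) (fun _ _ => rfl)

/-- Local finiteness for twisted points. -/
theorem exists_encard_le_sigmaPt (Φ : PlaceChoice F ι) (hn : n ≠ ⊥) {S : Set (FinPt F n)}
    (hS : S.Finite) (B L : ℝ) (f : F →+* F) (hf : n.map (RingOfIntegers.mapRingHom f) ≤ n)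
    (e : ι ≃ ι) (he : ∀ i, Φ.emb (e i) = (Φ.emb i).comp f) :
    ∃ N : ℕ, ∀ x : Pt F ι n, (∀ v, v ≠ 0 → height Φ x v ≤ L) →
      ∀ g : GL (Fin 2) (AF F), (g : FinPt F n) = x.1 →
        {q : PGLF F | g⁻¹ • (act Φ q.out (sigmaPt f e x)).1 ∈ S ∧
          ∀ i, H3.coshDist (x.2 i) ((act Φ q.out (sigmaPt f e x)).2 i) ≤ B}.encard ≤ N :=
  exists_encard_le Φ hn hS B L (sigmaPt f e)
    (fun v => ((GeneralLinearGroup.map (mapAF f).toRingHom v.out : GL (Fin 2) (AF F)) : FinPt F n))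
    (fun P i => P (e i)) (GeneralLinearGroup.map f) (continuous_pi fun i => continuous_apply (e i))
    (fun _ => rfl) (sigmaPt_act Φ f hf e he)

/-- Levels generated by natural numbers are stable under every map of the field. -/
theorem map_span_natCast_le (f : F →+* F) (N : ℕ) :
    (Ideal.span {(N : 𝓞 F)}).map (RingOfIntegers.mapRingHom f) ≤ Ideal.span {(N : 𝓞 F)} := by
  rw [Ideal.map_span, Set.image_singleton, map_natCast]

end FLTAgent.LanglandsTunnell.Geom
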